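import Mathlib
import Fermat.Agent.S56.GW.Seams
import Fermat.Agent.S55.Trans.LocUnits
import Fermat.Agent.S55.Level.LES
import Fermat.Agent.S55.Level.HomModule
import Fermat.Agent.S56.GW.EC.Sh.HS
import Fermat.Agent.S56.GW.EC.Ind.FinalP

/-!
# [GW-LEC] the internal seams of Tate's local Euler characteristic (prefix `s56l_`)

`G_q := primeLocalGaloisGroup q`, `L := tl_levelsLoc q`, `Ω := tl_locUnits q`,
`Z := s56l_mu p q = Ω[p]`.

* `s56l_Core_stmt` : the local Euler characteristic formula (with equality) in the S55 level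
  formalism, for every finite smooth `p`-torsion `G_q`-module.
* `s56l_RE_stmt` : right exactness of `lvH2` ([EC-SYL] + [EC-H3-loc]).
* `s56l_Fin_stmt` : finiteness of `lvH1`, `lvH2`.
* `s56l_Base_stmt` : the base case `W ≤ U`, `p ∤ [U:W]`, `W` a normal level fixing the
  coefficients and `μ_p`; `s56l_BaseH1_stmt`, `s56l_BaseH2_stmt`, `s56l_BR_stmt`,
  `s56l_Alg1_stmt`, `s56l_Alg2_stmt` its pieces.
* `s56l_f`, `s56l_AddFn_stmt`, `s56l_Cyc_stmt` : the additive function fed to `s56ei_main'`.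
-/

set_option autoImplicit false

open Fermat.Agent.S55 ExtCitation

namespace Fermat.Agent.S56

/-! ### Torsion submodule, trivial module, inflation -/

section tor

variable (G : Type*) [Monoid G] (X : Type*) [AddCommGroup X] (p : ℕ)

/-- The `p`-torsion of a module. -/
def s56l_tor : AddSubgroup X where
  carrier := {x | p • x = 0}
  zero_mem' := smul_zero p
  add_mem' := fun {a b} ha hb => by
    show p • (a + b) = 0
    rw [smul_add, show p • a = 0 from ha, show p • b = 0 from hb, add_zero]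
  neg_mem' := fun {a} ha => by
    show p • (-a) = 0
    rw [smul_neg, show p • a = 0 from ha, neg_zero]

theorem s56l_mem_tor {x : X} : x ∈ s56l_tor X p ↔ p • x = 0 := Iff.rfl

variable [DistribMulAction G X]

instance s56l_tor.instAction : DistribMulAction G ↥(s56l_tor X p) where
  smul g x := ⟨g • (x : X), by
    show p • (g • (x : X)) = 0
    rw [smul_comm, show p • (x : X) = 0 from x.2, smul_zero]⟩
  one_smul x := Subtype.ext (one_smul G (x : X))
  mul_smul g h x := Subtype.ext (mul_smul g h (x : X))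
  smul_zero g := Subtype.ext (smul_zero g)
  smul_add g x y := Subtype.ext (smul_add g (x : X) (y : X))

@[simp] theorem s56l_tor.coe_smul (g : G) (x : ↥(s56l_tor X p)) :
    ((g • x : ↥(s56l_tor X p)) : X) = g • (x : X) := rfl

end tor

/-- The Kummer sequence `0 → X[p] → X → X → 0` of a `p`-divisible module. -/
def s56l_kummer (G : Type*) [Group G] (X : Type*) [AddCommGroup X] [DistribMulAction G X] (p : ℕ)
    (hdiv : ∀ x : X, ∃ y : X, p • y = x) : LvSES G ↥(s56l_tor X p) X X where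
  i := (s56l_tor X p).subtype
  π := nsmulAddMonoidHom p
  i_equiv := fun _ _ => rfl
  π_equiv := fun g b => by
    show p • (g • b) = g • (p • b)
    rw [smul_comm]
  i_inj := Subtype.coe_injective
  π_surj := hdiv
  exact := fun b => ⟨fun h => ⟨⟨b, h⟩, rfl⟩, fun ⟨a, ha⟩ => ha ▸ a.2⟩

@[simp] theorem s56l_kummer_π (G : Type*) [Group G] (X : Type*) [AddCommGroup X]
    [DistribMulAction G X] (p : ℕ) (hdiv : ∀ x : X, ∃ y : X, p • y = x) (x : X) :
    (s56l_kummer G X p hdiv).π x = p • x := rfl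

/-- `ZMod p` with the trivial action of `G`. -/
@[nolint unusedArguments]
def s56l_Fp (_G : Type*) (p : ℕ) : Type := ZMod p

instance s56l_Fp.instAddCommGroup (G : Type*) (p : ℕ) : AddCommGroup (s56l_Fp G p) :=
  inferInstanceAs (AddCommGroup (ZMod p))

instance s56l_Fp.instAction (G : Type*) [Monoid G] (p : ℕ) : DistribMulAction G (s56l_Fp G p) where
  smul _ x := x
  one_smul _ := rfl
  mul_smul _ _ _ := rfl
  smul_zero _ := rfl
  smul_add _ _ _ := rfl

@[simp] theorem s56l_Fp.smul_def (G : Type*) [Monoid G] (p : ℕ) (g : G) (x : s56l_Fp G p) :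
    g • x = x := rfl

section infl

variable {p : ℕ} {G Δ : Type*} [Group G] [Group Δ] (π : G →* Δ)
  {M : Type*} [AddCommGroup M] [Module (ZMod p) M] (ρ : Representation (ZMod p) Δ M)

/-- The inflation of a representation of `Δ` along `π : G →* Δ`, as a `G`-module of the level
formalism. -/
@[nolint unusedArguments]
def s56l_Infl (_π : G →* Δ) (_ρ : Representation (ZMod p) Δ M) : Type _ := M

instance s56l_Infl.instAddCommGroup : AddCommGroup (s56l_Infl π ρ) :=
  inferInstanceAs (AddCommGroup M)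

instance s56l_Infl.instModule : Module (ZMod p) (s56l_Infl π ρ) :=
  inferInstanceAs (Module (ZMod p) M)

instance s56l_Infl.instAction : DistribMulAction G (s56l_Infl π ρ) where
  smul g m := ρ (π g) (show M from m)
  one_smul m := by
    show ρ (π 1) (show M from m) = m
    rw [map_one, map_one]; rfl
  mul_smul g h m := by
    show ρ (π (g * h)) (show M from m) = ρ (π g) (ρ (π h) (show M from m))
    rw [map_mul, map_mul]; rfl
  smul_zero g := map_zero (ρ (π g))
  smul_add g m m' := map_add (ρ (π g)) _ _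

/-- The identity `M → s56l_Infl π ρ`. -/
def s56l_Infl.of : M ≃+ s56l_Infl π ρ := AddEquiv.refl M

theorem s56l_Infl.smul_def (g : G) (m : s56l_Infl π ρ) :
    g • m = s56l_Infl.of π ρ (ρ (π g) ((s56l_Infl.of π ρ).symm m)) := rfl

instance s56l_Infl.instFinite [Finite M] : Finite (s56l_Infl π ρ) := inferInstanceAs (Finite M)

end infl

/-! ### The local data -/

/-- `μ_p ⊂ (PadicAlgCl q)ˣ`, as a `G_q`-module (additively). -/
noncomputable abbrev s56l_mu (p : ℕ) (q : Nat.Primes) : AddSubgroup (tl_locUnits q) :=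
  s56l_tor (tl_locUnits q) p

/-- The Kummer sequence `0 → μ_p → Ω → Ω → 0` over `G_q`. -/
noncomputable def s56l_kummerLoc (p : ℕ) (hp : p ≠ 0) (q : Nat.Primes) :
    LvSES (primeLocalGaloisGroup q) ↥(s56l_mu p q) (tl_locUnits q) (tl_locUnits q) :=
  s56l_kummer (primeLocalGaloisGroup q) (tl_locUnits q) p (tl_locUnits_divisible q p hp)

/-! ### The core statement -/

/-- **[GW-LEC] core**: Tate's local Euler characteristic formula in the level formalism. -/
def s56l_Core_stmt : Prop :=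
  ∀ (p : ℕ) [Fact p.Prime], p ≠ 2 → ∀ (q : Nat.Primes) (N : Type) [AddCommGroup N]
    [DistribMulAction (primeLocalGaloisGroup q) N] [Finite N],
    (∀ n : N, p • n = 0) → (tl_levelsLoc q).IsSmooth N →
    Finite (lvH1 (tl_levelsLoc q) N) ∧ Finite (lvH2 (tl_levelsLoc q) N) ∧
    Nat.card (lvH1 (tl_levelsLoc q) N) =
      Nat.card (lvH0 (G := primeLocalGaloisGroup q) N) * Nat.card (lvH2 (tl_levelsLoc q) N) *
        (if q = pPrime p then Nat.card N else 1)

/-- **[LEC-RE]** right exactness of `lvH2` over `G_q` ([EC-SYL] + [EC-H3-loc]). -/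
def s56l_RE_stmt : Prop :=
  ∀ (p : ℕ) [Fact p.Prime] (q : Nat.Primes) {A B C : Type} [AddCommGroup A]
    [DistribMulAction (primeLocalGaloisGroup q) A] [Finite A]
    [AddCommGroup B] [DistribMulAction (primeLocalGaloisGroup q) B]
    [AddCommGroup C] [DistribMulAction (primeLocalGaloisGroup q) C]
    (E : LvSES (primeLocalGaloisGroup q) A B C), (tl_levelsLoc q).IsSmooth B →
    (∀ a : A, p • a = 0) → Function.Surjective (E.mπ (tl_levelsLoc q)).H2

/-- **[LEC-FIN]** finiteness of `lvH1`, `lvH2` over `G_q`. -/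
def s56l_Fin_stmt : Prop :=
  ∀ (p : ℕ) [Fact p.Prime] (q : Nat.Primes) (N : Type) [AddCommGroup N]
    [DistribMulAction (primeLocalGaloisGroup q) N] [Finite N],
    (∀ n : N, p • n = 0) → (tl_levelsLoc q).IsSmooth N →
    Finite (lvH1 (tl_levelsLoc q) N) ∧ Finite (lvH2 (tl_levelsLoc q) N)

/-! ### The base case -/

/-- The hypotheses on the pair `W ≤ U` of the base case: `W` a normal subgroup of `G_q` containing
a level and fixing `μ_p`, `[U : W]` prime to `p`. -/
structure s56l_BaseHyp (p : ℕ) (q : Nat.Primes) (W U : Subgroup (primeLocalGaloisGroup q)) :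
    Prop where
  normal : W.Normal
  level : ∃ V₀ ∈ (tl_levelsLoc q).levels, V₀ ≤ W
  le : W ≤ U
  index : ¬ p ∣ (W.subgroupOf U).index
  mu : ∀ w ∈ W, ∀ ζ : ↥(s56l_mu p q), w • ζ = ζ

/-- The hypotheses on the coefficient module of the base case. -/
structure s56l_CoefHyp (p : ℕ) {q : Nat.Primes} (W U : Subgroup (primeLocalGaloisGroup q))
    (N : Type) [AddCommGroup N] [DistribMulAction U N] : Prop where
  finite : Finite N
  tors : ∀ n : N, p • n = 0
  triv : ∀ u : U, (u : primeLocalGaloisGroup q) ∈ W → ∀ n : N, u • n = n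

/-- **[LEC-BASE]** the Euler characteristic formula over `U`. -/
def s56l_Base_stmt : Prop :=
  ∀ (p : ℕ) [Fact p.Prime], p ≠ 2 → ∀ (q : Nat.Primes) (W U : Subgroup (primeLocalGaloisGroup q)),
    s56l_BaseHyp p q W U → ∀ (N : Type) [AddCommGroup N] [DistribMulAction U N],
    s56l_CoefHyp p W U N →
    Nat.card (lvH1 (s56esh_LU (tl_levelsLoc q) U) N) =
      Nat.card (lvH0 (G := U) N) * Nat.card (lvH2 (s56esh_LU (tl_levelsLoc q) U) N) *
        (if q = pPrime p then Nat.card N ^ U.index else 1)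

/-- **[LEC-BASEH1]** ([LEC-KUM1] + [LEC-FLD] + `s56gwl_units_padic`):
`#H¹(U,N) = #Hom_U(N^*, F_p) · #Hom_U(N^*, μ_p) · #N^{[q = p]·[G_q : U]}`, `N^* = Hom(N, μ_p)`. -/
def s56l_BaseH1_stmt : Prop :=
  ∀ (p : ℕ) [Fact p.Prime], p ≠ 2 → ∀ (q : Nat.Primes) (W U : Subgroup (primeLocalGaloisGroup q)),
    s56l_BaseHyp p q W U → ∀ (N : Type) [AddCommGroup N] [DistribMulAction U N],
    s56l_CoefHyp p W U N →
    Finite (lvH1 (s56esh_LU (tl_levelsLoc q) U) N) ∧
    Nat.card (lvH1 (s56esh_LU (tl_levelsLoc q) U) N) =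
      Nat.card (lvH0 (G := U) (LvHom (LvHom N ↥(s56l_mu p q)) (s56l_Fp U p))) *
        Nat.card (lvH0 (G := U) (LvHom (LvHom N ↥(s56l_mu p q)) ↥(s56l_mu p q))) *
        (if q = pPrime p then Nat.card N ^ U.index else 1)

/-- **[LEC-BASEH2]** ([LEC-KUM2] + [LEC-H2]): `#H²(U,N) = #Hom_U(μ_p, N)`. -/
def s56l_BaseH2_stmt : Prop :=
  ∀ (p : ℕ) [Fact p.Prime], p ≠ 2 → ∀ (q : Nat.Primes) (W U : Subgroup (primeLocalGaloisGroup q)),
    s56l_BaseHyp p q W U → ∀ (N : Type) [AddCommGroup N] [DistribMulAction U N],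
    s56l_CoefHyp p W U N →
    Finite (lvH2 (s56esh_LU (tl_levelsLoc q) U) N) ∧
    Nat.card (lvH2 (s56esh_LU (tl_levelsLoc q) U) N) =
      Nat.card (lvH0 (G := U) (LvHom ↥(s56l_mu p q) N))

/-- **[LEC-H2]** `H²(W, μ_p)` has order `p` and the conjugation action of `U` on it is trivial
(`Br(F)[p] = ℤ/p`, invariance of `inv`). -/
def s56l_BR_stmt : Prop :=
  ∀ (p : ℕ) [Fact p.Prime] (q : Nat.Primes) (W U : Subgroup (primeLocalGaloisGroup q))
    [W.Normal], s56l_BaseHyp p q W U →
    Nat.card (lvH2 (s56esh_LU (s56esh_LU (tl_levelsLoc q) U) (W.subgroupOf U))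
        ↥(s56l_mu p q)) = p ∧
    ∀ (g : U) (y : lvH2 (s56esh_LU (s56esh_LU (tl_levelsLoc q) U) (W.subgroupOf U))
        ↥(s56l_mu p q)),
      (s56esh_conjV (s56esh_LU (tl_levelsLoc q) U) (W.subgroupOf U) ↥(s56l_mu p q) g).H2 y = y

/-- **[LEC-ALG] (1)** `#Hom_U(Hom(N,Z), Z) = #N^U` (double duality), `Z` of order `p`. -/
def s56l_Alg1_stmt : Prop :=
  ∀ (p : ℕ) [Fact p.Prime] (U : Type) [Group U] (N : Type) [AddCommGroup N] [DistribMulAction U N]
    [Finite N] (Z : Type) [AddCommGroup Z] [DistribMulAction U Z],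
    (∀ n : N, p • n = 0) → (∀ z : Z, p • z = 0) → Nat.card Z = p →
    Nat.card (lvH0 (G := U) (LvHom (LvHom N Z) Z)) = Nat.card (lvH0 (G := U) N)

/-- **[LEC-ALG] (2)** `#Hom_U(Hom(N,Z), F_p) = #Hom_U(Z, N)`, `Z` of order `p`. -/
def s56l_Alg2_stmt : Prop :=
  ∀ (p : ℕ) [Fact p.Prime] (U : Type) [Group U] (N : Type) [AddCommGroup N] [DistribMulAction U N]
    [Finite N] (Z : Type) [AddCommGroup Z] [DistribMulAction U Z],
    (∀ n : N, p • n = 0) → (∀ z : Z, p • z = 0) → Nat.card Z = p →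
    Nat.card (lvH0 (G := U) (LvHom (LvHom N Z) (s56l_Fp U p))) =
      Nat.card (lvH0 (G := U) (LvHom Z N))

/-! ### The additive function -/

/-- The Euler characteristic defect of the inflation of a representation of `G_q ⧸ W`:
`h¹ - h⁰ - h² - [q = p] dim`. -/
noncomputable def s56l_f (p : ℕ) [Fact p.Prime] (q : Nat.Primes)
    (W : Subgroup (primeLocalGaloisGroup q)) [W.Normal] :
    ∀ (M : Type) [AddCommGroup M] [Module (ZMod p) M],
      Representation (ZMod p) (primeLocalGaloisGroup q ⧸ W) M → ℤ :=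
  fun M _ _ ρ =>
    (Nat.log p (Nat.card (lvH1 (tl_levelsLoc q) (s56l_Infl (QuotientGroup.mk' W) ρ))) : ℤ)
      - Nat.log p (Nat.card (lvH0 (G := primeLocalGaloisGroup q)
          (s56l_Infl (QuotientGroup.mk' W) ρ)))
      - Nat.log p (Nat.card (lvH2 (tl_levelsLoc q) (s56l_Infl (QuotientGroup.mk' W) ρ)))
      - (if q = pPrime p then (Module.finrank (ZMod p) M : ℤ) else 0)

/-- **[LEC-ADDFN]** `s56l_f` is additive (LES + right exactness + finiteness). -/
def s56l_AddFn_stmt : Prop :=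
  ∀ (p : ℕ) [Fact p.Prime] (q : Nat.Primes) (W : Subgroup (primeLocalGaloisGroup q)) [W.Normal],
    W ∈ (tl_levelsLoc q).levels →
    ∃ F : s56ei_AddFn (ZMod p) (primeLocalGaloisGroup q ⧸ W),
      ∀ (M : Type) [AddCommGroup M] [Module (ZMod p) M]
        (ρ : Representation (ZMod p) (primeLocalGaloisGroup q ⧸ W) M), F.f M ρ = s56l_f p q W M ρ

/-- **[LEC-CYC]** `s56l_f` vanishes on the base class (Shapiro + the base case). -/
def s56l_Cyc_stmt : Prop :=
  ∀ (p : ℕ) [Fact p.Prime], p ≠ 2 → ∀ (q : Nat.Primes)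
    (W : Subgroup (primeLocalGaloisGroup q)) [W.Normal],
    W ∈ (tl_levelsLoc q).levels → (∀ w ∈ W, ∀ ζ : ↥(s56l_mu p q), w • ζ = ζ) →
    ∀ (B : Subgroup (primeLocalGaloisGroup q ⧸ W)), (Nat.card B).Coprime p →
    ∀ (M : Type) [AddCommGroup M] [Module (ZMod p) M] [Module.Finite (ZMod p) M]
      (ρ : Representation (ZMod p) (primeLocalGaloisGroup q ⧸ W) M),
      s56l_f p q W _ (Representation.coind B.subtype (s56ei_res ρ B)) = 0

/-! ### Assembly of the base case -/

/-- `μ_p` has exactly `p` elements. -/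
theorem s56l_mu_card (p : ℕ) [Fact p.Prime] (q : Nat.Primes) : Nat.card ↥(s56l_mu p q) = p := by
  have : Fact (q : ℕ).Prime := ⟨q.2⟩
  have : NeZero p := ⟨(Fact.out : p.Prime).ne_zero⟩
  have : NeZero (p : PadicAlgCl (q : ℕ)) := ⟨by exact_mod_cast (Fact.out : p.Prime).ne_zero⟩
  have h := HasEnoughRootsOfUnity.natCard_rootsOfUnity (PadicAlgCl (q : ℕ)) p
  refine (Nat.card_congr ?_).trans h
  exact
    { toFun := fun z => ⟨tl_locUnits.val q (z : tl_locUnits q), by
        rw [mem_rootsOfUnity]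
        exact z.2⟩
      invFun := fun u => ⟨tl_locUnits.of q (u : (PadicAlgCl (q : ℕ))ˣ), by
        have := (mem_rootsOfUnity p (u : (PadicAlgCl (q : ℕ))ˣ)).1 u.2
        exact this⟩
      left_inv := fun z => rfl
      right_inv := fun u => rfl }

theorem s56l_mu_tors (p : ℕ) (q : Nat.Primes) (z : ↥(s56l_mu p q)) : p • z = 0 :=
  Subtype.ext z.2

/-- **[LEC-BASE]** from its pieces. -/
theorem s56l_base_of (h1 : s56l_BaseH1_stmt) (h2 : s56l_BaseH2_stmt)
    (ha1 : s56l_Alg1_stmt) (ha2 : s56l_Alg2_stmt) : s56l_Base_stmt := by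
  intro p _ hp2 q W U hWU N _ _ hN
  have := hN.finite
  rw [(h1 p hp2 q W U hWU N hN).2, (h2 p hp2 q W U hWU N hN).2,
    ha1 p U N ↥(s56l_mu p q) hN.tors (s56l_mu_tors p q) (s56l_mu_card p q),
    ha2 p U N ↥(s56l_mu p q) hN.tors (s56l_mu_tors p q) (s56l_mu_card p q)]
  ring

end Fermat.Agent.S56
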