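/-
S56, node [GW-LEC], cell [LEC-ALG] (prefix `s56lg_`): the two pure algebra seams
`s56l_Alg1_stmt` (double duality `#Hom_U(Hom(N,Z), Z) = #N^U`) and
`s56l_Alg2_stmt` (`#Hom_U(Hom(N,Z), F_p) = #Hom_U(Z, N)`) of `GW/LEC/Seams.lean`,
`N` a finite elementary abelian `p`-group with `U`-action, `Z` of order `p`.
-/
import Mathlib
import Fermat.Agent.S56.GW.LEC.Seams

set_option autoImplicit false
set_option linter.style.haveILetI false
set_option linter.unusedSectionVars false

open Fermat.Agent.S55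

namespace Fermat.Agent.S56

section vs

variable {p : ℕ} [Fact p.Prime]

/-- a `ZMod p`-vector space of cardinality `p` is a line -/
theorem s56lg_exists_iso_aux {Z : Type*} [AddCommGroup Z] [Module (ZMod p) Z]
    (hcard : Nat.card Z = p) : Nonempty (Z ≃ₗ[ZMod p] ZMod p) := by
  have hp : p.Prime := Fact.out
  haveI : Finite Z := Nat.finite_of_card_ne_zero (by rw [hcard]; exact hp.ne_zero)
  haveI : Module.Finite (ZMod p) Z := Module.Finite.of_finite
  have h1 : Nat.card Z = Nat.card (ZMod p) ^ Module.finrank (ZMod p) Z :=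
    Module.natCard_eq_pow_finrank
  rw [hcard, Nat.card_zmod] at h1
  have h2 : Module.finrank (ZMod p) Z = 1 := by
    have : p ^ 1 = p ^ Module.finrank (ZMod p) Z := by rw [pow_one]; exact h1
    exact (Nat.pow_right_injective hp.two_le this).symm
  exact ⟨LinearEquiv.ofFinrankEq Z (ZMod p) (by rw [h2, Module.finrank_self])⟩

/-- `#Hom(A, Z) = #A` for a finite `ZMod p`-vector space `A` and a line `Z` -/
theorem s56lg_card_hom_aux {A Z : Type*} [AddCommGroup A] [AddCommGroup Z] [Module (ZMod p) A]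
    [Module (ZMod p) Z] [Finite A] (hcard : Nat.card Z = p) : Nat.card (A →+ Z) = Nat.card A := by
  obtain ⟨θ⟩ := s56lg_exists_iso_aux hcard
  haveI : Module.Finite (ZMod p) A := Module.Finite.of_finite
  have e : (A →+ Z) ≃ Module.Dual (ZMod p) A :=
    (AddMonoidHom.toZModLinearMapEquiv p).toEquiv.trans (LinearEquiv.congrRight θ).toEquiv
  rw [Nat.card_congr e, Module.natCard_eq_pow_finrank (K := ZMod p) (V := Module.Dual (ZMod p) A),
    Subspace.dual_finrank_eq, ← Module.natCard_eq_pow_finrank]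

/-- `#Hom(Z, A) = #A` for a `ZMod p`-vector space `A` and a line `Z` -/
theorem s56lg_card_hom_aux' {A Z : Type*} [AddCommGroup A] [AddCommGroup Z] [Module (ZMod p) A]
    [Module (ZMod p) Z] (hcard : Nat.card Z = p) : Nat.card (Z →+ A) = Nat.card A := by
  obtain ⟨θ⟩ := s56lg_exists_iso_aux hcard
  have e : (Z →+ A) ≃ A :=
    (AddMonoidHom.toZModLinearMapEquiv p).toEquiv.trans
      ((LinearEquiv.congrLeft A (ZMod p) θ).toEquiv.trans
        (LinearMap.ringLmapEquivSelf (ZMod p) (ZMod p) A).toEquiv)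
  exact Nat.card_congr e

/-- homomorphisms to a line separate the points of a vector space -/
theorem s56lg_sep_aux {A Z : Type*} [AddCommGroup A] [AddCommGroup Z] [Module (ZMod p) A]
    [Module (ZMod p) Z] (hcard : Nat.card Z = p) (a : A) (ha : ∀ x : A →+ Z, x a = 0) : a = 0 := by
  obtain ⟨θ⟩ := s56lg_exists_iso_aux hcard
  rw [← Module.forall_dual_apply_eq_zero_iff (ZMod p) a]
  intro φ
  have := ha ((θ.symm.toLinearMap.comp φ).toAddMonoidHom)
  have h2 : θ.symm (φ a) = 0 := this
  exact θ.symm.map_eq_zero_iff.mp h2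

end vs

section grp

variable {p : ℕ} [Fact p.Prime]

theorem s56lg_card_hom {A Z : Type*} [AddCommGroup A] [AddCommGroup Z] [Finite A]
    (hA : ∀ a : A, p • a = 0) (hZ : ∀ z : Z, p • z = 0) (hcard : Nat.card Z = p) :
    Nat.card (A →+ Z) = Nat.card A :=
  @s56lg_card_hom_aux p _ A Z _ _ (AddCommGroup.zmodModule hA) (AddCommGroup.zmodModule hZ) _ hcard

theorem s56lg_card_hom' {A Z : Type*} [AddCommGroup A] [AddCommGroup Z]
    (hA : ∀ a : A, p • a = 0) (hZ : ∀ z : Z, p • z = 0) (hcard : Nat.card Z = p) :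
    Nat.card (Z →+ A) = Nat.card A :=
  @s56lg_card_hom_aux' p _ A Z _ _ (AddCommGroup.zmodModule hA) (AddCommGroup.zmodModule hZ) hcard

theorem s56lg_sep {A Z : Type*} [AddCommGroup A] [AddCommGroup Z]
    (hA : ∀ a : A, p • a = 0) (hZ : ∀ z : Z, p • z = 0) (hcard : Nat.card Z = p)
    (a : A) (ha : ∀ x : A →+ Z, x a = 0) : a = 0 :=
  @s56lg_sep_aux p _ A Z _ _ (AddCommGroup.zmodModule hA) (AddCommGroup.zmodModule hZ) hcard a ha

theorem s56lg_exists_gen_aux {Z : Type*} [AddCommGroup Z] [Module (ZMod p) Z]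
    (hcard : Nat.card Z = p) :
    ∃ z₀ : Z, ∃ θ : Z ≃+ ZMod p, θ z₀ = 1 ∧ ∀ z : Z, z = (θ z).val • z₀ := by
  obtain ⟨θ⟩ := s56lg_exists_iso_aux (p := p) hcard
  refine ⟨θ.symm 1, θ.toAddEquiv, θ.apply_symm_apply 1, fun z => ?_⟩
  apply θ.injective
  show θ z = θ ((θ z).val • θ.symm 1)
  rw [map_nsmul, θ.apply_symm_apply, nsmul_eq_mul, mul_one, ZMod.natCast_zmod_val]

/-- a group of order `p` killed by `p` is cyclic -/
theorem s56lg_exists_gen {Z : Type*} [AddCommGroup Z] (hZ : ∀ z : Z, p • z = 0)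
    (hcard : Nat.card Z = p) :
    ∃ z₀ : Z, ∃ θ : Z ≃+ ZMod p, θ z₀ = 1 ∧ ∀ z : Z, z = (θ z).val • z₀ :=
  @s56lg_exists_gen_aux p _ Z _ (AddCommGroup.zmodModule hZ) hcard

end grp

section lv

variable {U : Type*} [Group U]

/-- invariants of equivariantly isomorphic modules have the same cardinality -/
theorem s56lg_card_lvH0_congr {A A' : Type*} [AddCommGroup A] [AddCommGroup A']
    [DistribMulAction U A] [DistribMulAction U A'] (e : A ≃+ A')
    (he : ∀ (g : U) (a : A), e (g • a) = g • e a) :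
    Nat.card (lvH0 (G := U) A) = Nat.card (lvH0 (G := U) A') := by
  have he' : ∀ (g : U) (a : A'), e.symm (g • a) = g • e.symm a := by
    intro g a
    apply e.injective
    rw [he, e.apply_symm_apply, e.apply_symm_apply]
  refine Nat.card_congr
    { toFun := fun a => ⟨e a.1, fun g => by rw [← he, a.2 g]⟩
      invFun := fun a => ⟨e.symm a.1, fun g => by rw [← he', a.2 g]⟩
      left_inv := fun a => Subtype.ext (e.symm_apply_apply _)
      right_inv := fun a => Subtype.ext (e.apply_symm_apply _) }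

end lv

section main

variable {p : ℕ} [Fact p.Prime]

instance s56lg_finite_lvHom {Y X : Type*} [AddCommGroup Y] [AddCommGroup X] [Finite Y] [Finite X] :
    Finite (LvHom Y X) :=
  Finite.of_injective (fun f : LvHom Y X => (f : Y → X)) DFunLike.coe_injective

theorem s56lg_lvHom_tors {Y X : Type*} [AddCommGroup Y] [AddCommGroup X]
    (hX : ∀ x : X, p • x = 0) (φ : LvHom Y X) : p • φ = 0 := by
  ext y
  show p • φ y = 0
  exact hX _

/-- **[LEC-ALG] (1)** -/
theorem s56lg_alg1 : s56l_Alg1_stmt := by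
  intro p _ U _ N _ _ _ Z _ _ hN hZ hcard
  have hp : p.Prime := Fact.out
  haveI : Finite Z := Nat.finite_of_card_ne_zero (by rw [hcard]; exact hp.ne_zero)
  -- the evaluation map
  let ev : N →+ LvHom (LvHom N Z) Z :=
    { toFun := fun n => LvHom.of
        { toFun := fun x => x n
          map_zero' := rfl
          map_add' := fun _ _ => rfl }
      map_zero' := by
        ext x
        show x 0 = 0
        exact map_zero x
      map_add' := fun n n' => by
        ext x
        show x (n + n') = x n + x n'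
        exact map_add x n n' }
  have hev : ∀ n x, ev n x = x n := fun _ _ => rfl
  have hinj : Function.Injective ev := by
    rw [injective_iff_map_eq_zero]
    intro n hn
    refine s56lg_sep hN hZ hcard n fun x => ?_
    have := congrArg (fun φ : LvHom (LvHom N Z) Z => φ (LvHom.of x)) hn
    exact this
  have hc : Nat.card (LvHom (LvHom N Z) Z) = Nat.card N := by
    have h1 : Nat.card (LvHom (LvHom N Z) Z) = Nat.card (LvHom N Z) :=
      s56lg_card_hom (A := LvHom N Z) (Z := Z) (s56lg_lvHom_tors hZ) hZ hcard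
    have h2 : Nat.card (LvHom N Z) = Nat.card N := s56lg_card_hom (A := N) (Z := Z) hN hZ hcard
    rw [h1, h2]
  have hbij : Function.Bijective ev := hinj.bijective_of_nat_card_le hc.le
  let e : N ≃+ LvHom (LvHom N Z) Z := AddEquiv.ofBijective ev hbij
  refine (s56lg_card_lvH0_congr e ?_).symm
  intro g n
  ext x
  show x (g • n) = g • (g⁻¹ • x) n
  rw [LvHom.smul_apply, inv_inv, smul_inv_smul]

/-- **[LEC-ALG] (2)** -/
theorem s56lg_alg2 : s56l_Alg2_stmt := by
  intro p _ U _ N _ _ _ Z _ _ hN hZ hcard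
  have hp : p.Prime := Fact.out
  haveI : Finite Z := Nat.finite_of_card_ne_zero (by rw [hcard]; exact hp.ne_zero)
  obtain ⟨z₀, θ, hθ1, hgen⟩ := s56lg_exists_gen hZ hcard
  -- `Φ m x = θ (x (m z₀))`
  let Φ : LvHom Z N →+ LvHom (LvHom N Z) (s56l_Fp U p) :=
    { toFun := fun m => LvHom.of
        { toFun := fun x => (θ (x (m z₀)) : ZMod p)
          map_zero' := by
            show θ ((0 : LvHom N Z) (m z₀)) = 0
            rw [LvHom.zero_apply, map_zero]
          map_add' := fun x x' => by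
            show θ ((x + x') (m z₀)) = θ (x (m z₀)) + θ (x' (m z₀))
            rw [LvHom.add_apply, map_add] }
      map_zero' := by
        ext x
        show θ (x ((0 : LvHom Z N) z₀)) = 0
        rw [LvHom.zero_apply, map_zero, map_zero]
      map_add' := fun m m' => by
        ext x
        show θ (x ((m + m') z₀)) = θ (x (m z₀)) + θ (x (m' z₀))
        rw [LvHom.add_apply, map_add, map_add] }
  have hΦ : ∀ m x, Φ m x = θ (x (m z₀)) := fun _ _ => rfl
  have hinj : Function.Injective Φ := by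
    rw [injective_iff_map_eq_zero]
    intro m hm
    have h0 : m z₀ = 0 := by
      refine s56lg_sep hN hZ hcard (m z₀) fun x => ?_
      have := congrArg (fun φ : LvHom (LvHom N Z) (s56l_Fp U p) => φ (LvHom.of x)) hm
      have h2 : θ (x (m z₀)) = 0 := this
      exact θ.map_eq_zero_iff.mp h2
    ext z
    rw [hgen z, map_nsmul, h0, smul_zero, LvHom.zero_apply]
  have hFp : Nat.card (s56l_Fp U p) = p := by
    show Nat.card (ZMod p) = p
    exact Nat.card_zmod p
  have hFpt : ∀ z : s56l_Fp U p, p • z = 0 := by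
    intro z
    have h : p • (show ZMod p from z) = (0 : ZMod p) := by
      rw [nsmul_eq_mul, ZMod.natCast_self, zero_mul]
    exact h
  have hc : Nat.card (LvHom (LvHom N Z) (s56l_Fp U p)) = Nat.card (LvHom Z N) := by
    have h1 : Nat.card (LvHom (LvHom N Z) (s56l_Fp U p)) = Nat.card (LvHom N Z) :=
      s56lg_card_hom (A := LvHom N Z) (Z := s56l_Fp U p) (s56lg_lvHom_tors hZ) hFpt hFp
    have h2 : Nat.card (LvHom N Z) = Nat.card N := s56lg_card_hom (A := N) (Z := Z) hN hZ hcard
    have h3 : Nat.card (LvHom Z N) = Nat.card N := s56lg_card_hom' (A := N) (Z := Z) hN hZ hcard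
    rw [h1, h2, h3]
  haveI : Finite (s56l_Fp U p) := inferInstanceAs (Finite (ZMod p))
  have hbij : Function.Bijective Φ := hinj.bijective_of_nat_card_le hc.le
  let e : LvHom Z N ≃+ LvHom (LvHom N Z) (s56l_Fp U p) := AddEquiv.ofBijective Φ hbij
  refine (s56lg_card_lvH0_congr e ?_).symm
  intro g m
  -- `g⁻¹` acts on `Z` through a natural number
  obtain ⟨k, hk⟩ : ∃ k : ℕ, ∀ w : Z, g⁻¹ • w = k • w := by
    refine ⟨(θ (g⁻¹ • z₀)).val, fun w => ?_⟩
    have hw := hgen w
    have hz := hgen (g⁻¹ • z₀)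
    calc g⁻¹ • w = g⁻¹ • ((θ w).val • z₀) := by rw [← hw]
      _ = (θ w).val • (g⁻¹ • z₀) := smul_comm _ _ _
      _ = (θ w).val • ((θ (g⁻¹ • z₀)).val • z₀) := by rw [← hz]
      _ = (θ (g⁻¹ • z₀)).val • ((θ w).val • z₀) := smul_comm _ _ _
      _ = (θ (g⁻¹ • z₀)).val • w := by rw [← hw]
  ext x
  rw [LvHom.smul_apply, s56l_Fp.smul_def]
  show θ (x ((g • m) z₀)) = θ ((g⁻¹ • x) (m z₀))
  have h1 : (g • m) z₀ = k • (g • m z₀) := by
    rw [LvHom.smul_apply, hk, map_nsmul, smul_comm]
  have h2 : (g⁻¹ • x) (m z₀) = k • x (g • m z₀) := by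
    rw [LvHom.smul_apply, inv_inv, hk]
  rw [h1, h2, map_nsmul]

end main

end Fermat.Agent.S56
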