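/-
S56, node [GW-LEC] / [EC-GB], the DEGREE cell (helper14).  Prefix `s56ldg_`.
There are plain levels (finite Galois extensions of `ℚ` inside `ℚ̄`) whose decomposition group at
a given prime `q` has order divisible by any prescribed `m > 0`:
* `s56ldg_main q m hm : ∃ a : s56gd_Fld, m ∣ Nat.card ↥(s56gd_D q a)`;
* `s56ldg_above q a₀ m hm : ∃ a, a₀ ≤ a ∧ m ∣ Nat.card ↥(s56gd_D q a)` (cofinal form);
* `s56ldg_card q a : Nat.card ↥(s56gd_D q a) = finrank ℚ_[q] (il_Lq q a.L)`;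
* `s56ldg_card_dvd (h : a ≤ b) : Nat.card ↥(s56gd_D q a) ∣ Nat.card ↥(s56gd_D q b)`.
Route: an unramified extension `L'/ℚ_q` of degree divisible by `m` (`lq_exists_unram_ext`), a
primitive element of `L'`, Krasner (`tl_exists_adjoin_padicEmbedding`), normal closure in `ℚ̄`.
-/
import Fermat.Agent.S56.GW.Dual.Local
import Fermat.Agent.S55.LocalQ.Final
import Fermat.Agent.S55.Trans.Krasner

set_option autoImplicit false

open IntermediateField ExtCitation

namespace Fermat.Agent.S56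

open Fermat.Agent.S55

local notation "Qbar" => AlgebraicClosure ℚ

section local_

variable (q : ℕ) [Fact q.Prime]

/-- `L ↦ L·ℚ_q` is monotone. -/
theorem s56ldg_Lq_mono {L L' : IntermediateField ℚ Qbar} (h : L ≤ L') :
    il_Lq q L ≤ il_Lq q L' := by
  unfold il_Lq
  apply IntermediateField.adjoin.mono
  rintro _ ⟨x, rfl⟩
  exact ⟨⟨(x : Qbar), h x.2⟩, rfl⟩

/-- `ℚ_q(y) ⊆ L·ℚ_q` for `y ∈ L`. -/
theorem s56ldg_adjoin_le {L : IntermediateField ℚ Qbar} {y : Qbar} (hy : y ∈ L) :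
    ℚ_[q]⟮padicEmbedding q y⟯ ≤ il_Lq q L := by
  rw [IntermediateField.adjoin_simple_le_iff]
  exact il_emb_mem q L ⟨y, hy⟩

/-- The order of the decomposition group is the local degree. -/
theorem s56ldg_card_D (L : IntermediateField ℚ Qbar) [FiniteDimensional ℚ L] [Normal ℚ L] :
    Nat.card ↥(il_D q L) = Module.finrank ℚ_[q] ↥(il_Lq q L) := by
  rw [← Nat.card_congr (il_galEquiv q L).toEquiv]
  have : IsGalois ℚ_[q] ↥(il_Lq q L) := isGalois_iff.mpr ⟨inferInstance, inferInstance⟩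
  exact IsGalois.card_aut_eq_finrank ℚ_[q] ↥(il_Lq q L)

/-- A finite extension of `ℚ_q` inside `ℚ̄_q` is contained in `ℚ_q(y)` for some `y` coming from
`ℚ̄` (primitive element + Krasner). -/
theorem s56ldg_exists_le (L' : LqField q) [FiniteDimensional ℚ_[q] L'] :
    ∃ y₀ : Qbar, L' ≤ ℚ_[q]⟮padicEmbedding q y₀⟯ := by
  obtain ⟨α, hα⟩ := Field.exists_primitive_element ℚ_[q] ↥L'
  obtain ⟨y₀, hy₀⟩ := tl_exists_adjoin_padicEmbedding q (α : PadicAlgCl q)
  refine ⟨y₀, ?_⟩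
  have h1 : L' = ℚ_[q]⟮(α : PadicAlgCl q)⟯ := by
    have h2 : (ℚ_[q]⟮α⟯).map L'.val = ℚ_[q]⟮(α : PadicAlgCl q)⟯ := by
      rw [IntermediateField.adjoin_map, Set.image_singleton]
      rfl
    rw [← h2, hα, ← AlgHom.fieldRange_eq_map, IntermediateField.fieldRange_val]
  rw [h1, IntermediateField.adjoin_simple_le_iff]
  exact hy₀

/-- There are finite Galois extensions of `ℚ_q` of degree divisible by `m`. -/
theorem s56ldg_exists_local (m : ℕ) (hm : 0 < m) :
    ∃ L' : LqField q, FiniteDimensional ℚ_[q] L' ∧ m ∣ Module.finrank ℚ_[q] ↥L' := by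
  obtain ⟨L', -, hfin, hgal, hdvd⟩ := lq_exists_unram_ext (q := q) (⊥ : LqField q) m hm
  refine ⟨L', hfin, ?_⟩
  rw [← IsGalois.card_aut_eq_finrank ℚ_[q] ↥L']
  exact hdvd.trans (Subgroup.index_dvd_card _)

/-- The normal closure of `ℚ(y)` in `ℚ̄`, as a plain level. -/
noncomputable def s56ldg_fld (y : Qbar) : s56gd_Fld where
  L := IntermediateField.normalClosure ℚ ℚ⟮y⟯ Qbar
  fin := by
    have : Algebra.IsAlgebraic ℚ Qbar := AlgebraicClosure.isAlgebraic ℚ
    have : FiniteDimensional ℚ ℚ⟮y⟯ :=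
      IntermediateField.adjoin.finiteDimensional (Algebra.IsIntegral.isIntegral y)
    exact normalClosure.is_finiteDimensional ℚ ℚ⟮y⟯ Qbar
  nor := by
    have hnQ : Normal ℚ Qbar :=
      @IsAlgClosure.normal ℚ Qbar _ _ _ ⟨inferInstance, AlgebraicClosure.isAlgebraic ℚ⟩
    exact normalClosure.normal ℚ ℚ⟮y⟯ Qbar

theorem s56ldg_mem_fld (y : Qbar) : y ∈ (s56ldg_fld y).L :=
  IntermediateField.le_normalClosure ℚ⟮y⟯ (IntermediateField.mem_adjoin_simple_self ℚ y)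

end local_

section main

variable (q : Nat.Primes)

/-- The order of `D_q(a)` is the local degree `[a·ℚ_q : ℚ_q]`. -/
theorem s56ldg_card (a : s56gd_Fld) :
    Nat.card ↥(s56gd_D q a) = Module.finrank ℚ_[(q : ℕ)] ↥(il_Lq (q : ℕ) a.L) :=
  s56ldg_card_D (q : ℕ) a.L

/-- The orders of the decomposition groups increase (for divisibility) with the level. -/
theorem s56ldg_card_dvd {a b : s56gd_Fld} (h : a ≤ b) :
    Nat.card ↥(s56gd_D q a) ∣ Nat.card ↥(s56gd_D q b) := by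
  rw [s56ldg_card, s56ldg_card]
  exact IntermediateField.finrank_dvd_of_le_right (s56ldg_Lq_mono (q : ℕ) h)

/-- **The degree cell, cofinal form.** -/
theorem s56ldg_above (a₀ : s56gd_Fld) (m : ℕ) (hm : 0 < m) :
    ∃ a : s56gd_Fld, a₀ ≤ a ∧ m ∣ Nat.card ↥(s56gd_D q a) := by
  obtain ⟨L', hfin, hdvd⟩ := s56ldg_exists_local (q : ℕ) m hm
  obtain ⟨y₀, hy₀⟩ := s56ldg_exists_le (q : ℕ) L'
  refine ⟨s56gd_Fld.sup a₀ (s56ldg_fld y₀), s56gd_Fld.le_sup_left _ _, ?_⟩
  rw [s56ldg_card]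
  refine hdvd.trans (IntermediateField.finrank_dvd_of_le_right ?_)
  refine hy₀.trans (s56ldg_adjoin_le (q : ℕ) ?_)
  exact (s56gd_Fld.le_sup_right a₀ (s56ldg_fld y₀)) (s56ldg_mem_fld y₀)

/-- **The degree cell.** -/
theorem s56ldg_main (m : ℕ) (hm : 0 < m) : ∃ a : s56gd_Fld, m ∣ Nat.card ↥(s56gd_D q a) := by
  obtain ⟨a, -, ha⟩ := s56ldg_above q
    ⟨⊥, inferInstance, Normal.of_algEquiv (IntermediateField.botEquiv ℚ Qbar).symm⟩ m hm
  exact ⟨a, ha⟩

end main

end Fermat.Agent.S56
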