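import Fermat.Agent.S56.GW.LEC.Base

/-!
# [GW-LEC] / [LEC-H2] reduction (helper28; prefix `s56lbr_`)

`s56l_BR_stmt` (order `p` of `H²(W ∩ U, μ_p)` + triviality of the conjugation action of `U`)
follows from the bare cardinality statement `s56l_BRcard_stmt` for the open subgroups of `G_q`:
restriction `H²(U, μ_p) → H²(V, μ_p)` is injective for `V ⊴ U` of index prime to `p`
(Hochschild–Serre, helper16), hence bijective by counting, and restricted classes are invariant
under conjugation.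
-/

set_option autoImplicit false
set_option linter.unusedSectionVars false

namespace Fermat.Agent.S56

open Fermat.Agent.S55 ExtCitation

/-- **[LEC-H2], cardinality form**: `#H²(U, μ_p) = p` for every open subgroup `U` of `G_q`. -/
def s56l_BRcard_stmt : Prop :=
  ∀ (p : ℕ) [Fact p.Prime] (q : Nat.Primes) (U : Subgroup (primeLocalGaloisGroup q)),
    (∃ V₀ ∈ (tl_levelsLoc q).levels, V₀ ≤ U) →
    Nat.card (lvH2 (s56esh_LU (tl_levelsLoc q) U) ↥(s56l_mu p q)) = p

section Abstract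

variable {G : Type*} [Group G] (L : LevelSys G)

/-- Conjugation is trivial on `H²(V, Z)` when `H²(G, Z)` and `H²(V, Z)` both have `p` elements,
`V ⊴ G` of index prime to `p`. -/
theorem s56lbr_conj_of_card (V : Subgroup G) [V.Normal] (hV : ∃ W ∈ L.levels, W ≤ V)
    (Z : Type*) [AddCommGroup Z] [DistribMulAction G Z] (hZ : L.IsSmooth Z)
    {p : ℕ} (hp : p.Prime) (hpZ : ∀ z : Z, p • z = 0) (hpV : ¬ p ∣ V.index)
    (hG : Nat.card (lvH2 L Z) = p) (hVc : Nat.card (lvH2 (s56esh_LU L V) Z) = p)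
    (g : G) (y : lvH2 (s56esh_LU L V) Z) : (s56esh_conjV L V Z g).H2 y = y := by
  obtain ⟨hinj, hrange⟩ := s56esh_hs_H2 hV hZ hp hpZ hpV
  have hfin : Finite (lvH2 (s56esh_LU L V) Z) :=
    Nat.finite_of_card_ne_zero (by rw [hVc]; exact hp.ne_zero)
  have hbij : Function.Bijective (s56esh_res L V Z).H2 :=
    hinj.bijective_of_nat_card_le (by rw [hG, hVc])
  obtain ⟨z, rfl⟩ := hbij.2 y
  exact (hrange _).1 ⟨z, rfl⟩ g

variable (W U : Subgroup G) (hWU : W ≤ U) (Z : Type*) [AddCommGroup Z] [DistribMulAction G Z]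

/-- From `(W, L|W)` to the nested `(W.subgroupOf U, (L|U)|…)`. -/
def s56lbr_toNested : LvMor (s56esh_LU L W) Z
    (s56esh_LU (s56esh_LU L U) (W.subgroupOf U)) Z where
  f := (Subgroup.subgroupOfEquivOfLe hWU).toMonoidHom
  φ := AddMonoidHom.id Z
  equivariant := fun _ _ => rfl
  levels := by
    rintro _ ⟨A₀, hA₀, rfl⟩
    exact ⟨(A₀.comap U.subtype).comap (W.subgroupOf U).subtype, ⟨_, ⟨A₀, hA₀, rfl⟩, rfl⟩,
      fun h hh => hh⟩

/-- From the nested `(W.subgroupOf U, (L|U)|…)` to `(W, L|W)`. -/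
def s56lbr_ofNested : LvMor (s56esh_LU (s56esh_LU L U) (W.subgroupOf U)) Z
    (s56esh_LU L W) Z where
  f := (Subgroup.subgroupOfEquivOfLe hWU).symm.toMonoidHom
  φ := AddMonoidHom.id Z
  equivariant := fun _ _ => rfl
  levels := by
    rintro _ ⟨_, ⟨A₀, hA₀, rfl⟩, rfl⟩
    exact ⟨A₀.comap W.subtype, ⟨A₀, hA₀, rfl⟩, fun h hh => hh⟩

include hWU in
theorem s56lbr_nested_card :
    Nat.card (lvH2 (s56esh_LU (s56esh_LU L U) (W.subgroupOf U)) Z) =
      Nat.card (lvH2 (s56esh_LU L W) Z) := by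
  have h1 : (s56lbr_ofNested L W U hWU Z).comp (s56lbr_toNested L W U hWU Z) =
      LvMor.id (s56esh_LU L W) Z := by
    apply s56esh_LvMor_ext
    · ext w
      simp [LvMor.comp, LvMor.id, s56lbr_ofNested, s56lbr_toNested]
    · rfl
  have h2 : (s56lbr_toNested L W U hWU Z).comp (s56lbr_ofNested L W U hWU Z) =
      LvMor.id (s56esh_LU (s56esh_LU L U) (W.subgroupOf U)) Z := by
    apply s56esh_LvMor_ext
    · ext w
      simp [LvMor.comp, LvMor.id, s56lbr_ofNested, s56lbr_toNested]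
    · rfl
  refine Nat.card_congr
    { toFun := (s56lbr_ofNested L W U hWU Z).H2
      invFun := (s56lbr_toNested L W U hWU Z).H2
      left_inv := fun x => by rw [← LvMor.H2_comp, h2, LvMor.H2_id]
      right_inv := fun x => by rw [← LvMor.H2_comp, h1, LvMor.H2_id] }

end Abstract

/-- **[LEC-H2]** from the cardinality form. -/
theorem s56lbr_main (h : s56l_BRcard_stmt) : s56l_BR_stmt := by
  intro p _ q W U _ hB
  have hp : p.Prime := Fact.out
  have hcardV : Nat.card (lvH2 (s56esh_LU (s56esh_LU (tl_levelsLoc q) U) (W.subgroupOf U))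
      ↥(s56l_mu p q)) = p := by
    rw [s56lbr_nested_card (tl_levelsLoc q) W U hB.le]
    exact h p q W hB.level
  refine ⟨hcardV, fun g y => ?_⟩
  have hUopen : ∃ V₀ ∈ (tl_levelsLoc q).levels, V₀ ≤ U := by
    obtain ⟨V₀, hV₀, hle⟩ := hB.level
    exact ⟨V₀, hV₀, le_trans hle hB.le⟩
  have hVopen : ∃ W' ∈ (s56esh_LU (tl_levelsLoc q) U).levels, W' ≤ W.subgroupOf U := by
    obtain ⟨V₀, hV₀, hle⟩ := hB.level
    exact ⟨V₀.comap U.subtype, ⟨V₀, hV₀, rfl⟩, fun u hu => Subgroup.mem_subgroupOf.2 (hle hu)⟩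
  exact s56lbr_conj_of_card (s56esh_LU (tl_levelsLoc q) U) (W.subgroupOf U) hVopen
    ↥(s56l_mu p q) (s56esh_smooth_res s56l_mu_smooth) hp (s56l_mu_tors p q) hB.index
    (h p q U hUopen) hcardV g y

/-- **[GW-LEC]** from the vanishing of `H³` and the order of `Br(K)[p]`. -/
theorem s56l_LEC' (h3 : s56elt_H3_stmt) (hBR : s56l_BRcard_stmt) : s56gw_LEC_stmt :=
  s56l_LEC h3 (s56lbr_main hBR)

end Fermat.Agent.S56
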