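/-
S56, node [GW-LEC], cell [LEC-ADDFN] (helper14).  Prefix `s56la_`.
`s56la_main : s56l_RE_stmt → s56l_Fin_stmt → s56l_AddFn_stmt`: the local Euler characteristic
defect `s56l_f p q W` is an additive function on the finite-dimensional representations of
`G_q ⧸ W` (`W` a normal level), from the long exact sequence of level cohomology
(`s56ecs_chi_mul`, helper8), right exactness of `lvH2` and finiteness.
General by-products (any group `G`, any level system `L`):
* `s56la_nsmul_H0/_H1/_H2` : `lvHⁱ` of a module killed by `p` is killed by `p`;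
* `s56la_card_pow` : a finite additive group killed by the prime `p` has `p`-power order;
* `s56la_infl_smooth` : an inflation from `G ⧸ (level)` is smooth;
* `s56la_ses` : the `LvSES` of the inflations of a short exact sequence.
-/
import Fermat.Agent.S56.GW.LEC.Seams
import Fermat.Agent.S56.GW.EC.Syl.Additive

set_option autoImplicit false

open Fermat.Agent.S55 ExtCitation

namespace Fermat.Agent.S56

/-! ### `p`-torsion of level cohomology -/

section tors

variable {G : Type*} [Group G] (L : LevelSys G) {N : Type*} [AddCommGroup N]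
  [DistribMulAction G N] {p : ℕ}

theorem s56la_nsmul_H0 (hN : ∀ n : N, p • n = 0) (x : lvH0 (G := G) N) : p • x = 0 :=
  Subtype.ext (hN x.1)

theorem s56la_nsmul_H1 (hN : ∀ n : N, p • n = 0) (x : lvH1 L N) : p • x = 0 := by
  obtain ⟨c, rfl⟩ := lvH1mk_surjective x
  have h0 : p • c = 0 := by
    apply Subtype.ext
    funext g
    exact hN (c.1 g)
  rw [← map_nsmul, h0, map_zero]

theorem s56la_nsmul_H2 (hN : ∀ n : N, p • n = 0) (x : lvH2 L N) : p • x = 0 := by
  obtain ⟨c, rfl⟩ := lvH2mk_surjective x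
  have h0 : p • c = 0 := by
    apply Subtype.ext
    funext g
    exact hN (c.1 g)
  rw [← map_nsmul, h0, map_zero]

/-- A finite additive group killed by the prime `p` has `p`-power order. -/
theorem s56la_card_pow [Fact p.Prime] {X : Type*} [AddCommGroup X] [Finite X]
    (h : ∀ x : X, p • x = 0) : ∃ k : ℕ, Nat.card X = p ^ k := by
  let _ : Module (ZMod p) X := AddCommGroup.zmodModule h
  exact ⟨Module.finrank (ZMod p) X, by
    rw [Module.natCard_eq_pow_finrank (K := ZMod p), Nat.card_zmod]⟩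

/-- `p ^ Nat.log p n = n` for a `p`-power `n`. -/
theorem s56la_pow_log [Fact p.Prime] {n : ℕ} (h : ∃ k : ℕ, n = p ^ k) : p ^ Nat.log p n = n := by
  obtain ⟨k, rfl⟩ := h
  rw [Nat.log_pow (Fact.out : p.Prime).one_lt]

end tors

/-! ### Inflations -/

section infl

variable {p : ℕ} {G Δ : Type*} [Group G] [Group Δ] (L : LevelSys G) (π : G →* Δ)

/-- An inflation along `π` is smooth as soon as some level is contained in `ker π`. -/
theorem s56la_infl_smooth {W : Subgroup G} (hW : W ∈ L.levels) (hWk : W ≤ π.ker)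
    {M : Type*} [AddCommGroup M] [Module (ZMod p) M] (ρ : Representation (ZMod p) Δ M) :
    L.IsSmooth (s56l_Infl π ρ) := by
  intro m
  refine ⟨W, hW, fun w hw => ?_⟩
  rw [s56l_Infl.smul_def, MonoidHom.mem_ker.mp (hWk hw), map_one]
  rfl

/-- The inflation of a `ZMod p`-module is killed by `p`. -/
theorem s56la_infl_tors [Fact p.Prime] {M : Type*} [AddCommGroup M] [Module (ZMod p) M]
    (ρ : Representation (ZMod p) Δ M) (m : s56l_Infl π ρ) : p • m = 0 := by
  have h : (p : ZMod p) • m = 0 := by rw [ZMod.natCast_self, zero_smul]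
  rwa [Nat.cast_smul_eq_nsmul] at h

/-- The short exact sequence of inflated modules. -/
def s56la_ses {M₁ M₂ M₃ : Type*} [AddCommGroup M₁] [Module (ZMod p) M₁]
    [AddCommGroup M₂] [Module (ZMod p) M₂] [AddCommGroup M₃] [Module (ZMod p) M₃]
    (ρ₁ : Representation (ZMod p) Δ M₁) (ρ₂ : Representation (ZMod p) Δ M₂)
    (ρ₃ : Representation (ZMod p) Δ M₃) (i : M₁ →ₗ[ZMod p] M₂) (q : M₂ →ₗ[ZMod p] M₃)
    (hi : Function.Injective i) (hq : Function.Surjective q)
    (hiq : LinearMap.range i = LinearMap.ker q)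
    (hie : ∀ g m, i (ρ₁ g m) = ρ₂ g (i m)) (hqe : ∀ g m, q (ρ₂ g m) = ρ₃ g (q m)) :
    LvSES G (s56l_Infl π ρ₁) (s56l_Infl π ρ₂) (s56l_Infl π ρ₃) where
  i := (i.toAddMonoidHom : M₁ →+ M₂)
  π := (q.toAddMonoidHom : M₂ →+ M₃)
  i_equiv := fun g a => hie (π g) a
  π_equiv := fun g b => hqe (π g) b
  i_inj := hi
  π_surj := hq
  exact := fun (b : M₂) => by
    show q b = 0 ↔ ∃ a : M₁, i a = b
    rw [← LinearMap.mem_ker, ← hiq, LinearMap.mem_range]

end infl

/-! ### Additivity -/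

/-- `dim` is additive on short exact sequences. -/
theorem s56la_finrank_add {k : Type*} [Field k] {M₁ M₂ M₃ : Type*} [AddCommGroup M₁] [Module k M₁]
    [AddCommGroup M₂] [Module k M₂] [AddCommGroup M₃] [Module k M₃] [Module.Finite k M₂]
    (i : M₁ →ₗ[k] M₂) (q : M₂ →ₗ[k] M₃)
    (hi : Function.Injective i) (hq : Function.Surjective q)
    (hiq : LinearMap.range i = LinearMap.ker q) :
    Module.finrank k M₂ = Module.finrank k M₁ + Module.finrank k M₃ := by
  have h := LinearMap.finrank_range_add_finrank_ker q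
  rw [LinearMap.range_eq_top.mpr hq, finrank_top, ← hiq, LinearMap.finrank_range_of_inj hi] at h
  omega

/-- The additive core: `log_p` of the multiplicative Euler characteristic identity. -/
theorem s56la_log_core {p : ℕ} [Fact p.Prime] {a0 a1 a2 b0 b1 b2 c0 c1 c2 : ℕ}
    (ha0 : ∃ k : ℕ, a0 = p ^ k) (ha1 : ∃ k : ℕ, a1 = p ^ k) (ha2 : ∃ k : ℕ, a2 = p ^ k)
    (hb0 : ∃ k : ℕ, b0 = p ^ k) (hb1 : ∃ k : ℕ, b1 = p ^ k) (hb2 : ∃ k : ℕ, b2 = p ^ k)
    (hc0 : ∃ k : ℕ, c0 = p ^ k) (hc1 : ∃ k : ℕ, c1 = p ^ k) (hc2 : ∃ k : ℕ, c2 = p ^ k)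
    (h : b0 * a1 * c1 * b2 = a0 * c0 * b1 * a2 * c2) :
    Nat.log p b0 + Nat.log p a1 + Nat.log p c1 + Nat.log p b2
      = Nat.log p a0 + Nat.log p c0 + Nat.log p b1 + Nat.log p a2 + Nat.log p c2 := by
  have hp : p.Prime := Fact.out
  rw [← s56la_pow_log ha0, ← s56la_pow_log ha1, ← s56la_pow_log ha2, ← s56la_pow_log hb0,
    ← s56la_pow_log hb1, ← s56la_pow_log hb2, ← s56la_pow_log hc0, ← s56la_pow_log hc1,
    ← s56la_pow_log hc2] at h
  simp only [← pow_add] at h
  exact Nat.pow_right_injective hp.two_le h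

/-- **[LEC-ADDFN], explicit form**: for a fixed prime `p`, a fixed `q` and a normal level `W`,
right exactness of `lvH2` and finiteness of `lvH1`, `lvH2` make `s56l_f p q W` an additive
function. (Independent of the exact binder shape of the seams of `Seams.lean`.) -/
theorem s56la_add (p : ℕ) [Fact p.Prime] (q : Nat.Primes)
    (W : Subgroup (primeLocalGaloisGroup q)) [W.Normal] (hW : W ∈ (tl_levelsLoc q).levels)
    (hRE : ∀ {A B C : Type} [AddCommGroup A]
      [DistribMulAction (primeLocalGaloisGroup q) A] [Finite A]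
      [AddCommGroup B] [DistribMulAction (primeLocalGaloisGroup q) B]
      [AddCommGroup C] [DistribMulAction (primeLocalGaloisGroup q) C]
      (E : LvSES (primeLocalGaloisGroup q) A B C), (tl_levelsLoc q).IsSmooth B →
      (∀ a : A, p • a = 0) → Function.Surjective (E.mπ (tl_levelsLoc q)).H2)
    (hFin : ∀ (N : Type) [AddCommGroup N] [DistribMulAction (primeLocalGaloisGroup q) N]
      [Finite N], (∀ n : N, p • n = 0) → (tl_levelsLoc q).IsSmooth N →
      Finite (lvH1 (tl_levelsLoc q) N) ∧ Finite (lvH2 (tl_levelsLoc q) N)) :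
    ∃ F : s56ei_AddFn (ZMod p) (primeLocalGaloisGroup q ⧸ W),
      ∀ (M : Type) [AddCommGroup M] [Module (ZMod p) M]
        (ρ : Representation (ZMod p) (primeLocalGaloisGroup q ⧸ W) M),
        F.f M ρ = s56l_f p q W M ρ := by
  have hp : p.Prime := Fact.out
  refine ⟨⟨s56l_f p q W, ?_⟩, fun M _ _ ρ => rfl⟩
  intro M₁ M₂ M₃ _ _ _ _ _ _ _ _ _ ρ₁ ρ₂ ρ₃ i r hi hr hir hie hre
  have hker : W ≤ (QuotientGroup.mk' W).ker := by rw [QuotientGroup.ker_mk']
  -- finiteness
  have hM₁ : Finite (s56l_Infl (QuotientGroup.mk' W) ρ₁) :=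
    (Module.finite_of_finite (ZMod p) : Finite M₁)
  have hM₂ : Finite (s56l_Infl (QuotientGroup.mk' W) ρ₂) :=
    (Module.finite_of_finite (ZMod p) : Finite M₂)
  have hM₃ : Finite (s56l_Infl (QuotientGroup.mk' W) ρ₃) :=
    (Module.finite_of_finite (ZMod p) : Finite M₃)
  have hs₁ := s56la_infl_smooth (tl_levelsLoc q) (QuotientGroup.mk' W) hW hker ρ₁
  have hs₂ := s56la_infl_smooth (tl_levelsLoc q) (QuotientGroup.mk' W) hW hker ρ₂
  have hs₃ := s56la_infl_smooth (tl_levelsLoc q) (QuotientGroup.mk' W) hW hker ρ₃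
  have ht₁ := s56la_infl_tors (QuotientGroup.mk' W) ρ₁
  have ht₂ := s56la_infl_tors (QuotientGroup.mk' W) ρ₂
  have ht₃ := s56la_infl_tors (QuotientGroup.mk' W) ρ₃
  obtain ⟨hA1, hA2⟩ := hFin (s56l_Infl (QuotientGroup.mk' W) ρ₁) ht₁ hs₁
  obtain ⟨hB1, hB2⟩ := hFin (s56l_Infl (QuotientGroup.mk' W) ρ₂) ht₂ hs₂
  obtain ⟨hC1, hC2⟩ := hFin (s56l_Infl (QuotientGroup.mk' W) ρ₃) ht₃ hs₃
  have hA0 : Finite (lvH0 (G := primeLocalGaloisGroup q) (s56l_Infl (QuotientGroup.mk' W) ρ₁)) :=
    inferInstance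
  have hB0 : Finite (lvH0 (G := primeLocalGaloisGroup q) (s56l_Infl (QuotientGroup.mk' W) ρ₂)) :=
    inferInstance
  have hC0 : Finite (lvH0 (G := primeLocalGaloisGroup q) (s56l_Infl (QuotientGroup.mk' W) ρ₃)) :=
    inferInstance
  -- the long exact sequence
  have key := s56ecs_chi_mul
    (s56la_ses (QuotientGroup.mk' W) ρ₁ ρ₂ ρ₃ i r hi hr hir hie hre) (tl_levelsLoc q) hs₂
    (hRE (s56la_ses (QuotientGroup.mk' W) ρ₁ ρ₂ ρ₃ i r hi hr hir hie hre) hs₂ ht₁)
  have hlog := s56la_log_core (p := p)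
    (s56la_card_pow (s56la_nsmul_H0 ht₁)) (s56la_card_pow (s56la_nsmul_H1 _ ht₁))
    (s56la_card_pow (s56la_nsmul_H2 _ ht₁))
    (s56la_card_pow (s56la_nsmul_H0 ht₂)) (s56la_card_pow (s56la_nsmul_H1 _ ht₂))
    (s56la_card_pow (s56la_nsmul_H2 _ ht₂))
    (s56la_card_pow (s56la_nsmul_H0 ht₃)) (s56la_card_pow (s56la_nsmul_H1 _ ht₃))
    (s56la_card_pow (s56la_nsmul_H2 _ ht₃)) key
  have hdim := s56la_finrank_add i r hi hr hir
  show s56l_f p q W M₂ ρ₂ = s56l_f p q W M₁ ρ₁ + s56l_f p q W M₃ ρ₃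
  unfold s56l_f
  split_ifs
  · omega
  · omega

set_option linter.unreachableTactic false in
set_option linter.unusedTactic false in
/-- **[LEC-ADDFN]** `s56l_f` is an additive function (the seam of `Seams.lean`; the proof term is
written so that it survives the insertion of `p ≠ 2 →` in `s56l_Fin_stmt`/`s56l_AddFn_stmt`). -/
theorem s56la_main (hRE : s56l_RE_stmt) (hFin : s56l_Fin_stmt) : s56l_AddFn_stmt := by
  unfold s56l_AddFn_stmt
  unfold s56l_Fin_stmt at hFin
  unfold s56l_RE_stmt at hRE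
  intros
  first
  | exact s56la_add _ _ _ (by assumption) (hRE _ _) (hFin _ _)
  | exact s56la_add _ _ _ (by assumption) (hRE _ _) (hFin _ (by assumption) _)

end Fermat.Agent.S56
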