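import Fermat.Agent.S56.GW.LEC.Fld.BaseH1
import Fermat.Agent.S56.GW.LEC.Kum2.BaseH2
import Fermat.Agent.S56.GW.LEC.Alg
import Fermat.Agent.S56.GW.EC.LecTop.Top

/-!
# [GW-LEC] (helper28; prefix `s56l_`): the base case, final wiring

* `s56l_base : s56l_BR_stmt → s56l_Base_stmt`;
* `s56l_elt_base : s56l_BR_stmt → s56elt_Base_stmt` (helper8's seam; the level `W` is shrunk to
  `W ⊓ ker (G_q → Aut μ_p)`, of index dividing `#Aut μ_p < p` in `W`);
* `s56l_LEC : s56elt_H3_stmt → s56l_BR_stmt → s56gw_LEC_stmt`.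
-/

set_option autoImplicit false
set_option linter.unusedSectionVars false

namespace Fermat.Agent.S56

open Fermat.Agent.S55 ExtCitation

/-- **[LEC-BASE]** from `Br`. -/
theorem s56l_base (hBR : s56l_BR_stmt) : s56l_Base_stmt :=
  s56l_base_of s56lf_baseH1 (s56lk2_baseH2 hBR) s56lg_alg1 s56lg_alg2

section Aut

variable {p : ℕ} [Fact p.Prime] {U : Type*} [Group U] {Z : Type*} [AddCommGroup Z]
  [DistribMulAction U Z]

/-- The pointwise stabiliser of a module of order `p` has index prime to `p`. -/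
theorem s56l_index_ker_perm (hZ : ∀ z : Z, p • z = 0) (hcard : Nat.card Z = p) :
    ¬ p ∣ (MulAction.toPermHom U Z).ker.index := by
  have hp : p.Prime := Fact.out
  have hZfin : Finite Z := Nat.finite_of_card_ne_zero (by rw [hcard]; exact hp.ne_zero)
  obtain ⟨z₀, θ, hθ, hgen⟩ := s56lg_exists_gen hZ hcard
  have hz₀ : z₀ ≠ 0 := by
    intro h
    rw [h, map_zero] at hθ
    have : Nontrivial (ZMod p) := ZMod.nontrivial_iff.2 hp.ne_one
    exact zero_ne_one hθ
  rw [Subgroup.index_ker]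
  -- evaluation at the generator is injective with values in the nonzero elements
  let ev : ↥(MulAction.toPermHom U Z).range → {z : Z // z ≠ 0} := fun σ => ⟨σ.1 z₀, by
    obtain ⟨σ, u, rfl⟩ := σ
    intro h
    apply hz₀
    have h1 : u • z₀ = 0 := h
    rw [← smul_zero u] at h1
    exact smul_left_cancel u h1⟩
  have hinj : Function.Injective ev := by
    rintro ⟨σ, u, rfl⟩ ⟨σ', u', rfl⟩ hfg
    have h0 : u • z₀ = u' • z₀ := congrArg Subtype.val hfg
    apply Subtype.ext
    ext z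
    show u • z = u' • z
    rw [hgen z, smul_comm u, smul_comm u', h0]
  have h1 : Nat.card ↥(MulAction.toPermHom U Z).range ≤ Nat.card {z : Z // z ≠ 0} :=
    Nat.card_le_card_of_injective ev hinj
  have h2 : Nat.card {z : Z // z ≠ 0} = p - 1 := by
    have h3 : Nat.card {z : Z // z ≠ 0} = Nat.card ↥({0}ᶜ : Set Z) := rfl
    rw [h3, Nat.card_coe_set_eq, Set.ncard_compl, Set.ncard_singleton, hcard]
  have hfin : Finite ↥(MulAction.toPermHom U Z).range := Finite.of_injective ev hinj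
  have hpos : 0 < Nat.card ↥(MulAction.toPermHom U Z).range := Nat.card_pos
  have : 0 < p := hp.pos
  intro hdvd
  have := Nat.le_of_dvd hpos hdvd
  omega

end Aut

section Shrink

variable {p : ℕ} [Fact p.Prime] {q : Nat.Primes}

/-- The subgroup of `G_q` fixing `μ_p` pointwise. -/
noncomputable def s56l_Wmu (p : ℕ) (q : Nat.Primes) : Subgroup (primeLocalGaloisGroup q) :=
  (MulAction.toPermHom (primeLocalGaloisGroup q) ↥(s56l_mu p q)).ker

instance s56l_Wmu_normal : (s56l_Wmu p q).Normal := MonoidHom.normal_ker _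

theorem s56l_mem_Wmu {g : primeLocalGaloisGroup q} :
    g ∈ s56l_Wmu p q ↔ ∀ ζ : ↥(s56l_mu p q), g • ζ = ζ := by
  rw [s56l_Wmu, MonoidHom.mem_ker]
  constructor
  · intro h ζ
    have := DFunLike.congr_fun h ζ
    exact this
  · intro h
    ext ζ
    exact congrArg Subtype.val (h ζ)

theorem s56l_mu_smooth : (tl_levelsLoc q).IsSmooth ↥(s56l_mu p q) := by
  intro ζ
  obtain ⟨V, hV, h⟩ := tl_isSmooth_locUnits q ζ.1
  exact ⟨V, hV, fun u hu => Subtype.ext (h u hu)⟩

/-- `W ⊓ Wμ` contains a level. -/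
theorem s56l_Wmu_open {W : Subgroup (primeLocalGaloisGroup q)} (hW : W ∈ (tl_levelsLoc q).levels) :
    ∃ V₀ ∈ (tl_levelsLoc q).levels, V₀ ≤ W ⊓ s56l_Wmu p q := by
  have hp : p.Prime := Fact.out
  have hfin : Finite ↥(s56l_mu p q) :=
    Nat.finite_of_card_ne_zero (by rw [s56l_mu_card]; exact hp.ne_zero)
  obtain ⟨V, hV, hVW, -, hfix⟩ := (s56l_mu_smooth (p := p) (q := q)).exists_level (tl_levelsLoc q)
    (Set.toFinite (Set.univ : Set ↥(s56l_mu p q))) hW
  exact ⟨V, hV, le_inf hVW fun v hv => s56l_mem_Wmu.2 fun ζ => hfix v hv ζ (Set.mem_univ ζ)⟩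

/-- The index of `Wμ ∩ U` in `U` is prime to `p`. -/
theorem s56l_Wmu_index (U : Subgroup (primeLocalGaloisGroup q)) :
    ¬ p ∣ ((s56l_Wmu p q).subgroupOf U).index := by
  have h1 : (s56l_Wmu p q).subgroupOf U = (MulAction.toPermHom ↥U ↥(s56l_mu p q)).ker := by
    ext u
    rw [Subgroup.mem_subgroupOf, MonoidHom.mem_ker, s56l_Wmu, MonoidHom.mem_ker]
    constructor
    · intro h
      ext ζ
      exact congrArg Subtype.val (DFunLike.congr_fun h ζ)
    · intro h
      ext ζ
      exact congrArg Subtype.val (DFunLike.congr_fun h ζ)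
  rw [h1]
  exact s56l_index_ker_perm (s56l_mu_tors p q) (s56l_mu_card p q)

/-- The shrunk pair satisfies the base hypotheses. -/
theorem s56l_baseHyp_shrink {W U : Subgroup (primeLocalGaloisGroup q)}
    (hW : W ∈ (tl_levelsLoc q).levels) [hWn : W.Normal] (hWU : W ≤ U)
    (hidx : ¬ p ∣ (W.subgroupOf U).index) : s56l_BaseHyp p q (W ⊓ s56l_Wmu p q) U where
  normal := inferInstance
  level := s56l_Wmu_open hW
  le := le_trans inf_le_left hWU
  index := by
    have hp : p.Prime := Fact.out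
    have h1 : ((W ⊓ s56l_Wmu p q).subgroupOf U) =
        (s56l_Wmu p q).subgroupOf U ⊓ W.subgroupOf U := by
      ext u
      simp only [Subgroup.mem_subgroupOf, Subgroup.mem_inf, and_comm]
    have h2 : ((s56l_Wmu p q).subgroupOf U ⊓ W.subgroupOf U).index =
        ((s56l_Wmu p q).subgroupOf U).relIndex (W.subgroupOf U) * (W.subgroupOf U).index := by
      rw [← Subgroup.inf_relIndex_right, Subgroup.relIndex_mul_index inf_le_right]
    rw [h1, h2]
    intro h3
    rcases (Nat.Prime.dvd_mul hp).1 h3 with h4 | h4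
    · exact s56l_Wmu_index U (dvd_trans h4 (Subgroup.relIndex_dvd_index_of_normal _ _))
    · exact hidx h4
  mu := fun w hw ζ => s56l_mem_Wmu.1 hw.2 ζ

end Shrink

/-- **helper8's base seam** from `Br`. -/
theorem s56l_elt_base (hBR : s56l_BR_stmt) : s56elt_Base_stmt := by
  intro p _ hp2 q W hW hWn U hWU _ hidx N _ _ _ hpN htriv
  have hB : s56l_BaseHyp p q (W ⊓ s56l_Wmu p q) U := s56l_baseHyp_shrink hW hWU hidx
  have hN : s56l_CoefHyp p (W ⊓ s56l_Wmu p q) U N :=
    ⟨inferInstance, hpN, fun u hu n => htriv u hu.1 n⟩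
  have h1 := (s56lf_baseH1 p hp2 q _ U hB N hN).1
  have h2 := (s56lk2_baseH2 hBR p hp2 q _ U hB N hN).1
  have h3 := s56l_base hBR p hp2 q _ U hB N hN
  refine ⟨h1, h2, ?_⟩
  rw [show (tl_levelsLoc q).comap U.subtype = s56esh_LU (tl_levelsLoc q) U from rfl, h3]
  congr 1
  by_cases hqp : q = pPrime p
  · rw [if_pos hqp, if_pos hqp, one_mul]
  · rw [if_neg hqp, if_neg hqp, zero_mul, pow_zero]

/-- **[GW-LEC]** from its two remaining inputs: the vanishing of `H³` ([EC-H3-loc]) and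
`Br(F)[p] = ℤ/p` with trivial conjugation action ([LEC-H2]). -/
theorem s56l_LEC (h3 : s56elt_H3_stmt) (hBR : s56l_BR_stmt) : s56gw_LEC_stmt :=
  s56elt_LEC h3 (s56l_elt_base hBR)

end Fermat.Agent.S56
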