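/-
S56, node [GW-EC], local half [GW-LEC] (helper28).  Prefix `s56gwl_`.  Mathlib only.

**Counting equivariant homomorphisms** (a Grothendieck-group-free form of the Herbrand quotient).

`Λ` a ring (in the application `Λ = ℤ[G]`, `G` a finite group of order prime to `p`), `X` a finite
`Λ`-module killed by `p` which is "projective for `p`-elementary modules" (`s56gwl_Lift`).  For a
`Λ`-module `M` put
* `s56gwl_cnt X A = #Hom_Λ(X, A)`;
* `s56gwl_a X M p = #Hom_Λ(X, M / pM)`, `s56gwl_b X M p = #Hom_Λ(X, M[p])`.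

Main results:
* `s56gwl_cnt_ker_range` : `#Hom(X, M₁) = #Hom(X, ker φ) * #Hom(X, range φ)`;
* `s56gwl_step`  : `pM ≤ V ≤ M` ⟹ `a(M) b(V) = a(V) b(M)`  (the 6-term sequence
  `0 → V[p] → M[p] → M/V → V/pV → M/pM → M/V → 0`);
* `s56gwl_chain` : the same for `pⁿM ≤ V`;
* `s56gwl_coprime` : `mM ≤ V`, `(m, p) = 1` ⟹ `a(M) = a(V)`, `b(M) = b(V)`;
* `s56gwl_herbrand` : the same for `NM ≤ V`, any `N ≥ 1` (`p` prime).
-/
import Mathlib

set_option autoImplicit false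

namespace Fermat.Agent.S56

open LinearMap Submodule

universe u v w

section Defs

variable {Λ : Type w} [Ring Λ]

/-- multiplication by the natural number `p` as a `Λ`-linear endomorphism. -/
def s56gwl_mulp (M : Type u) [AddCommGroup M] [Module Λ M] (p : ℕ) : M →ₗ[Λ] M where
  toFun x := p • x
  map_add' x y := smul_add p x y
  map_smul' c x := (smul_comm c p x).symm

@[simp] theorem s56gwl_mulp_apply (M : Type u) [AddCommGroup M] [Module Λ M] (p : ℕ) (x : M) :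
    s56gwl_mulp (Λ := Λ) M p x = p • x := rfl

/-- `#Hom_Λ(X, A)`. -/
noncomputable def s56gwl_cnt (Λ : Type w) [Ring Λ] (X : Type v) [AddCommGroup X] [Module Λ X]
    (A : Type u) [AddCommGroup A] [Module Λ A] : ℕ :=
  Nat.card (X →ₗ[Λ] A)

/-- `X` has the lifting property for surjections of `Λ`-modules (in universe `u`) killed by `p`. -/
def s56gwl_Lift (Λ : Type w) [Ring Λ] (X : Type v) [AddCommGroup X] [Module Λ X] (p : ℕ) : Prop :=
  ∀ (B C : Type u) [AddCommGroup B] [Module Λ B] [AddCommGroup C] [Module Λ C],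
    (∀ b : B, p • b = 0) → ∀ π : B →ₗ[Λ] C, Function.Surjective π →
      ∀ f : X →ₗ[Λ] C, ∃ h : X →ₗ[Λ] B, π.comp h = f

end Defs

section Count

variable {Λ : Type w} [Ring Λ] {X : Type v} [AddCommGroup X] [Module Λ X]

instance s56gwl_finite_hom [Finite X] (A : Type u) [AddCommGroup A] [Module Λ A] [Finite A] :
    Finite (X →ₗ[Λ] A) :=
  Finite.of_injective (fun f : X →ₗ[Λ] A => (f : X → A)) DFunLike.coe_injective

theorem s56gwl_cnt_pos [Finite X] (A : Type u) [AddCommGroup A] [Module Λ A] [Finite A] :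
    0 < s56gwl_cnt Λ X A := Nat.card_pos

theorem s56gwl_cnt_congr {A : Type u} {A' : Type u} [AddCommGroup A] [Module Λ A]
    [AddCommGroup A'] [Module Λ A'] (e : A ≃ₗ[Λ] A') : s56gwl_cnt Λ X A = s56gwl_cnt Λ X A' := by
  refine Nat.card_congr ⟨fun f => e.toLinearMap.comp f, fun f => e.symm.toLinearMap.comp f, ?_, ?_⟩
  · intro f; ext x; simp
  · intro f; ext x; simp

/-- **multiplicativity along a linear map**. -/
theorem s56gwl_cnt_ker_range {p : ℕ} (hX : s56gwl_Lift.{u} Λ X p)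
    {M₁ M₂ : Type u} [AddCommGroup M₁] [Module Λ M₁] [AddCommGroup M₂] [Module Λ M₂]
    [Finite M₁] (hp : ∀ b : M₁, p • b = 0) (φ : M₁ →ₗ[Λ] M₂) :
    s56gwl_cnt Λ X M₁ = s56gwl_cnt Λ X (LinearMap.ker φ) * s56gwl_cnt Λ X (LinearMap.range φ) := by
  classical
  -- the map `Hom(X, M₁) → Hom(X, range φ)`
  let Φ : (X →ₗ[Λ] M₁) →+ (X →ₗ[Λ] LinearMap.range φ) :=
    { toFun := fun f => φ.rangeRestrict.comp f
      map_zero' := by ext; simp
      map_add' := fun f g => by ext; simp }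
  have hsurj : Function.Surjective Φ := by
    intro f
    obtain ⟨h, hh⟩ := hX M₁ (LinearMap.range φ) hp φ.rangeRestrict φ.surjective_rangeRestrict f
    exact ⟨h, hh⟩
  -- its kernel is `Hom(X, ker φ)`
  have hker : Nat.card Φ.ker = s56gwl_cnt Λ X (LinearMap.ker φ) := by
    refine Nat.card_congr ⟨fun f => LinearMap.codRestrict (LinearMap.ker φ) f.1 ?_,
      fun g => ⟨(LinearMap.ker φ).subtype.comp g, ?_⟩, ?_, ?_⟩
    · intro x
      have h1 : Φ f.1 = 0 := f.2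
      have h2 := congrArg (fun t : X →ₗ[Λ] LinearMap.range φ => ((t x : LinearMap.range φ) : M₂)) h1
      simpa [Φ] using h2
    · rw [AddMonoidHom.mem_ker]
      ext x
      simp [Φ]
    · intro f; ext x; simp
    · intro g; ext x; simp
  have hq : Nat.card ((X →ₗ[Λ] M₁) ⧸ Φ.ker) = s56gwl_cnt Λ X (LinearMap.range φ) :=
    Nat.card_congr (QuotientAddGroup.quotientKerEquivOfSurjective Φ hsurj).toEquiv
  have := AddSubgroup.card_eq_card_quotient_mul_card_addSubgroup Φ.ker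
  rw [s56gwl_cnt, this, hq, hker, mul_comm]

end Count

/-! ### the two invariants `a(M) = #Hom(X, M/pM)`, `b(M) = #Hom(X, M[p])` -/

section AB

variable (Λ : Type w) [Ring Λ] (X : Type v) [AddCommGroup X] [Module Λ X]

/-- `a(M) = #Hom_Λ(X, M / pM)`. -/
noncomputable def s56gwl_a (M : Type u) [AddCommGroup M] [Module Λ M] (p : ℕ) : ℕ :=
  s56gwl_cnt Λ X (M ⧸ LinearMap.range (s56gwl_mulp (Λ := Λ) M p))

/-- `b(M) = #Hom_Λ(X, M[p])`. -/
noncomputable def s56gwl_b (M : Type u) [AddCommGroup M] [Module Λ M] (p : ℕ) : ℕ :=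
  s56gwl_cnt Λ X (LinearMap.ker (s56gwl_mulp (Λ := Λ) M p))

variable {Λ X}

theorem s56gwl_mulp_comm {M M' : Type u} [AddCommGroup M] [Module Λ M] [AddCommGroup M']
    [Module Λ M'] (f : M →ₗ[Λ] M') (p : ℕ) (x : M) :
    f (s56gwl_mulp (Λ := Λ) M p x) = s56gwl_mulp (Λ := Λ) M' p (f x) := by
  simp

theorem s56gwl_a_congr {M M' : Type u} [AddCommGroup M] [Module Λ M] [AddCommGroup M']
    [Module Λ M'] (e : M ≃ₗ[Λ] M') (p : ℕ) : s56gwl_a Λ X M p = s56gwl_a Λ X M' p := by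
  refine s56gwl_cnt_congr (Submodule.Quotient.equiv _ _ e ?_)
  ext y
  constructor
  · rintro ⟨_, ⟨x, rfl⟩, rfl⟩
    exact ⟨e x, by simp⟩
  · rintro ⟨x, rfl⟩
    exact ⟨s56gwl_mulp (Λ := Λ) M p (e.symm x), ⟨_, rfl⟩, by simp⟩

theorem s56gwl_b_congr {M M' : Type u} [AddCommGroup M] [Module Λ M] [AddCommGroup M']
    [Module Λ M'] (e : M ≃ₗ[Λ] M') (p : ℕ) : s56gwl_b Λ X M p = s56gwl_b Λ X M' p := by
  refine s56gwl_cnt_congr (LinearEquiv.ofSubmodules e _ _ ?_)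
  ext y
  constructor
  · rintro ⟨x, hx, rfl⟩
    rw [SetLike.mem_coe, LinearMap.mem_ker] at hx
    rw [LinearMap.mem_ker]
    have := congrArg e hx
    simpa using this
  · intro hy
    rw [LinearMap.mem_ker] at hy
    refine ⟨e.symm y, ?_, by simp⟩
    rw [SetLike.mem_coe, LinearMap.mem_ker]
    have := congrArg e.symm hy
    simpa using this

end AB

/-! ### the step `pM ≤ V ≤ M` -/

section Step

variable {Λ : Type w} [Ring Λ] {X : Type v} [AddCommGroup X] [Module Λ X]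
  {M : Type u} [AddCommGroup M] [Module Λ M]

theorem s56gwl_finite_of_ker_range {A B : Type u} [AddCommGroup A] [Module Λ A] [AddCommGroup B]
    [Module Λ B] (φ : A →ₗ[Λ] B) [Finite (LinearMap.ker φ)] [Finite (LinearMap.range φ)] :
    Finite A := by
  have h1 : Finite φ.toAddMonoidHom.ker := by
    have : Finite (LinearMap.ker φ) := inferInstance
    exact this
  have h2 : Finite (A ⧸ φ.toAddMonoidHom.ker) := by
    have : Finite φ.toAddMonoidHom.range := by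
      have : Finite (LinearMap.range φ) := inferInstance
      exact this
    exact Finite.of_equiv _
      (QuotientAddGroup.quotientKerEquivRange φ.toAddMonoidHom).symm.toEquiv
  exact Finite.of_equiv _ (AddSubgroup.addGroupEquivQuotientProdAddSubgroup
    (s := φ.toAddMonoidHom.ker)).symm

variable (V : Submodule Λ M) (p : ℕ)

/-- `φ₁ : M/pM → M/V`. -/
def s56gwl_phi1 (hpV : ∀ x : M, p • x ∈ V) :
    (M ⧸ LinearMap.range (s56gwl_mulp (Λ := Λ) M p)) →ₗ[Λ] M ⧸ V :=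
  Submodule.mapQ _ V LinearMap.id (by
    rintro _ ⟨x, rfl⟩
    exact hpV x)

/-- `φ₂ : V/pV → M/pM`. -/
def s56gwl_phi2 :
    (↥V ⧸ LinearMap.range (s56gwl_mulp (Λ := Λ) ↥V p)) →ₗ[Λ]
      M ⧸ LinearMap.range (s56gwl_mulp (Λ := Λ) M p) :=
  Submodule.mapQ _ _ V.subtype (by
    rintro _ ⟨x, rfl⟩
    exact ⟨(x : M), by simp⟩)

/-- `g : M → V`, `x ↦ p x`. -/
def s56gwl_g (hpV : ∀ x : M, p • x ∈ V) : M →ₗ[Λ] ↥V :=
  LinearMap.codRestrict V (s56gwl_mulp (Λ := Λ) M p) hpV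

@[simp] theorem s56gwl_g_coe (hpV : ∀ x : M, p • x ∈ V) (t : M) :
    ((s56gwl_g V p hpV t : ↥V) : M) = p • t := rfl

/-- `φ₃ : M/V → V/pV`, `[x] ↦ [p x]`. -/
def s56gwl_phi3 (hpV : ∀ x : M, p • x ∈ V) :
    (M ⧸ V) →ₗ[Λ] ↥V ⧸ LinearMap.range (s56gwl_mulp (Λ := Λ) ↥V p) :=
  V.liftQ ((LinearMap.range (s56gwl_mulp (Λ := Λ) ↥V p)).mkQ.comp (s56gwl_g V p hpV)) (by
    intro x hx
    rw [LinearMap.mem_ker, LinearMap.comp_apply, Submodule.mkQ_apply,
      Submodule.Quotient.mk_eq_zero]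
    exact ⟨⟨x, hx⟩, Subtype.ext (by simp)⟩)

/-- `φ₄ : M[p] → M/V`. -/
def s56gwl_phi4 : LinearMap.ker (s56gwl_mulp (Λ := Λ) M p) →ₗ[Λ] M ⧸ V :=
  V.mkQ.comp (LinearMap.ker (s56gwl_mulp (Λ := Λ) M p)).subtype

theorem s56gwl_phi1_surjective (hpV : ∀ x : M, p • x ∈ V) :
    Function.Surjective (s56gwl_phi1 V p hpV) := by
  intro y
  obtain ⟨x, rfl⟩ := Submodule.Quotient.mk_surjective V y
  exact ⟨Submodule.Quotient.mk x, by simp [s56gwl_phi1]⟩

theorem s56gwl_ker_phi1 (hpV : ∀ x : M, p • x ∈ V) :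
    LinearMap.ker (s56gwl_phi1 V p hpV) = LinearMap.range (s56gwl_phi2 V p) := by
  ext y
  obtain ⟨x, rfl⟩ := Submodule.Quotient.mk_surjective _ y
  rw [LinearMap.mem_ker]
  constructor
  · intro h
    have hx : x ∈ V := by
      have : (Submodule.Quotient.mk x : M ⧸ V) = 0 := by simpa [s56gwl_phi1] using h
      exact (Submodule.Quotient.mk_eq_zero V).mp this
    exact ⟨Submodule.Quotient.mk ⟨x, hx⟩, by simp [s56gwl_phi2]⟩
  · rintro ⟨z, hz⟩
    obtain ⟨v, rfl⟩ := Submodule.Quotient.mk_surjective _ z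
    have h1 : s56gwl_phi2 V p (Submodule.Quotient.mk v) = Submodule.Quotient.mk (v : M) := by
      simp [s56gwl_phi2]
    rw [h1, Submodule.Quotient.eq] at hz
    obtain ⟨t, ht⟩ := hz
    have hxV : x ∈ V := by
      have h2 : x = (v : M) - p • t := by
        have : p • t = (v : M) - x := by simpa using ht
        rw [this]; abel
      rw [h2]
      exact V.sub_mem v.2 (hpV t)
    have : (Submodule.Quotient.mk x : M ⧸ V) = 0 := (Submodule.Quotient.mk_eq_zero V).mpr hxV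
    simpa [s56gwl_phi1] using this

theorem s56gwl_ker_phi2 (hpV : ∀ x : M, p • x ∈ V) :
    LinearMap.ker (s56gwl_phi2 V p) = LinearMap.range (s56gwl_phi3 V p hpV) := by
  ext y
  obtain ⟨v, rfl⟩ := Submodule.Quotient.mk_surjective _ y
  rw [LinearMap.mem_ker]
  have h1 : s56gwl_phi2 V p (Submodule.Quotient.mk v) = Submodule.Quotient.mk (v : M) := by
    simp [s56gwl_phi2]
  constructor
  · intro h
    rw [h1, Submodule.Quotient.mk_eq_zero] at h
    obtain ⟨t, ht⟩ := h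
    refine ⟨Submodule.Quotient.mk t, ?_⟩
    have : s56gwl_g V p hpV t = v := Subtype.ext (by simpa using ht)
    simp [s56gwl_phi3, this]
  · rintro ⟨z, hz⟩
    obtain ⟨t, rfl⟩ := Submodule.Quotient.mk_surjective _ z
    have h2 : s56gwl_phi3 V p hpV (Submodule.Quotient.mk t)
        = Submodule.Quotient.mk (s56gwl_g V p hpV t) := by
      simp [s56gwl_phi3]
    rw [h2, Submodule.Quotient.eq] at hz
    obtain ⟨w, hw⟩ := hz
    rw [h1, Submodule.Quotient.mk_eq_zero]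
    refine ⟨t - (w : M), ?_⟩
    have hw' : p • (w : M) = p • t - (v : M) := by
      have := congrArg (fun z : ↥V => (z : M)) hw
      simpa using this
    simp only [s56gwl_mulp_apply, smul_sub, hw']
    abel

theorem s56gwl_ker_phi3 (hpV : ∀ x : M, p • x ∈ V) :
    LinearMap.ker (s56gwl_phi3 V p hpV) = LinearMap.range (s56gwl_phi4 V p) := by
  ext y
  obtain ⟨t, rfl⟩ := Submodule.Quotient.mk_surjective _ y
  rw [LinearMap.mem_ker]
  have h2 : s56gwl_phi3 V p hpV (Submodule.Quotient.mk t)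
      = Submodule.Quotient.mk (s56gwl_g V p hpV t) := by
    simp [s56gwl_phi3]
  constructor
  · intro h
    rw [h2, Submodule.Quotient.mk_eq_zero] at h
    obtain ⟨w, hw⟩ := h
    have hw' : p • (w : M) = p • t := by
      have := congrArg (fun z : ↥V => (z : M)) hw
      simpa using this
    refine ⟨⟨t - (w : M), ?_⟩, ?_⟩
    · rw [LinearMap.mem_ker, s56gwl_mulp_apply, smul_sub, hw', sub_self]
    · simp only [s56gwl_phi4, LinearMap.comp_apply, Submodule.subtype_apply,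
        Submodule.mkQ_apply]
      rw [Submodule.Quotient.eq]
      simp
  · rintro ⟨⟨z, hz⟩, hzt⟩
    rw [LinearMap.mem_ker, s56gwl_mulp_apply] at hz
    simp only [s56gwl_phi4, LinearMap.comp_apply, Submodule.subtype_apply,
      Submodule.mkQ_apply] at hzt
    rw [Submodule.Quotient.eq] at hzt
    rw [h2, Submodule.Quotient.mk_eq_zero]
    refine ⟨⟨t - z, ?_⟩, ?_⟩
    · have : t - z = -(z - t) := by abel
      rw [this]; exact V.neg_mem hzt
    · apply Subtype.ext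
      simp [smul_sub, hz]

/-- `ker φ₄ ≃ V[p]`. -/
def s56gwl_kerPhi4Equiv :
    LinearMap.ker (s56gwl_phi4 (Λ := Λ) V p) ≃ₗ[Λ] LinearMap.ker (s56gwl_mulp (Λ := Λ) ↥V p) where
  toFun z := ⟨⟨(z.1 : M), by
      have h : s56gwl_phi4 (Λ := Λ) V p z.1 = 0 := LinearMap.mem_ker.mp z.2
      exact (Submodule.Quotient.mk_eq_zero V).mp h⟩, by
      rw [LinearMap.mem_ker]
      apply Subtype.ext
      have h : (z.1 : M) ∈ LinearMap.ker (s56gwl_mulp (Λ := Λ) M p) := z.1.2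
      rw [LinearMap.mem_ker, s56gwl_mulp_apply] at h
      exact h⟩
  map_add' a b := rfl
  map_smul' c a := rfl
  invFun w := ⟨⟨(w.1 : M), by
      have h : w.1 ∈ LinearMap.ker (s56gwl_mulp (Λ := Λ) ↥V p) := w.2
      rw [LinearMap.mem_ker, s56gwl_mulp_apply] at h
      rw [LinearMap.mem_ker, s56gwl_mulp_apply]
      exact congrArg (fun z : ↥V => (z : M)) h⟩, by
      rw [LinearMap.mem_ker]
      simp [s56gwl_phi4]⟩
  left_inv z := rfl
  right_inv w := rfl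

end Step

section StepCount

variable {Λ : Type w} [Ring Λ] {X : Type v} [AddCommGroup X] [Module Λ X]
  {M : Type u} [AddCommGroup M] [Module Λ M]

theorem s56gwl_quot_mulp_killed (p : ℕ)
    (y : M ⧸ LinearMap.range (s56gwl_mulp (Λ := Λ) M p)) : p • y = 0 := by
  obtain ⟨x, rfl⟩ := Submodule.Quotient.mk_surjective _ y
  rw [← Submodule.Quotient.mk_smul, Submodule.Quotient.mk_eq_zero]
  exact ⟨x, rfl⟩

theorem s56gwl_quot_killed (V : Submodule Λ M) (p : ℕ) (hpV : ∀ x : M, p • x ∈ V)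
    (y : M ⧸ V) : p • y = 0 := by
  obtain ⟨x, rfl⟩ := Submodule.Quotient.mk_surjective _ y
  rw [← Submodule.Quotient.mk_smul, Submodule.Quotient.mk_eq_zero]
  exact hpV x

theorem s56gwl_ker_mulp_killed (p : ℕ)
    (y : LinearMap.ker (s56gwl_mulp (Λ := Λ) M p)) : p • y = 0 := by
  apply Subtype.ext
  have h : (y : M) ∈ LinearMap.ker (s56gwl_mulp (Λ := Λ) M p) := y.2
  rw [LinearMap.mem_ker, s56gwl_mulp_apply] at h
  exact h

/-- finiteness of `M/V` from `M/pM`. -/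
theorem s56gwl_finite_quot (V : Submodule Λ M) (p : ℕ) (hpV : ∀ x : M, p • x ∈ V)
    [Finite (M ⧸ LinearMap.range (s56gwl_mulp (Λ := Λ) M p))] : Finite (M ⧸ V) :=
  Finite.of_surjective _ (s56gwl_phi1_surjective V p hpV)

/-- finiteness of `V/pV` from `M/pM`. -/
theorem s56gwl_finite_a_sub (V : Submodule Λ M) (p : ℕ) (hpV : ∀ x : M, p • x ∈ V)
    [Finite (M ⧸ LinearMap.range (s56gwl_mulp (Λ := Λ) M p))] :
    Finite (↥V ⧸ LinearMap.range (s56gwl_mulp (Λ := Λ) ↥V p)) := by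
  have : Finite (M ⧸ V) := s56gwl_finite_quot V p hpV
  have : Finite (LinearMap.ker (s56gwl_phi2 V p)) := by
    rw [s56gwl_ker_phi2 V p hpV]
    exact Finite.of_surjective _ (s56gwl_phi3 V p hpV).surjective_rangeRestrict
  have : Finite (LinearMap.range (s56gwl_phi2 V p)) := inferInstance
  exact s56gwl_finite_of_ker_range (s56gwl_phi2 V p)

/-- finiteness of `V[p]` from `M[p]`. -/
theorem s56gwl_finite_b_sub (V : Submodule Λ M) (p : ℕ)
    [Finite (LinearMap.ker (s56gwl_mulp (Λ := Λ) M p))] :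
    Finite (LinearMap.ker (s56gwl_mulp (Λ := Λ) ↥V p)) := by
  have : Finite (LinearMap.ker (s56gwl_phi4 (Λ := Λ) V p)) := inferInstance
  exact Finite.of_equiv _ (s56gwl_kerPhi4Equiv (Λ := Λ) V p).toEquiv

/-- **the step** `pM ≤ V ≤ M`: `a(M) b(V) = a(V) b(M)`. -/
theorem s56gwl_step {p : ℕ} (hX : s56gwl_Lift.{u} Λ X p) (V : Submodule Λ M)
    (hpV : ∀ x : M, p • x ∈ V)
    [Finite (M ⧸ LinearMap.range (s56gwl_mulp (Λ := Λ) M p))]
    [Finite (LinearMap.ker (s56gwl_mulp (Λ := Λ) M p))] :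
    s56gwl_a Λ X M p * s56gwl_b Λ X ↥V p = s56gwl_a Λ X ↥V p * s56gwl_b Λ X M p := by
  have : Finite (M ⧸ V) := s56gwl_finite_quot V p hpV
  have : Finite (↥V ⧸ LinearMap.range (s56gwl_mulp (Λ := Λ) ↥V p)) :=
    s56gwl_finite_a_sub V p hpV
  -- the four splittings
  have e1 := s56gwl_cnt_ker_range (X := X) hX (s56gwl_quot_mulp_killed (Λ := Λ) (M := M) p)
    (s56gwl_phi1 V p hpV)
  have e2 := s56gwl_cnt_ker_range (X := X) hX (s56gwl_quot_mulp_killed (Λ := Λ) (M := ↥V) p)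
    (s56gwl_phi2 V p)
  have e3 := s56gwl_cnt_ker_range (X := X) hX (s56gwl_quot_killed V p hpV)
    (s56gwl_phi3 V p hpV)
  have e4 := s56gwl_cnt_ker_range (X := X) hX (s56gwl_ker_mulp_killed (Λ := Λ) (M := M) p)
    (s56gwl_phi4 V p)
  -- identify kernels with the previous ranges
  have k1 : s56gwl_cnt Λ X (LinearMap.ker (s56gwl_phi1 V p hpV))
      = s56gwl_cnt Λ X (LinearMap.range (s56gwl_phi2 V p)) :=
    s56gwl_cnt_congr (LinearEquiv.ofEq _ _ (s56gwl_ker_phi1 V p hpV))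
  have k2 : s56gwl_cnt Λ X (LinearMap.ker (s56gwl_phi2 V p))
      = s56gwl_cnt Λ X (LinearMap.range (s56gwl_phi3 V p hpV)) :=
    s56gwl_cnt_congr (LinearEquiv.ofEq _ _ (s56gwl_ker_phi2 V p hpV))
  have k3 : s56gwl_cnt Λ X (LinearMap.ker (s56gwl_phi3 V p hpV))
      = s56gwl_cnt Λ X (LinearMap.range (s56gwl_phi4 V p)) :=
    s56gwl_cnt_congr (LinearEquiv.ofEq _ _ (s56gwl_ker_phi3 V p hpV))
  have k4 : s56gwl_cnt Λ X (LinearMap.ker (s56gwl_phi4 (Λ := Λ) V p))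
      = s56gwl_b Λ X ↥V p :=
    s56gwl_cnt_congr (s56gwl_kerPhi4Equiv (Λ := Λ) V p)
  have r1 : s56gwl_cnt Λ X (LinearMap.range (s56gwl_phi1 V p hpV))
      = s56gwl_cnt Λ X (M ⧸ V) :=
    s56gwl_cnt_congr (LinearEquiv.ofTop _
      (LinearMap.range_eq_top.mpr (s56gwl_phi1_surjective V p hpV)))
  rw [k1, r1] at e1
  rw [k2] at e2
  rw [k3] at e3
  rw [k4] at e4
  have hA : s56gwl_a Λ X M p = s56gwl_cnt Λ X (LinearMap.range (s56gwl_phi2 V p))
      * s56gwl_cnt Λ X (M ⧸ V) := e1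
  have hC : s56gwl_a Λ X ↥V p = s56gwl_cnt Λ X (LinearMap.range (s56gwl_phi3 V p hpV))
      * s56gwl_cnt Λ X (LinearMap.range (s56gwl_phi2 V p)) := e2
  have hD : s56gwl_b Λ X M p = s56gwl_b Λ X ↥V p
      * s56gwl_cnt Λ X (LinearMap.range (s56gwl_phi4 V p)) := e4
  rw [hA, hC, hD, e3]
  ring

end StepCount

/-! ### chains -/

section Chain

variable {Λ : Type w} [Ring Λ] {X : Type v} [AddCommGroup X] [Module Λ X]

/-- the conclusion of the comparison theorems. -/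
def s56gwl_Cmp (Λ : Type w) [Ring Λ] (X : Type v) [AddCommGroup X] [Module Λ X]
    (M : Type u) [AddCommGroup M] [Module Λ M] (V : Submodule Λ M) (p : ℕ) : Prop :=
  Finite (↥V ⧸ LinearMap.range (s56gwl_mulp (Λ := Λ) ↥V p)) ∧
    Finite (LinearMap.ker (s56gwl_mulp (Λ := Λ) ↥V p)) ∧
    s56gwl_a Λ X M p * s56gwl_b Λ X ↥V p = s56gwl_a Λ X ↥V p * s56gwl_b Λ X M p

theorem s56gwl_cmp_top [Finite X] (M : Type u) [AddCommGroup M] [Module Λ M] (V : Submodule Λ M)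
    (hV : V = ⊤) (p : ℕ)
    [Finite (M ⧸ LinearMap.range (s56gwl_mulp (Λ := Λ) M p))]
    [Finite (LinearMap.ker (s56gwl_mulp (Λ := Λ) M p))] : s56gwl_Cmp Λ X M V p := by
  have e : ↥V ≃ₗ[Λ] M := LinearEquiv.ofTop V hV
  refine ⟨?_, ?_, ?_⟩
  · refine Finite.of_equiv _ (Submodule.Quotient.equiv
      (LinearMap.range (s56gwl_mulp (Λ := Λ) M p))
      (LinearMap.range (s56gwl_mulp (Λ := Λ) ↥V p)) e.symm ?_).toEquiv
    ext y
    constructor
    · rintro ⟨_, ⟨x, rfl⟩, rfl⟩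
      exact ⟨e.symm x, by simp⟩
    · rintro ⟨x, rfl⟩
      exact ⟨s56gwl_mulp (Λ := Λ) M p (e x), ⟨_, rfl⟩, by simp⟩
  · refine Finite.of_equiv _ (LinearEquiv.ofSubmodules e.symm
      (LinearMap.ker (s56gwl_mulp (Λ := Λ) M p))
      (LinearMap.ker (s56gwl_mulp (Λ := Λ) ↥V p)) ?_).toEquiv
    ext y
    constructor
    · rintro ⟨x, hx, rfl⟩
      rw [SetLike.mem_coe, LinearMap.mem_ker] at hx
      rw [LinearMap.mem_ker]
      have := congrArg e.symm hx
      simpa using this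
    · intro hy
      rw [LinearMap.mem_ker] at hy
      refine ⟨e y, ?_, by simp⟩
      rw [SetLike.mem_coe, LinearMap.mem_ker]
      have := congrArg e hy
      simpa using this
  · rw [s56gwl_a_congr (X := X) e p, s56gwl_b_congr (X := X) e p]

theorem s56gwl_cmp_step [Finite X] {p : ℕ} (hX : s56gwl_Lift.{u} Λ X p)
    (M : Type u) [AddCommGroup M] [Module Λ M] (V : Submodule Λ M)
    (hpV : ∀ x : M, p • x ∈ V)
    [Finite (M ⧸ LinearMap.range (s56gwl_mulp (Λ := Λ) M p))]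
    [Finite (LinearMap.ker (s56gwl_mulp (Λ := Λ) M p))] : s56gwl_Cmp Λ X M V p :=
  ⟨s56gwl_finite_a_sub V p hpV, s56gwl_finite_b_sub V p, s56gwl_step hX V hpV⟩

/-- transitivity of the comparison along `V ≤ V₁ ≤ M`. -/
theorem s56gwl_cmp_trans [Finite X] (M : Type u) [AddCommGroup M] [Module Λ M]
    (V V₁ : Submodule Λ M) (hVV₁ : V ≤ V₁) (p : ℕ)
    (h1 : s56gwl_Cmp Λ X M V₁ p) (h2 : s56gwl_Cmp Λ X ↥V₁ (V.submoduleOf V₁) p) :
    s56gwl_Cmp Λ X M V p := by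
  obtain ⟨f1, g1, c1⟩ := h1
  obtain ⟨f2, g2, c2⟩ := h2
  have e : ↥(V.submoduleOf V₁) ≃ₗ[Λ] ↥V := Submodule.submoduleOfEquivOfLe hVV₁
  have hfa : Finite (↥V ⧸ LinearMap.range (s56gwl_mulp (Λ := Λ) ↥V p)) := by
    refine Finite.of_equiv _ (Submodule.Quotient.equiv
      (LinearMap.range (s56gwl_mulp (Λ := Λ) ↥(V.submoduleOf V₁) p))
      (LinearMap.range (s56gwl_mulp (Λ := Λ) ↥V p)) e ?_).toEquiv
    ext y
    constructor
    · rintro ⟨_, ⟨x, rfl⟩, rfl⟩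
      exact ⟨e x, by simp⟩
    · rintro ⟨x, rfl⟩
      exact ⟨s56gwl_mulp (Λ := Λ) _ p (e.symm x), ⟨_, rfl⟩, by simp⟩
  have hfb : Finite (LinearMap.ker (s56gwl_mulp (Λ := Λ) ↥V p)) := by
    refine Finite.of_equiv _ (LinearEquiv.ofSubmodules e
      (LinearMap.ker (s56gwl_mulp (Λ := Λ) ↥(V.submoduleOf V₁) p))
      (LinearMap.ker (s56gwl_mulp (Λ := Λ) ↥V p)) ?_).toEquiv
    ext y
    constructor
    · rintro ⟨x, hx, rfl⟩
      rw [SetLike.mem_coe, LinearMap.mem_ker] at hx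
      rw [LinearMap.mem_ker]
      have := congrArg e hx
      simpa using this
    · intro hy
      rw [LinearMap.mem_ker] at hy
      refine ⟨e.symm y, ?_, by simp⟩
      rw [SetLike.mem_coe, LinearMap.mem_ker]
      have := congrArg e.symm hy
      simpa using this
  refine ⟨hfa, hfb, ?_⟩
  rw [s56gwl_a_congr (X := X) e p, s56gwl_b_congr (X := X) e p] at c2
  have hpos : 0 < s56gwl_a Λ X ↥V₁ p * s56gwl_b Λ X ↥V₁ p :=
    Nat.mul_pos (s56gwl_cnt_pos _) (s56gwl_cnt_pos _)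
  apply Nat.eq_of_mul_eq_mul_right hpos
  calc s56gwl_a Λ X M p * s56gwl_b Λ X ↥V p * (s56gwl_a Λ X ↥V₁ p * s56gwl_b Λ X ↥V₁ p)
      = (s56gwl_a Λ X M p * s56gwl_b Λ X ↥V₁ p) * (s56gwl_a Λ X ↥V₁ p * s56gwl_b Λ X ↥V p) := by
        ring
    _ = (s56gwl_a Λ X ↥V₁ p * s56gwl_b Λ X M p) * (s56gwl_a Λ X ↥V p * s56gwl_b Λ X ↥V₁ p) := by
        rw [c1, c2]
    _ = s56gwl_a Λ X ↥V p * s56gwl_b Λ X M p * (s56gwl_a Λ X ↥V₁ p * s56gwl_b Λ X ↥V₁ p) := by
        ring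

/-- **chains**: `pⁿ M ≤ V`. -/
theorem s56gwl_chain [Finite X] {p : ℕ} (hX : s56gwl_Lift.{u} Λ X p) (n : ℕ) :
    ∀ (M : Type u) [AddCommGroup M] [Module Λ M] (V : Submodule Λ M),
      (∀ x : M, p ^ n • x ∈ V) →
      Finite (M ⧸ LinearMap.range (s56gwl_mulp (Λ := Λ) M p)) →
      Finite (LinearMap.ker (s56gwl_mulp (Λ := Λ) M p)) → s56gwl_Cmp Λ X M V p := by
  induction n with
  | zero =>
    intro M _ _ V hV hfa hfb
    refine s56gwl_cmp_top M V ?_ p
    rw [eq_top_iff]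
    intro x _
    simpa using hV x
  | succ n ih =>
    intro M _ _ V hV hfa hfb
    set V₁ : Submodule Λ M := V ⊔ LinearMap.range (s56gwl_mulp (Λ := Λ) M p) with hV₁
    have hVV₁ : V ≤ V₁ := le_sup_left
    have h1 : s56gwl_Cmp Λ X M V₁ p :=
      s56gwl_cmp_step hX M V₁ (fun x => le_sup_right (a := V) ⟨x, rfl⟩)
    refine s56gwl_cmp_trans M V V₁ hVV₁ p h1 ?_
    obtain ⟨f1, g1, -⟩ := h1
    refine ih ↥V₁ (V.submoduleOf V₁) ?_ f1 g1
    rintro ⟨x, hx⟩
    rw [Submodule.mem_sup] at hx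
    obtain ⟨v, hv, _, ⟨m, rfl⟩, rfl⟩ := hx
    change (p ^ n • (⟨v + s56gwl_mulp (Λ := Λ) M p m, _⟩ : ↥V₁) : ↥V₁).1 ∈ V
    have : p ^ n • (v + s56gwl_mulp (Λ := Λ) M p m) = p ^ n • v + p ^ (n + 1) • m := by
      rw [smul_add, s56gwl_mulp_apply, smul_smul, pow_succ]
    simp only [Submodule.coe_smul_of_tower]
    rw [this]
    exact V.add_mem (V.smul_of_tower_mem _ hv) (hV m)

end Chain

/-! ### index prime to `p` -/

section Coprime

variable {Λ : Type w} [Ring Λ] {X : Type v} [AddCommGroup X] [Module Λ X]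

theorem s56gwl_bezout {m p : ℕ} (h : Nat.Coprime m p) :
    ∃ u w : ℤ, ∀ (M : Type u) [AddCommGroup M] (x : M), x = u • (m • x) + p • (w • x) := by
  refine ⟨Nat.gcdA m p, Nat.gcdB m p, ?_⟩
  intro M _ x
  have h1 : (1 : ℤ) = (m : ℤ) * Nat.gcdA m p + (p : ℤ) * Nat.gcdB m p := by
    rw [← Nat.gcd_eq_gcd_ab, h.gcd_eq_one]; simp
  calc x = (1 : ℤ) • x := (one_smul ℤ x).symm
    _ = ((m : ℤ) * Nat.gcdA m p + (p : ℤ) * Nat.gcdB m p) • x := by rw [← h1]
    _ = Nat.gcdA m p • (m • x) + p • (Nat.gcdB m p • x) := by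
        rw [add_smul, mul_comm (m : ℤ), mul_smul, mul_smul, natCast_zsmul, natCast_zsmul]

variable {M : Type u} [AddCommGroup M] [Module Λ M] (V : Submodule Λ M) {p : ℕ}

theorem s56gwl_phi2_bijective {m : ℕ} (hm : Nat.Coprime m p) (hmV : ∀ x : M, m • x ∈ V) :
    Function.Bijective (s56gwl_phi2 V p) := by
  obtain ⟨u, w, huw⟩ := s56gwl_bezout.{u} hm
  have h1 : ∀ v : ↥V, s56gwl_phi2 V p (Submodule.Quotient.mk v) = Submodule.Quotient.mk (v : M) := by
    intro v; simp [s56gwl_phi2]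
  constructor
  · rw [← LinearMap.ker_eq_bot, eq_bot_iff]
    intro y hy
    obtain ⟨v, rfl⟩ := Submodule.Quotient.mk_surjective _ y
    rw [LinearMap.mem_ker, h1, Submodule.Quotient.mk_eq_zero] at hy
    obtain ⟨x, hx⟩ := hy
    rw [s56gwl_mulp_apply] at hx
    rw [Submodule.mem_bot, Submodule.Quotient.mk_eq_zero]
    -- `v = p (u (m x) + w v)`
    refine ⟨⟨u • (m • x), zsmul_mem (hmV x) u⟩ + w • v, ?_⟩
    apply Subtype.ext
    have h2 := huw M (v : M)
    have h3 : m • (v : M) = p • (m • x) := by rw [← hx, smul_comm]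
    simp only [s56gwl_mulp_apply, Submodule.coe_smul_of_tower, Submodule.coe_add, smul_add]
    rw [h3] at h2
    rw [h2]
    congr 1
    · rw [smul_comm u p]
    · rw [← h2]
  · intro y
    obtain ⟨x, rfl⟩ := Submodule.Quotient.mk_surjective _ y
    refine ⟨Submodule.Quotient.mk ⟨u • (m • x), zsmul_mem (hmV x) u⟩, ?_⟩
    rw [h1, Submodule.Quotient.eq]
    refine ⟨-(w • x), ?_⟩
    have h2 := huw M x
    simp only [s56gwl_mulp_apply, smul_neg]
    nth_rewrite 3 [h2]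
    abel

theorem s56gwl_ker_le_of_coprime {m : ℕ} (hm : Nat.Coprime m p) (hmV : ∀ x : M, m • x ∈ V)
    (x : M) (hx : p • x = 0) : x ∈ V := by
  obtain ⟨u, w, huw⟩ := s56gwl_bezout.{u} hm
  have h2 := huw M x
  rw [smul_comm p w, hx, smul_zero, add_zero] at h2
  rw [h2]
  exact zsmul_mem (hmV x) u

/-- `V[p] ≃ M[p]` when the index is prime to `p`. -/
def s56gwl_kerEquivOfCoprime {m : ℕ} (hm : Nat.Coprime m p) (hmV : ∀ x : M, m • x ∈ V) :
    LinearMap.ker (s56gwl_mulp (Λ := Λ) ↥V p) ≃ₗ[Λ] LinearMap.ker (s56gwl_mulp (Λ := Λ) M p) where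
  toFun w := ⟨(w.1 : M), by
      have h : w.1 ∈ LinearMap.ker (s56gwl_mulp (Λ := Λ) ↥V p) := w.2
      rw [LinearMap.mem_ker, s56gwl_mulp_apply] at h
      rw [LinearMap.mem_ker, s56gwl_mulp_apply]
      exact congrArg (fun z : ↥V => (z : M)) h⟩
  map_add' a b := rfl
  map_smul' c a := rfl
  invFun z := ⟨⟨(z : M), s56gwl_ker_le_of_coprime V hm hmV z (by
      have h : (z : M) ∈ LinearMap.ker (s56gwl_mulp (Λ := Λ) M p) := z.2
      rwa [LinearMap.mem_ker, s56gwl_mulp_apply] at h)⟩, by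
      rw [LinearMap.mem_ker]
      apply Subtype.ext
      have h : (z : M) ∈ LinearMap.ker (s56gwl_mulp (Λ := Λ) M p) := z.2
      rw [LinearMap.mem_ker, s56gwl_mulp_apply] at h
      exact h⟩
  left_inv z := rfl
  right_inv w := rfl

/-- **index prime to `p`**: nothing changes. -/
theorem s56gwl_cmp_coprime [Finite X] {m : ℕ} (hm : Nat.Coprime m p)
    (hmV : ∀ x : M, m • x ∈ V)
    [Finite (M ⧸ LinearMap.range (s56gwl_mulp (Λ := Λ) M p))]
    [Finite (LinearMap.ker (s56gwl_mulp (Λ := Λ) M p))] : s56gwl_Cmp Λ X M V p := by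
  have e1 : (↥V ⧸ LinearMap.range (s56gwl_mulp (Λ := Λ) ↥V p)) ≃ₗ[Λ]
      M ⧸ LinearMap.range (s56gwl_mulp (Λ := Λ) M p) :=
    LinearEquiv.ofBijective (s56gwl_phi2 V p) (s56gwl_phi2_bijective V hm hmV)
  have e2 := s56gwl_kerEquivOfCoprime (Λ := Λ) V hm hmV
  refine ⟨Finite.of_equiv _ e1.symm.toEquiv, Finite.of_equiv _ e2.symm.toEquiv, ?_⟩
  have ha : s56gwl_a Λ X ↥V p = s56gwl_a Λ X M p := s56gwl_cnt_congr e1
  have hb : s56gwl_b Λ X ↥V p = s56gwl_b Λ X M p := s56gwl_cnt_congr e2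
  rw [ha, hb]

/-- **the Herbrand-quotient comparison**: `N M ≤ V`, `N ≥ 1`, `p` prime. -/
theorem s56gwl_herbrand [Finite X] (hp : p.Prime) (hX : s56gwl_Lift.{u} Λ X p) {N : ℕ}
    (hN : N ≠ 0) (hNV : ∀ x : M, N • x ∈ V)
    [Finite (M ⧸ LinearMap.range (s56gwl_mulp (Λ := Λ) M p))]
    [Finite (LinearMap.ker (s56gwl_mulp (Λ := Λ) M p))] : s56gwl_Cmp Λ X M V p := by
  obtain ⟨n, m, hpm, rfl⟩ := Nat.exists_eq_pow_mul_and_not_dvd hN p hp.ne_one
  have hcop : Nat.Coprime m p := ((Nat.Prime.coprime_iff_not_dvd hp).mpr hpm).symm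
  set V₁ : Submodule Λ M := V ⊔ LinearMap.range (s56gwl_mulp (Λ := Λ) M (p ^ n)) with hV₁
  have hVV₁ : V ≤ V₁ := le_sup_left
  have h1 : s56gwl_Cmp Λ X M V₁ p :=
    s56gwl_chain hX n M V₁ (fun x => le_sup_right (a := V) ⟨x, rfl⟩) inferInstance inferInstance
  refine s56gwl_cmp_trans M V V₁ hVV₁ p h1 ?_
  obtain ⟨f1, g1, -⟩ := h1
  refine s56gwl_cmp_coprime (V.submoduleOf V₁) hcop ?_
  rintro ⟨x, hx⟩
  rw [Submodule.mem_sup] at hx
  obtain ⟨v, hv, _, ⟨y, rfl⟩, rfl⟩ := hx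
  change (m • (⟨v + s56gwl_mulp (Λ := Λ) M (p ^ n) y, _⟩ : ↥V₁) : ↥V₁).1 ∈ V
  have : m • (v + s56gwl_mulp (Λ := Λ) M (p ^ n) y) = m • v + (p ^ n * m) • y := by
    rw [smul_add, s56gwl_mulp_apply, smul_smul, mul_comm]
  simp only [Submodule.coe_smul_of_tower]
  rw [this]
  exact V.add_mem (V.smul_of_tower_mem _ hv) (hNV y)

end Coprime

end Fermat.Agent.S56
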