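/-
S56, node [GW-EC], local half [GW-LEC] (helper28).  Prefix `s56gwl_`.  Mathlib + HomCount.

Auxiliary `ℤ[G]`-modules and counting lemmas:
* `s56gwl_linOf` : additive + `G`-equivariant ⟹ `ℤ[G]`-linear;
* `s56gwl_Triv G A` : `A` with trivial action;
* `s56gwl_Coind G A` : functions `G → A` with `(σ f)(τ) = f (σ⁻¹ τ)` (coinduced from the trivial
  group), and Frobenius reciprocity `#Hom_{ℤ[G]}(X, Coind A) = #Hom_ℤ(X, A)` (`s56gwl_cnt_coind`);
* `s56gwl_card_addHom` : `#Hom_ℤ(X, A) = #X ^ d` for `p`-elementary finite `X`, `A`, `#A = p ^ d`;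
* `s56gwl_a_ses` : `a(M) = a(U) * #Hom(X, T)`, `b(M) = b(U)` for a saturated submodule `U ≤ M` and
  a surjection `χ : M → T` onto a module killed by `p` with kernel `U + pM`.
-/
import Mathlib
import Fermat.Agent.S56.GW.LEC.HomCount

set_option autoImplicit false

namespace Fermat.Agent.S56

open MonoidAlgebra

universe u v w

section LinOf

variable {G : Type w} [Group G] {M : Type u} {M' : Type v} [AddCommGroup M]
  [Module (MonoidAlgebra ℤ G) M] [AddCommGroup M'] [Module (MonoidAlgebra ℤ G) M']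

/-- additive + `G`-equivariant ⟹ `ℤ[G]`-linear. -/
noncomputable def s56gwl_linOf (f : M →+ M')
    (h : ∀ (g : G) (m : M), f (of ℤ G g • m) = of ℤ G g • f m) : M →ₗ[MonoidAlgebra ℤ G] M' :=
  MonoidAlgebra.equivariantOfLinearOfComm f.toIntLinearMap (fun g m => h g m)

@[simp] theorem s56gwl_linOf_apply (f : M →+ M')
    (h : ∀ (g : G) (m : M), f (of ℤ G g • m) = of ℤ G g • f m) (m : M) :
    s56gwl_linOf f h m = f m := rfl

end LinOf

/-! ### the trivial module -/

section Triv

variable (G : Type w) [Group G] (A : Type u) [AddCommGroup A]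

/-- `A` with the trivial `G`-action, as a `ℤ[G]`-module. -/
abbrev s56gwl_Triv : Type u := (Representation.trivial ℤ G A).asModule

variable {G A}

theorem s56gwl_triv_smul (g : G) (t : s56gwl_Triv G A) : of ℤ G g • t = t := by
  have h := Representation.asModuleEquiv_symm_map_rho (Representation.trivial ℤ G A) g
    ((Representation.trivial ℤ G A).asModuleEquiv t)
  rw [LinearEquiv.symm_apply_apply] at h
  rw [← h]
  simp

theorem s56gwl_triv_nsmul (n : ℕ) (hA : ∀ a : A, n • a = 0) (t : s56gwl_Triv G A) : n • t = 0 :=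
  hA t

end Triv

/-! ### the coinduced module -/

section Coind

variable (G : Type w) [Group G] (A : Type u) [AddCommGroup A]

/-- the left regular representation on functions `G → A`: `(σ f)(τ) = f (σ⁻¹ τ)`. -/
noncomputable def s56gwl_coindRep : Representation ℤ G (G → A) where
  toFun σ := LinearMap.funLeft ℤ A (fun τ => σ⁻¹ * τ)
  map_one' := by
    ext f τ
    simp [LinearMap.funLeft]
  map_mul' σ σ' := by
    ext f τ
    simp [LinearMap.funLeft, mul_assoc]

/-- `Coind A = Fun(G, A)` as a `ℤ[G]`-module. -/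
abbrev s56gwl_Coind : Type (max w u) := (s56gwl_coindRep G A).asModule

variable {G A}

/-- the underlying function. -/
noncomputable def s56gwl_coindFun (f : s56gwl_Coind G A) : G → A :=
  (s56gwl_coindRep G A).asModuleEquiv f

/-- the element of `Coind A` with given underlying function. -/
noncomputable def s56gwl_coindMk (f : G → A) : s56gwl_Coind G A :=
  (s56gwl_coindRep G A).asModuleEquiv.symm f

@[simp] theorem s56gwl_coindFun_mk (f : G → A) : s56gwl_coindFun (s56gwl_coindMk f) = f :=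
  LinearEquiv.apply_symm_apply _ f

@[simp] theorem s56gwl_coindMk_fun (f : s56gwl_Coind G A) : s56gwl_coindMk (s56gwl_coindFun f) = f :=
  LinearEquiv.symm_apply_apply _ f

theorem s56gwl_coindFun_injective : Function.Injective (s56gwl_coindFun (G := G) (A := A)) :=
  (s56gwl_coindRep G A).asModuleEquiv.injective

@[simp] theorem s56gwl_coindFun_add (f g : s56gwl_Coind G A) :
    s56gwl_coindFun (f + g) = s56gwl_coindFun f + s56gwl_coindFun g :=
  map_add _ f g

@[simp] theorem s56gwl_coindFun_zero : s56gwl_coindFun (0 : s56gwl_Coind G A) = 0 :=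
  map_zero _

@[simp] theorem s56gwl_coindMk_add (f g : G → A) :
    s56gwl_coindMk (f + g) = s56gwl_coindMk f + s56gwl_coindMk g :=
  map_add _ f g

@[simp] theorem s56gwl_coindMk_zero : s56gwl_coindMk (0 : G → A) = 0 :=
  map_zero _

theorem s56gwl_coindFun_smul (σ : G) (f : s56gwl_Coind G A) (τ : G) :
    s56gwl_coindFun (of ℤ G σ • f) τ = s56gwl_coindFun f (σ⁻¹ * τ) := by
  have h := Representation.asModuleEquiv_symm_map_rho (s56gwl_coindRep G A) σ
    ((s56gwl_coindRep G A).asModuleEquiv f)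
  rw [LinearEquiv.symm_apply_apply] at h
  rw [← h]
  change (s56gwl_coindRep G A).asModuleEquiv ((s56gwl_coindRep G A).asModuleEquiv.symm _) τ = _
  rw [LinearEquiv.apply_symm_apply]
  rfl

theorem s56gwl_coind_smul_mk (σ : G) (f : G → A) :
    of ℤ G σ • s56gwl_coindMk f = s56gwl_coindMk (fun τ => f (σ⁻¹ * τ)) := by
  apply s56gwl_coindFun_injective
  funext τ
  rw [s56gwl_coindFun_smul, s56gwl_coindFun_mk, s56gwl_coindFun_mk]

theorem s56gwl_coind_nsmul (n : ℕ) (hA : ∀ a : A, n • a = 0) (f : s56gwl_Coind G A) :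
    n • f = 0 := by
  apply s56gwl_coindFun_injective
  funext τ
  have : s56gwl_coindFun (n • f) = n • s56gwl_coindFun f := map_nsmul _ n f
  rw [this, s56gwl_coindFun_zero]
  exact hA _

instance s56gwl_coind_finite [Finite G] [Finite A] : Finite (s56gwl_Coind G A) :=
  Finite.of_injective _ (s56gwl_coindFun_injective (G := G) (A := A))

/-- **Frobenius reciprocity** (as an equivalence of sets). -/
noncomputable def s56gwl_frobEquiv (X : Type v) [AddCommGroup X] [Module (MonoidAlgebra ℤ G) X] :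
    (X →ₗ[MonoidAlgebra ℤ G] s56gwl_Coind G A) ≃ (X →+ A) where
  toFun F :=
    { toFun := fun x => s56gwl_coindFun (F x) 1
      map_zero' := by simp
      map_add' := fun x y => by simp }
  invFun φ := s56gwl_linOf
    { toFun := fun x => s56gwl_coindMk (fun τ => φ (of ℤ G τ⁻¹ • x))
      map_zero' := by
        apply s56gwl_coindFun_injective
        funext τ
        simp
      map_add' := fun x y => by
        apply s56gwl_coindFun_injective
        funext τ
        simp [smul_add] }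
    (by
      intro σ x
      change s56gwl_coindMk (fun τ => φ (of ℤ G τ⁻¹ • of ℤ G σ • x))
        = of ℤ G σ • s56gwl_coindMk (fun τ => φ (of ℤ G τ⁻¹ • x))
      rw [s56gwl_coind_smul_mk]
      congr 1
      funext τ
      rw [← mul_smul, ← map_mul, mul_inv_rev, inv_inv])
  left_inv F := by
    ext x
    change s56gwl_coindMk (fun τ => s56gwl_coindFun (F (of ℤ G τ⁻¹ • x)) 1) = F x
    apply s56gwl_coindFun_injective
    funext τ
    rw [s56gwl_coindFun_mk, map_smul, s56gwl_coindFun_smul, inv_inv, mul_one]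
  right_inv φ := by
    ext x
    change s56gwl_coindFun (s56gwl_coindMk (fun τ => φ (of ℤ G τ⁻¹ • x))) 1 = φ x
    rw [s56gwl_coindFun_mk, inv_one, map_one, one_smul]

theorem s56gwl_cnt_coind (X : Type v) [AddCommGroup X] [Module (MonoidAlgebra ℤ G) X] :
    s56gwl_cnt (MonoidAlgebra ℤ G) X (s56gwl_Coind G A) = Nat.card (X →+ A) :=
  Nat.card_congr (s56gwl_frobEquiv X)

end Coind

/-! ### `#Hom_ℤ(X, A)` for elementary abelian groups -/

theorem s56gwl_card_addHom {p : ℕ} (hp : p.Prime) (X : Type v) (A : Type u) [AddCommGroup X]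
    [AddCommGroup A] [Finite X] [Finite A] (hX : ∀ x : X, p • x = 0) (hA : ∀ a : A, p • a = 0)
    (d : ℕ) (hd : Nat.card A = p ^ d) : Nat.card (X →+ A) = Nat.card X ^ d := by
  have : Fact p.Prime := ⟨hp⟩
  have : Module (ZMod p) X := AddCommGroup.zmodModule hX
  have : Module (ZMod p) A := AddCommGroup.zmodModule hA
  have : Module.Finite (ZMod p) X := Module.Finite.of_finite
  have : Module.Finite (ZMod p) A := Module.Finite.of_finite
  rw [Nat.card_congr (AddMonoidHom.toZModLinearMapEquiv p (M := X) (M₁ := A)).toEquiv,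
    Module.natCard_eq_pow_finrank (K := ZMod p) (V := X →ₗ[ZMod p] A),
    Module.finrank_linearMap, Nat.card_zmod]
  have h1 : Nat.card X = p ^ Module.finrank (ZMod p) X := by
    rw [Module.natCard_eq_pow_finrank (K := ZMod p) (V := X), Nat.card_zmod]
  have h2 : Module.finrank (ZMod p) A = d := by
    have h3 := Module.natCard_eq_pow_finrank (K := ZMod p) (V := A)
    rw [Nat.card_zmod, hd] at h3
    exact (Nat.pow_right_injective hp.two_le h3).symm
  rw [h1, h2, ← pow_mul]

/-! ### a saturated submodule with `p`-torsion cokernel-mod-`p` -/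

section Ses

variable {Λ : Type w} [Ring Λ] {X : Type v} [AddCommGroup X] [Module Λ X]
  {M : Type u} [AddCommGroup M] [Module Λ M]

/-- `U[p] ≃ M[p]` for a `p`-saturated submodule. -/
def s56gwl_kerEquivOfSat (U : Submodule Λ M) (p : ℕ) (hsat : ∀ x : M, p • x ∈ U → x ∈ U) :
    LinearMap.ker (s56gwl_mulp (Λ := Λ) ↥U p) ≃ₗ[Λ] LinearMap.ker (s56gwl_mulp (Λ := Λ) M p) where
  toFun w := ⟨(w.1 : M), by
      have h : w.1 ∈ LinearMap.ker (s56gwl_mulp (Λ := Λ) ↥U p) := w.2
      rw [LinearMap.mem_ker, s56gwl_mulp_apply] at h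
      rw [LinearMap.mem_ker, s56gwl_mulp_apply]
      exact congrArg (fun z : ↥U => (z : M)) h⟩
  map_add' a b := rfl
  map_smul' c a := rfl
  invFun z := ⟨⟨(z : M), hsat z (by
      have h : (z : M) ∈ LinearMap.ker (s56gwl_mulp (Λ := Λ) M p) := z.2
      rw [LinearMap.mem_ker, s56gwl_mulp_apply] at h
      rw [h]
      exact U.zero_mem)⟩, by
      rw [LinearMap.mem_ker]
      apply Subtype.ext
      have h : (z : M) ∈ LinearMap.ker (s56gwl_mulp (Λ := Λ) M p) := z.2
      rw [LinearMap.mem_ker, s56gwl_mulp_apply] at h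
      exact h⟩
  left_inv z := rfl
  right_inv w := rfl

theorem s56gwl_b_sat (U : Submodule Λ M) (p : ℕ) (hsat : ∀ x : M, p • x ∈ U → x ∈ U) :
    s56gwl_b Λ X ↥U p = s56gwl_b Λ X M p :=
  s56gwl_cnt_congr (s56gwl_kerEquivOfSat U p hsat)

theorem s56gwl_phi2_injective_of_sat (U : Submodule Λ M) (p : ℕ)
    (hsat : ∀ x : M, p • x ∈ U → x ∈ U) : Function.Injective (s56gwl_phi2 U p) := by
  rw [← LinearMap.ker_eq_bot, eq_bot_iff]
  intro y hy
  obtain ⟨u, rfl⟩ := Submodule.Quotient.mk_surjective _ y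
  have h1 : s56gwl_phi2 U p (Submodule.Quotient.mk u) = Submodule.Quotient.mk (u : M) := by
    simp [s56gwl_phi2]
  rw [LinearMap.mem_ker, h1, Submodule.Quotient.mk_eq_zero] at hy
  obtain ⟨x, hx⟩ := hy
  rw [s56gwl_mulp_apply] at hx
  rw [Submodule.mem_bot, Submodule.Quotient.mk_eq_zero]
  exact ⟨⟨x, hsat x (by rw [hx]; exact u.2)⟩, Subtype.ext (by simpa using hx)⟩

/-- `a(M) = a(U) * #Hom(X, T)`. -/
theorem s56gwl_a_ses {p : ℕ} (hX : s56gwl_Lift.{u} Λ X p) (U : Submodule Λ M)
    (hsat : ∀ x : M, p • x ∈ U → x ∈ U) {T : Type u} [AddCommGroup T] [Module Λ T]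
    (hT : ∀ t : T, p • t = 0) (χ : M →ₗ[Λ] T) (hχ : Function.Surjective χ)
    (hker : ∀ x : M, χ x = 0 → ∃ u ∈ U, ∃ y : M, x = u + p • y)
    (hU : ∀ x ∈ U, χ x = 0)
    [Finite (M ⧸ LinearMap.range (s56gwl_mulp (Λ := Λ) M p))] :
    s56gwl_a Λ X M p = s56gwl_a Λ X ↥U p * s56gwl_cnt Λ X T := by
  -- the induced map on `M / pM`
  have hle : LinearMap.range (s56gwl_mulp (Λ := Λ) M p) ≤ LinearMap.ker χ := by
    rintro _ ⟨y, rfl⟩
    rw [LinearMap.mem_ker, s56gwl_mulp_apply, map_nsmul]
    exact hT _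
  set χb : (M ⧸ LinearMap.range (s56gwl_mulp (Λ := Λ) M p)) →ₗ[Λ] T :=
    (LinearMap.range (s56gwl_mulp (Λ := Λ) M p)).liftQ χ hle with hχb
  have hχb_mk : ∀ x : M, χb (Submodule.Quotient.mk x) = χ x := fun x => by
    simp [hχb]
  have hsurj : Function.Surjective χb := by
    intro t
    obtain ⟨x, rfl⟩ := hχ t
    exact ⟨Submodule.Quotient.mk x, hχb_mk x⟩
  have h1 : ∀ u : ↥U, s56gwl_phi2 U p (Submodule.Quotient.mk u) = Submodule.Quotient.mk (u : M) := by
    intro u; simp [s56gwl_phi2]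
  have hkerb : LinearMap.ker χb = LinearMap.range (s56gwl_phi2 U p) := by
    ext y
    obtain ⟨x, rfl⟩ := Submodule.Quotient.mk_surjective _ y
    rw [LinearMap.mem_ker, hχb_mk]
    constructor
    · intro hx
      obtain ⟨u, hu, y, rfl⟩ := hker x hx
      refine ⟨Submodule.Quotient.mk ⟨u, hu⟩, ?_⟩
      rw [h1, Submodule.Quotient.eq]
      exact ⟨-y, by simp⟩
    · rintro ⟨z, hz⟩
      obtain ⟨u, rfl⟩ := Submodule.Quotient.mk_surjective _ z
      rw [h1, Submodule.Quotient.eq] at hz
      obtain ⟨y, hy⟩ := hz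
      rw [s56gwl_mulp_apply] at hy
      have hx : x = (u : M) - p • y := by rw [hy]; abel
      rw [hx, map_sub, hU _ u.2, map_nsmul, hT, sub_zero]
  have e := s56gwl_cnt_ker_range (X := X) hX (s56gwl_quot_mulp_killed (Λ := Λ) (M := M) p) χb
  have k1 : s56gwl_cnt Λ X (LinearMap.ker χb) = s56gwl_a Λ X ↥U p :=
    (s56gwl_cnt_congr (LinearEquiv.ofEq _ _ hkerb)).trans
      (s56gwl_cnt_congr (LinearEquiv.ofInjective (s56gwl_phi2 U p)
        (s56gwl_phi2_injective_of_sat U p hsat)).symm)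
  have k2 : s56gwl_cnt Λ X (LinearMap.range χb) = s56gwl_cnt Λ X T :=
    s56gwl_cnt_congr (LinearEquiv.ofTop _ (LinearMap.range_eq_top.mpr hsurj))
  rw [k1, k2] at e
  exact e

end Ses

end Fermat.Agent.S56
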