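/-
S56, node [GW-EC], local half [GW-LEC] (helper28).  Prefix `s56gwl_`.

**Main theorem** (`s56gwl_units_main`): in the abstract local setting `lf_IsLocal E L v`,
`C = Gal(L/E)` of order prime to `p`, `M` a model of `Lˣ` as a `ℤ[C]`-module with `M/pM` finite,
`X` a finite `ℤ[C]`-module killed by `p`, `[O_E : p O_E] = p ^ d`:

  `#Hom_C(X, M/pM) = #Hom_C(X, 𝔽_p) * #Hom_C(X, M[p]) * #X ^ d`.
-/
import Mathlib
import Fermat.Agent.S56.GW.LEC.UnitsTheta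

set_option autoImplicit false

namespace Fermat.Agent.S56

open Fermat.Agent.S55 WithZero Finset MonoidAlgebra

section Main

variable {E L : Type} [Field E] [Field L] [Algebra E L] [FiniteDimensional E L] [IsGalois E L]
  {v : Valuation L ℤᵐ⁰} {M : Type} [AddCommGroup M] [Module (MonoidAlgebra ℤ (L ≃ₐ[E] L)) M]
  (μ : s56gwl_Model E L M)

/-- the valuation modulo `p`, as a `ℤ[C]`-linear map to the trivial module. -/
noncomputable def s56gwl_chi (h : lf_IsLocal E L v) (p : ℕ) :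
    M →ₗ[MonoidAlgebra ℤ (L ≃ₐ[E] L)] s56gwl_Triv (L ≃ₐ[E] L) (ZMod p) :=
  s56gwl_linOf
    (((Representation.trivial ℤ (L ≃ₐ[E] L) (ZMod p)).asModuleEquiv.symm.toLinearMap.toAddMonoidHom).comp
      ((Int.castAddHom (ZMod p)).comp (μ.ordZ v)))
    (by
      intro σ m
      rw [s56gwl_triv_smul]
      simp only [AddMonoidHom.comp_apply]
      rw [μ.ordZ_smul h])

omit [FiniteDimensional E L] [IsGalois E L] in
theorem s56gwl_chi_apply (h : lf_IsLocal E L v) (p : ℕ) (m : M) :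
    s56gwl_chi μ h p m = (Representation.trivial ℤ (L ≃ₐ[E] L) (ZMod p)).asModuleEquiv.symm
      ((μ.ordZ v m : ℤ) : ZMod p) := rfl

omit [FiniteDimensional E L] [IsGalois E L] in
theorem s56gwl_chi_eq_zero_iff (h : lf_IsLocal E L v) (p : ℕ) (m : M) :
    s56gwl_chi μ h p m = 0 ↔ (p : ℤ) ∣ μ.ordZ v m := by
  rw [s56gwl_chi_apply, LinearEquiv.map_eq_zero_iff, ZMod.intCast_zmod_eq_zero_iff_dvd]

omit [FiniteDimensional E L] [IsGalois E L] in
theorem s56gwl_chi_surjective (h : lf_IsLocal E L v) (p : ℕ) :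
    Function.Surjective (s56gwl_chi μ h p) := by
  intro t
  obtain ⟨k, hk⟩ := ZMod.intCast_surjective
    ((Representation.trivial ℤ (L ≃ₐ[E] L) (ZMod p)).asModuleEquiv t)
  obtain ⟨m, hm⟩ := μ.ordZ_surjective h k
  refine ⟨m, ?_⟩
  rw [s56gwl_chi_apply, hm, hk, LinearEquiv.symm_apply_apply]

/-- **the Galois-module structure of `Lˣ/p`, counting form**. -/
theorem s56gwl_units_main (μ : s56gwl_Model E L M) (h : lf_IsLocal E L v) {p : ℕ} (hp : p.Prime)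
    (hpE : (p : E) ≠ 0)
    (hC : (Nat.card (L ≃ₐ[E] L)).Coprime p)
    [Finite (M ⧸ LinearMap.range (s56gwl_mulp (Λ := MonoidAlgebra ℤ (L ≃ₐ[E] L)) M p))]
    (X : Type) [AddCommGroup X] [Module (MonoidAlgebra ℤ (L ≃ₐ[E] L)) X] [Finite X]
    (hXp : ∀ x : X, p • x = 0) (d : ℕ)
    (hd : (s56gwl_I E v (v (p : L))).relIndex (s56gwl_I E v 1) = p ^ d) :
    s56gwl_a (MonoidAlgebra ℤ (L ≃ₐ[E] L)) X M p
      = s56gwl_cnt (MonoidAlgebra ℤ (L ≃ₐ[E] L)) X (s56gwl_Triv (L ≃ₐ[E] L) (ZMod p))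
        * s56gwl_b (MonoidAlgebra ℤ (L ≃ₐ[E] L)) X M p * Nat.card X ^ d := by
  classical
  have hne : NeZero p := ⟨hp.ne_zero⟩
  have hpL : (p : L) ≠ 0 := by
    rw [← map_natCast (algebraMap E L)]
    exact (map_ne_zero (algebraMap E L)).mpr hpE
  obtain ⟨e, hpe⟩ := s56gwl_exists_exp v hpL
  obtain ⟨Lat⟩ := nl_exists_lattice h
  have hLift : s56gwl_Lift.{0} (MonoidAlgebra ℤ (L ≃ₐ[E] L)) X p :=
    s56gwl_lift_monoidAlgebra hp hC X hXp
  -- finiteness of `M[p]`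
  have hfinb : Finite (LinearMap.ker (s56gwl_mulp (Λ := MonoidAlgebra ℤ (L ≃ₐ[E] L)) M p)) := by
    have hmem : ∀ m : LinearMap.ker (s56gwl_mulp (Λ := MonoidAlgebra ℤ (L ≃ₐ[E] L)) M p),
        μ.u (m : M) ∈ rootsOfUnity p L := by
      intro m
      have h1 : (m : M) ∈ LinearMap.ker (s56gwl_mulp (Λ := MonoidAlgebra ℤ (L ≃ₐ[E] L)) M p) := m.2
      rw [LinearMap.mem_ker, s56gwl_mulp_apply] at h1
      rw [mem_rootsOfUnity, ← μ.u_nsmul, h1, μ.u_zero]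
    refine Finite.of_injective (fun m => (⟨μ.u (m : M), hmem m⟩ : rootsOfUnity p L)) ?_
    intro a b hab
    apply Subtype.ext
    apply μ.u_injective
    exact congrArg (fun z : rootsOfUnity p L => (z : Lˣ)) hab
  -- the units
  set U₀ : Submodule (MonoidAlgebra ℤ (L ≃ₐ[E] L)) M :=
    μ.sub (lf_U v 0) (fun σ _ hw => lf_act_mem_U h σ hw) with hU₀
  have hmemU : ∀ x : M, x ∈ U₀ ↔ μ.ordZ v x = 0 := fun x => (μ.ordZ_eq_zero_iff v x).symm
  have hsat : ∀ x : M, p • x ∈ U₀ → x ∈ U₀ := by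
    intro x hx
    rw [hmemU] at hx ⊢
    rw [map_nsmul, nsmul_eq_mul] at hx
    rcases mul_eq_zero.mp hx with h0 | h0
    · exact absurd (by exact_mod_cast h0) hp.ne_zero
    · exact h0
  have hT : ∀ t : s56gwl_Triv (L ≃ₐ[E] L) (ZMod p), p • t = 0 :=
    s56gwl_triv_nsmul p (fun a => by rw [nsmul_eq_mul, ZMod.natCast_self, zero_mul])
  have ha1 := s56gwl_a_ses (X := X) hLift U₀ hsat hT (s56gwl_chi μ h p)
    (s56gwl_chi_surjective μ h p)
    (by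
      intro x hx
      rw [s56gwl_chi_eq_zero_iff] at hx
      obtain ⟨k, hk⟩ := hx
      obtain ⟨y, hy⟩ := μ.ordZ_surjective h k
      refine ⟨x - p • y, ?_, y, by abel⟩
      rw [hmemU, map_sub, map_nsmul, hy, hk, nsmul_eq_mul]
      ring)
    (by
      intro x hx
      rw [s56gwl_chi_eq_zero_iff, (hmemU x).mp hx]
      exact dvd_zero _)
  have hb1 := s56gwl_b_sat (X := X) U₀ p hsat
  -- finiteness for the units
  have hfinaU : Finite (↥U₀ ⧸ LinearMap.range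
      (s56gwl_mulp (Λ := MonoidAlgebra ℤ (L ≃ₐ[E] L)) ↥U₀ p)) :=
    Finite.of_injective _ (s56gwl_phi2_injective_of_sat U₀ p hsat)
  have hfinbU : Finite (LinearMap.ker (s56gwl_mulp (Λ := MonoidAlgebra ℤ (L ≃ₐ[E] L)) ↥U₀ p)) :=
    s56gwl_finite_b_sub U₀ p
  -- the lattice subgroup
  set V : Submodule (MonoidAlgebra ℤ (L ≃ₐ[E] L)) M := s56gwl_Vsub μ Lat e with hV
  have hVU : V ≤ U₀ := fun m hm => lf_U_anti v (Nat.zero_le _) (nl_Fil_le_U Lat e hm)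
  have hN : (nl_Fil Lat e).relIndex (lf_U v 0) ≠ 0 :=
    ne_zero_of_dvd_ne_zero (lf_U_relIndex_ne_zero h _)
      (Subgroup.relIndex_dvd_of_le_left _ (nl_U_le_Fil Lat e))
  have hcmp := s56gwl_herbrand (X := X) (V.submoduleOf U₀) hp hLift hN (by
    intro x
    change ((nl_Fil Lat e).relIndex (lf_U v 0) • (x : M)) ∈ V
    rw [hV, s56gwl_mem_Vsub, μ.u_nsmul]
    exact Subgroup.pow_relIndex_mem (nl_Fil Lat e) x.2)
  obtain ⟨-, -, hc⟩ := hcmp
  have eV : ↥(V.submoduleOf U₀) ≃ₗ[MonoidAlgebra ℤ (L ≃ₐ[E] L)] ↥V :=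
    Submodule.submoduleOfEquivOfLe hVU
  have haeq : s56gwl_a (MonoidAlgebra ℤ (L ≃ₐ[E] L)) X ↥(V.submoduleOf U₀) p
      = s56gwl_a (MonoidAlgebra ℤ (L ≃ₐ[E] L)) X ↥V p := s56gwl_a_congr eV p
  have hbeq : s56gwl_b (MonoidAlgebra ℤ (L ≃ₐ[E] L)) X ↥(V.submoduleOf U₀) p
      = s56gwl_b (MonoidAlgebra ℤ (L ≃ₐ[E] L)) X ↥V p := s56gwl_b_congr eV p
  rw [haeq, hbeq] at hc
  -- `b(V) = 1`
  have hbV : s56gwl_b (MonoidAlgebra ℤ (L ≃ₐ[E] L)) X ↥V p = 1 := by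
    have hsub : Subsingleton (LinearMap.ker
        (s56gwl_mulp (Λ := MonoidAlgebra ℤ (L ≃ₐ[E] L)) ↥V p)) := by
      refine ⟨fun a b => ?_⟩
      have key : ∀ w : LinearMap.ker (s56gwl_mulp (Λ := MonoidAlgebra ℤ (L ≃ₐ[E] L)) ↥V p),
          ((w : ↥V) : M) = 0 := by
        intro w
        have h1 : (w : ↥V) ∈ LinearMap.ker
            (s56gwl_mulp (Λ := MonoidAlgebra ℤ (L ≃ₐ[E] L)) ↥V p) := w.2
        rw [LinearMap.mem_ker, s56gwl_mulp_apply] at h1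
        have h2 : p • ((w : ↥V) : M) = 0 := congrArg (fun z : ↥V => (z : M)) h1
        have h3 : μ.u ((w : ↥V) : M) ^ p = 1 := by rw [← μ.u_nsmul, h2, μ.u_zero]
        have h4 := s56gwl_fil_torsion_free Lat hpe le_rfl (w : ↥V).2 h3
        apply μ.u_injective
        rw [h4, μ.u_zero]
      apply Subtype.ext
      apply Subtype.ext
      rw [key a, key b]
    have hsub' : Subsingleton (X →ₗ[MonoidAlgebra ℤ (L ≃ₐ[E] L)]
        LinearMap.ker (s56gwl_mulp (Λ := MonoidAlgebra ℤ (L ≃ₐ[E] L)) ↥V p)) :=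
      ⟨fun f g => LinearMap.ext fun x => Subsingleton.elim _ _⟩
    exact Nat.card_of_subsingleton (0 : X →ₗ[MonoidAlgebra ℤ (L ≃ₐ[E] L)]
        LinearMap.ker (s56gwl_mulp (Λ := MonoidAlgebra ℤ (L ≃ₐ[E] L)) ↥V p))
  -- `a(V) = #X ^ d`
  have hcardA : Nat.card (s56gwl_A v E (Lat.a + 1 + e) e) = p ^ d := by
    have h1 := s56gwl_I_relIndex (E := E) hpe hpE (Lat.a + 1 + e)
    rw [hd] at h1
    exact h1
  have hfinA : Finite (s56gwl_A v E (Lat.a + 1 + e) e) :=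
    Nat.finite_of_card_ne_zero (by rw [hcardA]; exact pow_ne_zero _ hp.ne_zero)
  have haV : s56gwl_a (MonoidAlgebra ℤ (L ≃ₐ[E] L)) X ↥V p = Nat.card X ^ d := by
    rw [s56gwl_a, s56gwl_cnt_congr (s56gwl_thetaEquiv μ Lat p h hpe hpE le_rfl),
      s56gwl_cnt_coind]
    exact s56gwl_card_addHom hp X _ hXp (s56gwl_A_killed hpe _) d hcardA
  rw [hbV, haV, mul_one] at hc
  rw [ha1, ← hb1, hc]
  ring

end Main

end Fermat.Agent.S56
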