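/-
S56, node [GW-EC], local half [GW-LEC] (helper28).  Prefix `s56gwl_`.

**The Galois-module structure of `Fˣ / p` for finite extensions of `ℚ_q`** (counting form).
`F/E` finite Galois extensions of `ℚ_q` (abstract fields), `C = Gal(F/E)` of order prime to `p`,
`M` any model of `Fˣ` as a `ℤ[C]`-module (`s56gwl_Model E F M`; canonical: `s56gwl_unitsModel`),
`X` a finite `ℤ[C]`-module killed by `p`:

  `#Hom_C(X, M/pM) = #Hom_C(X, 𝔽_p) * #Hom_C(X, M[p]) * #X ^ ([p = q] * [E : ℚ_q])`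

with `M/pM`, `M[p]` finite (`s56gwl_units_padic`).
-/
import Mathlib
import Fermat.Agent.S55.LocalQ.IsLocal
import Fermat.Agent.S55.LocalQ.PowerIndexQ
import Fermat.Agent.S56.GW.LEC.UnitsMain

set_option autoImplicit false

namespace Fermat.Agent.S56

open Fermat.Agent.S55 WithZero Finset MonoidAlgebra

/-- the canonical model of `Lˣ`. -/
noncomputable def s56gwl_unitsModel (E L : Type) [Field E] [Field L] [Algebra E L] :
    s56gwl_Model E L (Representation.ofMulDistribMulAction (L ≃ₐ[E] L) Lˣ).asModule where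
  e := (Representation.ofMulDistribMulAction (L ≃ₐ[E] L) Lˣ).asModuleEquiv.toAddEquiv
  e_smul σ m := by
    change (Representation.ofMulDistribMulAction (L ≃ₐ[E] L) Lˣ).asModuleEquiv
      (of ℤ (L ≃ₐ[E] L) σ • m) = _
    rw [Representation.asModuleEquiv_map_smul, Representation.asAlgebraHom_of,
      Representation.ofMulDistribMulAction_apply_apply]
    congr 1

section Finite

variable {E L : Type} [Field E] [Field L] [Algebra E L] {M : Type} [AddCommGroup M]
  [Module (MonoidAlgebra ℤ (L ≃ₐ[E] L)) M]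

/-- finiteness of `M/pM` from the finiteness of `K'ˣ/p` for an isomorphic field `K'`. -/
theorem s56gwl_model_finite_quot (μ : s56gwl_Model E L M) {K' : Type} [Field K'] (φ : L ≃+* K')
    (p : ℕ)
    (hfin : (powMonoidHom p : K'ˣ →* K'ˣ).range.index ≠ 0) :
    Finite (M ⧸ LinearMap.range (s56gwl_mulp (Λ := MonoidAlgebra ℤ (L ≃ₐ[E] L)) M p)) := by
  have hf : Finite (K'ˣ ⧸ (powMonoidHom p : K'ˣ →* K'ˣ).range) := Nat.finite_of_card_ne_zero hfin
  let ψ : K'ˣ ≃* Lˣ := Units.mapEquiv φ.symm.toMulEquiv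
  let g : K'ˣ ⧸ (powMonoidHom p : K'ˣ →* K'ˣ).range →
      M ⧸ LinearMap.range (s56gwl_mulp (Λ := MonoidAlgebra ℤ (L ≃ₐ[E] L)) M p) :=
    Quotient.lift (fun w => Submodule.Quotient.mk (μ.ofU (ψ w))) (by
      intro a b hab
      have hab' : a⁻¹ * b ∈ (powMonoidHom p : K'ˣ →* K'ˣ).range :=
        QuotientGroup.leftRel_apply.mp hab
      obtain ⟨z, hz⟩ := hab'
      rw [powMonoidHom_apply] at hz
      have hb : b = a * z ^ p := by rw [hz, mul_inv_cancel_left]
      change (Submodule.Quotient.mk (μ.ofU (ψ a)) : M ⧸ _) = Submodule.Quotient.mk (μ.ofU (ψ b))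
      rw [Submodule.Quotient.eq]
      refine ⟨-μ.ofU (ψ z), ?_⟩
      rw [s56gwl_mulp_apply, hb, map_mul, map_pow, μ.ofU_mul, μ.ofU_pow, smul_neg]
      abel)
  refine Finite.of_surjective g ?_
  intro y
  obtain ⟨m, rfl⟩ := Submodule.Quotient.mk_surjective _ y
  refine ⟨QuotientGroup.mk (ψ.symm (μ.u m)), ?_⟩
  change Submodule.Quotient.mk (μ.ofU (ψ (ψ.symm (μ.u m)))) = _
  rw [MulEquiv.apply_symm_apply, μ.ofU_u]

end Finite

section Padic

variable {q : ℕ} [Fact q.Prime]

/-- `[O_E : p O_E]` for an abstract finite extension `E ⊆ F` of `ℚ_q`, in terms of the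
valuation of `F`. -/
theorem s56gwl_I_relIndex_padic (F : Type) [Field F] [Algebra ℚ_[q] F]
    [FiniteDimensional ℚ_[q] F] (E : Type) [Field E] [Algebra ℚ_[q] E] [Algebra E F]
    [IsScalarTower ℚ_[q] E F] [FiniteDimensional ℚ_[q] E] {p : ℕ} (hp : p.Prime) :
    (s56gwl_I E (lq_valOf (q := q) F) (lq_valOf (q := q) F (p : F))).relIndex
        (s56gwl_I E (lq_valOf (q := q) F) 1)
      = p ^ (if p = q then Module.finrank ℚ_[q] E else 0) := by
  set KE : LqField q := lq_image (q := q) E with hKE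
  set KF : LqField q := lq_image (q := q) F with hKF
  -- the norm-preserving embedding `KE → KF`
  let ψ : KE →ₐ[ℚ_[q]] KF :=
    ((lq_toImage (q := q) F).toAlgHom.comp (IsScalarTower.toAlgHom ℚ_[q] E F)).comp
      (lq_toImage (q := q) E).symm.toAlgHom
  have hψ : ∀ c : E, ψ (lq_toImage (q := q) E c) = lq_toImage (q := q) F (algebraMap E F c) := by
    intro c
    simp [ψ]
  have hnorm : ∀ c : E, ‖lq_toImage (q := q) F (algebraMap E F c)‖ = ‖lq_toImage (q := q) E c‖ := by
    intro c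
    rw [← hψ, lq_norm_algHom]
  have hpF : lq_toImage (q := q) F (p : F) = ((p : ℕ) : KF) := map_natCast _ p
  have hpn : ‖((p : ℕ) : KF)‖ = ‖((p : ℕ) : KE)‖ := by
    rw [piq_norm_natCast, piq_norm_natCast]
  -- the two subgroups as images of balls
  let f : E →+ KE := (lq_toImage (q := q) E).toAddEquiv.toAddMonoidHom
  have hf : Function.Injective f := (lq_toImage (q := q) E).injective
  have h1 : (s56gwl_I E (lq_valOf (q := q) F) 1).map f = pi_ball (1 : KE) := by
    ext y
    rw [AddSubgroup.mem_map, pi_mem_ball, norm_one]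
    constructor
    · rintro ⟨c, hc, rfl⟩
      rw [s56gwl_mem_I, lq_valOf_apply, lq_val_le_one_iff, hnorm] at hc
      exact hc
    · intro hy
      refine ⟨(lq_toImage (q := q) E).symm y, ?_, AlgEquiv.apply_symm_apply _ y⟩
      rw [s56gwl_mem_I, lq_valOf_apply, lq_val_le_one_iff, hnorm, AlgEquiv.apply_symm_apply]
      exact hy
  have h2 : (s56gwl_I E (lq_valOf (q := q) F) (lq_valOf (q := q) F (p : F))).map f
      = pi_ball (((p : ℕ) : KE)) := by
    ext y
    rw [AddSubgroup.mem_map, pi_mem_ball]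
    constructor
    · rintro ⟨c, hc, rfl⟩
      rw [s56gwl_mem_I, lq_valOf_apply, lq_valOf_apply, lq_val_le_iff, hnorm, hpF, hpn] at hc
      exact hc
    · intro hy
      refine ⟨(lq_toImage (q := q) E).symm y, ?_, AlgEquiv.apply_symm_apply _ y⟩
      rw [s56gwl_mem_I, lq_valOf_apply, lq_valOf_apply, lq_val_le_iff, hnorm, hpF, hpn,
        AlgEquiv.apply_symm_apply]
      exact hy
  rw [← AddSubgroup.relIndex_map_map_of_injective _ _ hf, h1, h2]
  split_ifs with hpq
  · subst hpq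
    rw [piq_relIndex_ball_self KE]
    congr 1
    exact (lq_toImage (q := p) E).toLinearEquiv.finrank_eq.symm
  · rw [piq_relIndex_ball_of_ne KE hp hpq, pow_zero]

/-- **the Galois-module structure of `Fˣ/p`, counting form, for finite extensions of `ℚ_q`**. -/
theorem s56gwl_units_padic (F : Type) [Field F] [Algebra ℚ_[q] F] [FiniteDimensional ℚ_[q] F]
    (E : Type) [Field E] [Algebra ℚ_[q] E] [Algebra E F] [IsScalarTower ℚ_[q] E F] [IsGalois E F]
    {M : Type} [AddCommGroup M] [Module (MonoidAlgebra ℤ (F ≃ₐ[E] F)) M]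
    (μ : s56gwl_Model E F M) {p : ℕ} (hp : p.Prime)
    (hC : (Nat.card (F ≃ₐ[E] F)).Coprime p)
    (X : Type) [AddCommGroup X] [Module (MonoidAlgebra ℤ (F ≃ₐ[E] F)) X] [Finite X]
    (hXp : ∀ x : X, p • x = 0) :
    Finite (M ⧸ LinearMap.range (s56gwl_mulp (Λ := MonoidAlgebra ℤ (F ≃ₐ[E] F)) M p)) ∧
    s56gwl_a (MonoidAlgebra ℤ (F ≃ₐ[E] F)) X M p
      = s56gwl_cnt (MonoidAlgebra ℤ (F ≃ₐ[E] F)) X (s56gwl_Triv (F ≃ₐ[E] F) (ZMod p))
        * s56gwl_b (MonoidAlgebra ℤ (F ≃ₐ[E] F)) X M p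
        * Nat.card X ^ (if p = q then Module.finrank ℚ_[q] E else 0) := by
  have hFE : FiniteDimensional E F := FiniteDimensional.right ℚ_[q] E F
  have hEQ : FiniteDimensional ℚ_[q] E := FiniteDimensional.left ℚ_[q] E F
  have hfp : Fact p.Prime := ⟨hp⟩
  have hfin : Finite (M ⧸ LinearMap.range
      (s56gwl_mulp (Λ := MonoidAlgebra ℤ (F ≃ₐ[E] F)) M p)) :=
    s56gwl_model_finite_quot μ (lq_toImage (q := q) F).toRingEquiv p
      (piq_index_pow (lq_image (q := q) F) p).2
  refine ⟨hfin, ?_⟩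
  have hpE : (p : E) ≠ 0 := by
    have hchar : CharZero E := charZero_of_injective_algebraMap (algebraMap ℚ_[q] E).injective
    exact_mod_cast hp.ne_zero
  exact s56gwl_units_main μ (lq_isLocalOf (q := q) F E) hp hpE hC X hXp _
    (s56gwl_I_relIndex_padic F E hp)

end Padic

end Fermat.Agent.S56
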