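/-
S56, node [GW-EC], local half [GW-LEC] (helper28).  Prefix `s56gwl_`.  Mathlib + HomCount.

**Maschke lifting**: for a finite group `G` of order prime to `p`, every `ℤ[G]`-module killed by `p`
has the lifting property `s56gwl_Lift` (it is projective among `p`-elementary `ℤ[G]`-modules).
-/
import Mathlib
import Fermat.Agent.S56.GW.LEC.HomCount

set_option autoImplicit false

namespace Fermat.Agent.S56

open MonoidAlgebra

universe u v w

theorem s56gwl_nsmul_eq_self_of_mod {B : Type u} [AddCommGroup B] {p n : ℕ} (hn : n % p = 1)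
    (y : B) (hy : p • y = 0) : n • y = y := by
  have h1 : n = p * (n / p) + 1 := by
    have := Nat.div_add_mod n p
    omega
  rw [h1, add_smul, mul_smul, one_smul, smul_comm, hy, smul_zero, zero_add]

/-- **Maschke lifting**. -/
theorem s56gwl_lift_monoidAlgebra {G : Type w} [Group G] [Finite G] {p : ℕ} (hp : p.Prime)
    (hG : Nat.Coprime (Nat.card G) p)
    (X : Type v) [AddCommGroup X] [Module (MonoidAlgebra ℤ G) X] (hXp : ∀ x : X, p • x = 0) :
    s56gwl_Lift.{u} (MonoidAlgebra ℤ G) X p := by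
  classical
  cases nonempty_fintype G
  intro B C _ _ _ _ hB π hπ f
  have hC : ∀ c : C, p • c = 0 := by
    intro c
    obtain ⟨b, rfl⟩ := hπ c
    rw [← map_nsmul, hB, map_zero]
  have : Fact p.Prime := ⟨hp⟩
  have : Module (ZMod p) X := AddCommGroup.zmodModule hXp
  have : Module (ZMod p) B := AddCommGroup.zmodModule hB
  have : Module (ZMod p) C := AddCommGroup.zmodModule hC
  obtain ⟨h₀, hh₀⟩ := Module.projective_lifting_property (R := ZMod p) (P := X) (M := B) (N := C)
    (AddMonoidHom.toZModLinearMap p π.toAddMonoidHom)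
    (AddMonoidHom.toZModLinearMap p f.toAddMonoidHom) hπ
  have hh₀' : ∀ x : X, π (h₀ x) = f x := fun x => LinearMap.congr_fun hh₀ x
  obtain ⟨n', -, hn'⟩ := Nat.exists_mul_mod_eq_one_of_coprime hG hp.one_lt
  -- the averaged map
  let h₁ : X →+ B :=
    { toFun := fun x => n' • ∑ g : G, (of ℤ G g⁻¹) • h₀ ((of ℤ G g) • x)
      map_zero' := by simp
      map_add' := fun x y => by simp [smul_add, Finset.sum_add_distrib] }
  have h₁_apply : ∀ x, h₁ x = n' • ∑ g : G, (of ℤ G g⁻¹) • h₀ ((of ℤ G g) • x) := fun _ => rfl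
  have hequi : ∀ (k : G) (x : X), h₁.toIntLinearMap (single k (1 : ℤ) • x)
      = single k (1 : ℤ) • h₁.toIntLinearMap x := by
    intro k x
    change h₁ (of ℤ G k • x) = of ℤ G k • h₁ x
    rw [h₁_apply, h₁_apply, smul_comm (of ℤ G k) n']
    congr 1
    rw [Finset.smul_sum]
    let Φ : G → B := fun g' => (of ℤ G (k * g'⁻¹)) • h₀ ((of ℤ G g') • x)
    have e1 : ∀ g : G, (of ℤ G g⁻¹) • h₀ ((of ℤ G g) • (of ℤ G k • x)) = Φ (g * k) := by
      intro g
      simp only [Φ]
      rw [← mul_smul, ← map_mul, mul_inv_rev, ← mul_assoc, mul_inv_cancel, one_mul]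
    have e2 : ∀ g : G, of ℤ G k • ((of ℤ G g⁻¹) • h₀ ((of ℤ G g) • x)) = Φ g := by
      intro g
      simp only [Φ]
      rw [← mul_smul, ← map_mul]
    rw [Finset.sum_congr rfl (fun g _ => e1 g), Finset.sum_congr rfl (fun g _ => e2 g)]
    exact Equiv.sum_comp (Equiv.mulRight k) Φ
  refine ⟨MonoidAlgebra.equivariantOfLinearOfComm h₁.toIntLinearMap hequi, ?_⟩
  ext x
  change π (h₁ x) = f x
  rw [h₁_apply, map_nsmul, map_sum]
  have e3 : ∀ g : G, π ((of ℤ G g⁻¹) • h₀ ((of ℤ G g) • x)) = f x := by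
    intro g
    rw [map_smul, hh₀', map_smul, ← mul_smul, ← map_mul, inv_mul_cancel, map_one, one_smul]
  rw [Finset.sum_congr rfl (fun g _ => e3 g), Finset.sum_const, Finset.card_univ, smul_smul,
    mul_comm, ← Nat.card_eq_fintype_card]
  exact s56gwl_nsmul_eq_self_of_mod hn' _ (hC _)

end Fermat.Agent.S56
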