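/-
S56, node [GW-EC], local half [GW-LEC] (helper28).  Prefix `s56gwl_`.

Valuation estimates for `p`-th powers in the abstract local setting `lf_IsLocal E L v` of S55,
on the normal-basis filtration `nl_Fil Lat s = 1 + M(a + 1 + s)`:
* `s56gwl_fil_pow_mem`   : `(nl_Fil s)^p ≤ nl_Fil (s + e)`  (`v p = exp (-e)`, `e ≤ s + 1`);
* `s56gwl_fil_pow_surj`  : `nl_Fil (s + e) ≤ (nl_Fil s)^p`  (`e ≤ s`; successive approximation);
* `s56gwl_fil_torsion_free` : `nl_Fil s` has no `p`-torsion (`e ≤ s`).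
-/
import Mathlib
import Fermat.Agent.S55.Local.Basic
import Fermat.Agent.S55.Local.NormalLattice
import Fermat.Agent.S55.Local.NormIndex

set_option autoImplicit false

namespace Fermat.Agent.S56

open Fermat.Agent.S55 WithZero Finset

/-! ### successive approximation with a shift -/

theorem s56gwl_approx {A : Type*} [CommGroup A] (f : A →* A) (FX FY : ℕ → Subgroup A)
    (hsep : ∀ x, (∀ i, x ∈ FY i) → x = 1)
    (hcomp : ∀ x : ℕ → A, (∀ i, x i ∈ FX i) → ∃ y, ∀ k, y / ∏ i ∈ range k, x i ∈ FX k)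
    (hf : ∀ i, ∀ x ∈ FX i, f x ∈ FY i)
    (hstep : ∀ i, ∀ z ∈ FY i, ∃ x ∈ FX i, z / f x ∈ FY (i + 1))
    {z : A} (hz : z ∈ FY 0) : ∃ x ∈ FX 0, f x = z := by
  classical
  have hstep' : ∀ (i : ℕ) (w : A), ∃ x : A, (w ∈ FY i → x ∈ FX i ∧ w / f x ∈ FY (i + 1)) := by
    intro i w
    by_cases hw : w ∈ FY i
    · obtain ⟨x, hx, hx'⟩ := hstep i w hw
      exact ⟨x, fun _ => ⟨hx, hx'⟩⟩
    · exact ⟨1, fun h => absurd h hw⟩
  choose step hstepS using hstep'
  let zs : ℕ → A := fun n => Nat.rec z (fun n w => w / f (step n w)) n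
  have hzs0 : zs 0 = z := rfl
  have hzsS : ∀ n, zs (n + 1) = zs n / f (step n (zs n)) := fun n => rfl
  have hP : ∀ n, zs n ∈ FY n := by
    intro n
    induction n with
    | zero => exact hz
    | succ n ih =>
      rw [hzsS]
      exact (hstepS n (zs n) ih).2
  let xs : ℕ → A := fun n => step n (zs n)
  have hxs : ∀ n, xs n ∈ FX n := fun n => (hstepS n (zs n) (hP n)).1
  obtain ⟨x, hx⟩ := hcomp xs hxs
  have hprod : ∀ n, zs n = z / f (∏ i ∈ range n, xs i) := by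
    intro n
    induction n with
    | zero => simp [hzs0]
    | succ n ih =>
      have e : zs (n + 1) = zs n / f (xs n) := hzsS n
      rw [e, ih, Finset.prod_range_succ, map_mul, div_div]
  refine ⟨x, by simpa using hx 0, ?_⟩
  have h1 : z / f x = 1 := by
    apply hsep
    intro n
    have h2 : z / f x = zs n / f (x / ∏ i ∈ range n, xs i) := by
      rw [hprod n, map_div, div_div_div_cancel_right]
    rw [h2]
    exact (FY n).div_mem (hP n) (hf n _ (hx n))
  exact (div_eq_one.mp h1).symm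

/-! ### estimates -/

section Val

variable {L : Type} [Field L] (v : Valuation L ℤᵐ⁰)

theorem s56gwl_v_le_one_of_sub {x : L} (hx : v (x - 1) ≤ 1) : v x ≤ 1 := by
  have e : x = (x - 1) + 1 := by ring
  rw [e]
  exact v.map_add_le hx (by rw [map_one])

theorem s56gwl_v_geom_le {x : L} (hx : v x ≤ 1) (n : ℕ) : v (∑ i ∈ range n, x ^ i) ≤ 1 := by
  apply Valuation.map_sum_le
  intro i _
  rw [map_pow]
  exact pow_le_one' hx i

theorem s56gwl_v_pow_sub_one {x : L} (hx : v (x - 1) ≤ 1) (j : ℕ) :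
    v (x ^ j - 1) ≤ v (x - 1) := by
  rw [← mul_geom_sum x j, map_mul]
  calc v (x - 1) * v (∑ i ∈ range j, x ^ i) ≤ v (x - 1) * 1 :=
        mul_le_mul' le_rfl (s56gwl_v_geom_le v (s56gwl_v_le_one_of_sub v hx) j)
    _ = v (x - 1) := mul_one _

/-- `x ^ p = 1 + p (x - 1)` up to `(x - 1)²`. -/
theorem s56gwl_v_pow_lin {x : L} (hx : v (x - 1) ≤ 1) (p : ℕ) :
    v (x ^ p - 1 - (p : L) * (x - 1)) ≤ v (x - 1) * v (x - 1) := by
  have e : x ^ p - 1 - (p : L) * (x - 1) = (x - 1) * ∑ j ∈ range p, (x ^ j - 1) := by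
    have h := mul_geom_sum x p
    rw [Finset.sum_sub_distrib, Finset.sum_const, Finset.card_range, nsmul_eq_mul, mul_one,
      mul_sub (x - 1), h]
    ring
  rw [e, map_mul]
  exact mul_le_mul' le_rfl (Valuation.map_sum_le v fun j _ => s56gwl_v_pow_sub_one v hx j)

theorem s56gwl_v_natCast_le_one (n : ℕ) : v (n : L) ≤ 1 := by
  induction n with
  | zero => simp
  | succ n ih =>
    rw [Nat.cast_succ]
    exact v.map_add_le ih (by rw [map_one])

/-- the exponent of `p`. -/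
theorem s56gwl_exists_exp {p : ℕ} (hp : (p : L) ≠ 0) : ∃ e : ℕ, v (p : L) = exp (-(e : ℤ)) := by
  have h1 := lf_v_eq_exp_log v hp
  have h2 : log (v (p : L)) ≤ 0 := by
    have h3 := s56gwl_v_natCast_le_one v p
    rw [h1, ← exp_zero, exp_le_exp] at h3
    exact h3
  refine ⟨(-log (v (p : L))).toNat, ?_⟩
  rw [Int.toNat_of_nonneg (by omega), neg_neg]
  exact h1

end Val

/-! ### the normal-basis filtration -/

section Fil

variable {E L : Type} [Field E] [Field L] [Algebra E L] [FiniteDimensional E L]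
  {v : Valuation L ℤᵐ⁰} (Lat : nl_Lattice E L v)

omit [FiniteDimensional E L] in
/-- division by `p` on the lattices. -/
theorem s56gwl_inv_smul_mem {p e : ℕ} (hpe : v (p : L) = exp (-(e : ℤ))) {t : ℕ} {y : L}
    (hy : y ∈ nl_M Lat (t + e)) : ((p : E)⁻¹) • y ∈ nl_M Lat t := by
  intro τ
  rw [map_smul, Finsupp.smul_apply, smul_eq_mul, map_mul, map_mul, map_inv₀, map_natCast,
    map_inv₀, hpe]
  have h1 := hy τ
  calc (exp (-(e : ℤ)))⁻¹ * v (algebraMap E L (Lat.B.repr y τ))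
      ≤ (exp (-(e : ℤ)))⁻¹ * exp (-((t + e : ℕ) : ℤ)) := mul_le_mul' le_rfl h1
    _ = exp (-(t : ℤ)) := by
        rw [← exp_neg, ← exp_add]
        congr 1
        push_cast
        ring

theorem s56gwl_fil_pow_mem {p e : ℕ} (hpe : v (p : L) = exp (-(e : ℤ))) {s : ℕ} (hs : e ≤ s + 1)
    {u : Lˣ} (hu : u ∈ nl_Fil Lat s) : u ^ p ∈ nl_Fil Lat (s + e) := by
  rw [nl_mem_Fil] at hu ⊢
  have hy1 : v ((u : L) - 1) ≤ exp (-((Lat.a + 1 + s : ℕ) : ℤ)) := nl_M_le_ball Lat hu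
  have hy1' : v ((u : L) - 1) ≤ 1 := hy1.trans (lf_exp_neg_le_one _)
  have hlin := s56gwl_v_pow_lin v hy1' p
  have e1 : ((u ^ p : Lˣ) : L) - 1 = (p : E) • ((u : L) - 1) +
      ((u : L) ^ p - 1 - (p : L) * ((u : L) - 1)) := by
    rw [Units.val_pow_eq_pow_val, Algebra.smul_def, map_natCast]
    ring
  rw [e1]
  refine add_mem ?_ (nl_ball_le_M Lat ?_)
  · have h2 := nl_smul_mem Lat (c := (p : E)) (s := e) (by rw [map_natCast, hpe]) hu
    have heq : Lat.a + 1 + (s + e) = e + (Lat.a + 1 + s) := by omega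
    rw [heq]
    exact h2
  · exact hlin.trans ((mul_le_mul' hy1 hy1).trans (nl_exp_mul_le (by omega)))

theorem s56gwl_fil_torsion_free {p e : ℕ} (hpe : v (p : L) = exp (-(e : ℤ))) {s : ℕ} (hs : e ≤ s)
    {u : Lˣ} (hu : u ∈ nl_Fil Lat s) (hup : u ^ p = 1) : u = 1 := by
  by_contra hne
  rw [nl_mem_Fil] at hu
  have hy0 : (u : L) - 1 ≠ 0 := by
    intro h
    apply hne
    apply Units.ext
    rw [Units.val_one]
    exact sub_eq_zero.mp h
  have hy1 : v ((u : L) - 1) ≤ exp (-((Lat.a + 1 + s : ℕ) : ℤ)) := nl_M_le_ball Lat hu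
  have hy1' : v ((u : L) - 1) ≤ 1 := hy1.trans (lf_exp_neg_le_one _)
  have hlin := s56gwl_v_pow_lin v hy1' p
  have hup' : (u : L) ^ p = 1 := by
    rw [← Units.val_pow_eq_pow_val, hup, Units.val_one]
  rw [hup', sub_self, zero_sub, Valuation.map_neg, map_mul, hpe] at hlin
  have hvy : 0 < v ((u : L) - 1) := zero_lt_iff.mpr ((v.ne_zero_iff).mpr hy0)
  have h3 : exp (-(e : ℤ)) ≤ v ((u : L) - 1) := le_of_mul_le_mul_right hlin hvy
  have h4 : exp (-((Lat.a + 1 + s : ℕ) : ℤ)) < (exp (-(e : ℤ)) : ℤᵐ⁰) := by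
    rw [exp_lt_exp]
    push_cast
    omega
  exact absurd (h3.trans hy1) (not_le.mpr h4)

/-- one approximation step for the `p`-th power map. -/
theorem s56gwl_fil_pow_step {p e : ℕ} (hpe : v (p : L) = exp (-(e : ℤ))) (hp0 : (p : E) ≠ 0)
    {s : ℕ} (hs : e ≤ s) {z : Lˣ} (hz : z ∈ nl_Fil Lat (s + e)) :
    ∃ x ∈ nl_Fil Lat s, z / x ^ p ∈ nl_Fil Lat (s + e + 1) := by
  rw [nl_mem_Fil] at hz
  have heq : Lat.a + 1 + (s + e) = (Lat.a + 1 + s) + e := by omega
  rw [heq] at hz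
  have hy := s56gwl_inv_smul_mem Lat hpe hz
  have hy1 : v (((p : E)⁻¹) • ((z : L) - 1)) < 1 := nl_lt_one_of_mem Lat hy
  set y : L := ((p : E)⁻¹) • ((z : L) - 1) with hy_def
  have hx : nl_unit y hy1 ∈ nl_Fil Lat s := by
    rw [nl_mem_Fil, nl_unit_sub]
    exact hy
  refine ⟨nl_unit y hy1, hx, ?_⟩
  have hxp := s56gwl_fil_pow_mem Lat hpe (by omega) hx
  refine nl_div_mem_Fil Lat hxp (nl_ball_le_M Lat ?_)
  have hyb : v y ≤ exp (-((Lat.a + 1 + s : ℕ) : ℤ)) := nl_M_le_ball Lat hy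
  have hyb' : v ((nl_unit y hy1 : L) - 1) ≤ 1 := by
    rw [nl_unit_sub]
    exact hyb.trans (lf_exp_neg_le_one _)
  have hlin := s56gwl_v_pow_lin v hyb' p
  rw [nl_unit_sub] at hlin
  have hpy : (p : L) * y = (z : L) - 1 := by
    rw [hy_def, Algebra.smul_def, map_inv₀, map_natCast, ← mul_assoc, mul_inv_cancel₀, one_mul]
    rw [← map_natCast (algebraMap E L)]
    exact (map_ne_zero (algebraMap E L)).mpr hp0
  have e2 : (z : L) - ((nl_unit y hy1 ^ p : Lˣ) : L) =
      -(((nl_unit y hy1 : Lˣ) : L) ^ p - 1 - (p : L) * y) := by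
    rw [Units.val_pow_eq_pow_val, hpy]
    ring
  rw [e2, Valuation.map_neg]
  exact hlin.trans ((mul_le_mul' hyb hyb).trans (nl_exp_mul_le (by omega)))

/-- every element of `nl_Fil (s + e)` is a `p`-th power of an element of `nl_Fil s`. -/
theorem s56gwl_fil_pow_surj [IsGalois E L] (h : lf_IsLocal E L v) {p e : ℕ}
    (hpe : v (p : L) = exp (-(e : ℤ)))
    (hp0 : (p : E) ≠ 0) {s : ℕ} (hs : e ≤ s) {z : Lˣ} (hz : z ∈ nl_Fil Lat (s + e)) :
    ∃ x ∈ nl_Fil Lat s, x ^ p = z := by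
  have key := s56gwl_approx (powMonoidHom p : Lˣ →* Lˣ) (fun i => nl_Fil Lat (s + i))
    (fun i => nl_Fil Lat (s + e + i))
    (lf_hsep_of_le (v := v) _ (fun i => (nl_Fil_le_U Lat (s + e + i)).trans
      (lf_U_anti v (by omega))))
    (lf_hcomp_of_open h _ (fun i j hij => nl_Fil_anti Lat (by omega))
      (fun i => (nl_Fil_le_U Lat (s + i)).trans (lf_U_anti v (by omega)))
      (fun k => ⟨_, nl_U_le_Fil Lat (s + k)⟩))
    (fun i x hx => by
      have := s56gwl_fil_pow_mem Lat hpe (s := s + i) (by omega) hx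
      have heq : s + i + e = s + e + i := by omega
      rw [heq] at this
      exact this)
    (fun i z hz => by
      have heq : s + e + i = (s + i) + e := by omega
      rw [heq] at hz
      obtain ⟨x, hx, hx'⟩ := s56gwl_fil_pow_step Lat hpe hp0 (s := s + i) (by omega) hz
      refine ⟨x, hx, ?_⟩
      have heq' : s + e + (i + 1) = s + i + e + 1 := by omega
      rw [heq']
      exact hx')
    (z := z) (by simpa using hz)
  obtain ⟨x, hx, hxz⟩ := key
  exact ⟨x, by simpa using hx, hxz⟩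

end Fil

end Fermat.Agent.S56
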