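/-
S56, node [GW-EC], local half [GW-LEC] (helper28).  Prefix `s56gwl_`.

**The Galois-module structure of `Lˣ / p`** in counting form, in the abstract local setting
`lf_IsLocal E L v` of S55 (`L/E` finite Galois, `C = Gal(L/E)` of order prime to `p`,
`Λ = ℤ[C]`).  For a model `M` of `Lˣ` as a `Λ`-module (`s56gwl_Model E L M`) and every finite
`Λ`-module `X` killed by `p`:

  `#Hom_Λ(X, M/pM) = #Hom_Λ(X, 𝔽_p) * #Hom_Λ(X, M[p]) * #X ^ d`,   `[O_E : p O_E] = p ^ d`

(`s56gwl_units_main`).  I.e. `Lˣ/p ≅ 𝔽_p ⊕ μ_p(L) ⊕ 𝔽_p[C]^d` in the Grothendieck group.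
-/
import Mathlib
import Fermat.Agent.S55.Local.Basic
import Fermat.Agent.S55.Local.NormalLattice
import Fermat.Agent.S55.Local.NormIndex
import Fermat.Agent.S56.GW.LEC.HomCount
import Fermat.Agent.S56.GW.LEC.Maschke
import Fermat.Agent.S56.GW.LEC.Coind
import Fermat.Agent.S56.GW.LEC.UnitsVal

set_option autoImplicit false

namespace Fermat.Agent.S56

open Fermat.Agent.S55 WithZero Finset MonoidAlgebra

/-! ### models of `Lˣ` as a `ℤ[Gal(L/E)]`-module -/

/-- a model of `Lˣ` as a `ℤ[Gal(L/E)]`-module. -/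
structure s56gwl_Model (E L : Type) [Field E] [Field L] [Algebra E L] (M : Type) [AddCommGroup M]
    [Module (MonoidAlgebra ℤ (L ≃ₐ[E] L)) M] where
  /-- the identification with the units -/
  e : M ≃+ Additive Lˣ
  e_smul : ∀ (σ : L ≃ₐ[E] L) (m : M),
    e (of ℤ (L ≃ₐ[E] L) σ • m) = Additive.ofMul (lf_act σ (e m).toMul)

namespace s56gwl_Model

variable {E L : Type} [Field E] [Field L] [Algebra E L] {M : Type} [AddCommGroup M]
  [Module (MonoidAlgebra ℤ (L ≃ₐ[E] L)) M] (μ : s56gwl_Model E L M)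

/-- the unit attached to an element of the model. -/
def u (m : M) : Lˣ := (μ.e m).toMul

/-- the element of the model attached to a unit. -/
def ofU (w : Lˣ) : M := μ.e.symm (Additive.ofMul w)

@[simp] theorem u_ofU (w : Lˣ) : μ.u (μ.ofU w) = w := by simp [u, ofU]

@[simp] theorem ofU_u (m : M) : μ.ofU (μ.u m) = m := by simp [u, ofU]

theorem u_add (a b : M) : μ.u (a + b) = μ.u a * μ.u b := by simp [u]

theorem u_zero : μ.u 0 = 1 := by simp [u]

theorem u_nsmul (n : ℕ) (a : M) : μ.u (n • a) = μ.u a ^ n := by simp [u, map_nsmul]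

theorem u_zsmul (n : ℤ) (a : M) : μ.u (n • a) = μ.u a ^ n := by simp [u, map_zsmul]

theorem u_smul (σ : L ≃ₐ[E] L) (m : M) : μ.u (of ℤ (L ≃ₐ[E] L) σ • m) = lf_act σ (μ.u m) := by
  change (μ.e (of ℤ (L ≃ₐ[E] L) σ • m)).toMul = _
  rw [μ.e_smul]
  rfl

theorem u_injective : Function.Injective μ.u := fun a b h => by
  have := congrArg μ.ofU h
  simpa using this

theorem ofU_mul (w w' : Lˣ) : μ.ofU (w * w') = μ.ofU w + μ.ofU w' := by
  apply μ.u_injective
  rw [u_add, u_ofU, u_ofU, u_ofU]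

theorem ofU_pow (w : Lˣ) (n : ℕ) : μ.ofU (w ^ n) = n • μ.ofU w := by
  apply μ.u_injective
  rw [u_nsmul, u_ofU, u_ofU]

theorem ofU_div (w w' : Lˣ) : μ.ofU (w / w') + μ.ofU w' = μ.ofU w := by
  rw [← ofU_mul, div_mul_cancel]

/-- the submodule attached to a Galois-stable subgroup of `Lˣ`. -/
def sub (S : Subgroup Lˣ) (hS : ∀ (σ : L ≃ₐ[E] L) (w : Lˣ), w ∈ S → lf_act σ w ∈ S) :
    Submodule (MonoidAlgebra ℤ (L ≃ₐ[E] L)) M where
  carrier := {m | μ.u m ∈ S}
  add_mem' := fun {a b} ha hb => by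
    show μ.u (a + b) ∈ S
    rw [μ.u_add]
    exact S.mul_mem ha hb
  zero_mem' := by
    show μ.u 0 ∈ S
    rw [μ.u_zero]
    exact S.one_mem
  smul_mem' := by
    intro c m hm
    show μ.u (c • m) ∈ S
    induction c using MonoidAlgebra.induction_on with
    | of g =>
      rw [μ.u_smul]
      exact hS g _ hm
    | add x y hx hy =>
      rw [add_smul, μ.u_add]
      exact S.mul_mem hx hy
    | smul r x hx =>
      rw [smul_assoc, μ.u_zsmul]
      exact S.zpow_mem hx r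

theorem mem_sub {S : Subgroup Lˣ} {hS : ∀ (σ : L ≃ₐ[E] L) (w : Lˣ), w ∈ S → lf_act σ w ∈ S}
    {m : M} : m ∈ μ.sub S hS ↔ μ.u m ∈ S := Iff.rfl

/-- the valuation, as an additive map to `ℤ`. -/
noncomputable def ordZ (v : Valuation L ℤᵐ⁰) : M →+ ℤ where
  toFun m := Multiplicative.toAdd (lf_ord v (μ.u m))
  map_zero' := by
    rw [μ.u_zero, map_one]
    rfl
  map_add' a b := by
    rw [μ.u_add, map_mul]
    rfl

theorem ordZ_eq_zero_iff (v : Valuation L ℤᵐ⁰) (m : M) :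
    μ.ordZ v m = 0 ↔ μ.u m ∈ lf_U v 0 := by
  rw [← lf_ord_ker, MonoidHom.mem_ker]
  constructor
  · intro h
    exact Multiplicative.toAdd.injective h
  · intro h
    change Multiplicative.toAdd (lf_ord v (μ.u m)) = 0
    rw [h]
    rfl

theorem ordZ_smul {v : Valuation L ℤᵐ⁰} (h : lf_IsLocal E L v) (σ : L ≃ₐ[E] L) (m : M) :
    μ.ordZ v (of ℤ (L ≃ₐ[E] L) σ • m) = μ.ordZ v m := by
  change Multiplicative.toAdd (lf_ord v (μ.u _)) = Multiplicative.toAdd (lf_ord v (μ.u m))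
  congr 1
  apply WithZero.coe_injective
  rw [lf_ord_coe, lf_ord_coe, μ.u_smul, lf_act_coe, h.inv]

theorem ordZ_surjective {v : Valuation L ℤᵐ⁰} (h : lf_IsLocal E L v) :
    Function.Surjective (μ.ordZ v) := by
  obtain ⟨π, hπ⟩ := h.unif
  have hπ0 : π ≠ 0 := by
    intro h0
    rw [h0, map_zero] at hπ
    exact (WithZero.coe_ne_zero).symm hπ
  have h1 : μ.ordZ v (μ.ofU (Units.mk0 π hπ0)) = -1 := by
    change Multiplicative.toAdd (lf_ord v (μ.u _)) = -1
    rw [μ.u_ofU]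
    have h2 : lf_ord v (Units.mk0 π hπ0) = Multiplicative.ofAdd (-1 : ℤ) := by
      apply WithZero.coe_injective
      rw [lf_ord_coe, Units.val_mk0, hπ]
      rfl
    rw [h2]
    rfl
  intro k
  refine ⟨(-k) • μ.ofU (Units.mk0 π hπ0), ?_⟩
  rw [map_zsmul, h1]
  simp

end s56gwl_Model

/-! ### the additive subgroups `I(γ) = {c ∈ E | v c ≤ γ}` -/

section Ideal

variable (E : Type) {L : Type} [Field E] [Field L] [Algebra E L] (v : Valuation L ℤᵐ⁰)

/-- `{c ∈ E | v c ≤ γ}`. -/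
def s56gwl_I (γ : ℤᵐ⁰) : AddSubgroup E where
  carrier := {c | v (algebraMap E L c) ≤ γ}
  zero_mem' := by simp
  add_mem' := by
    intro a b ha hb
    show v (algebraMap E L (a + b)) ≤ γ
    rw [map_add]
    exact v.map_add_le ha hb
  neg_mem' := by
    intro a ha
    show v (algebraMap E L (-a)) ≤ γ
    rw [map_neg, Valuation.map_neg]
    exact ha

variable {E v}

theorem s56gwl_mem_I {γ : ℤᵐ⁰} {c : E} : c ∈ s56gwl_I E v γ ↔ v (algebraMap E L c) ≤ γ := Iff.rfl

/-- scaling by an element of `E`. -/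
theorem s56gwl_I_map (c₀ : E) (hc₀ : c₀ ≠ 0) (γ : ℤᵐ⁰) :
    (s56gwl_I E v γ).map (AddMonoidHom.mulLeft c₀) = s56gwl_I E v (v (algebraMap E L c₀) * γ) := by
  have hv0 : v (algebraMap E L c₀) ≠ 0 :=
    (v.ne_zero_iff).mpr ((map_ne_zero (algebraMap E L)).mpr hc₀)
  ext c
  rw [AddSubgroup.mem_map, s56gwl_mem_I]
  constructor
  · rintro ⟨x, hx, rfl⟩
    rw [AddMonoidHom.coe_mulLeft, map_mul, map_mul]
    exact mul_le_mul' le_rfl hx
  · intro hc
    refine ⟨c₀⁻¹ * c, ?_, ?_⟩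
    · rw [s56gwl_mem_I, map_mul, map_mul, map_inv₀, map_inv₀]
      calc (v (algebraMap E L c₀))⁻¹ * v (algebraMap E L c)
          ≤ (v (algebraMap E L c₀))⁻¹ * (v (algebraMap E L c₀) * γ) := mul_le_mul' le_rfl hc
        _ = γ := by rw [← mul_assoc, inv_mul_cancel₀ hv0, one_mul]
    · rw [AddMonoidHom.coe_mulLeft, ← mul_assoc, mul_inv_cancel₀ hc₀, one_mul]

theorem s56gwl_I_relIndex_scale (c₀ : E) (hc₀ : c₀ ≠ 0) (γ γ' : ℤᵐ⁰) :
    (s56gwl_I E v (v (algebraMap E L c₀) * γ')).relIndex (s56gwl_I E v (v (algebraMap E L c₀) * γ))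
      = (s56gwl_I E v γ').relIndex (s56gwl_I E v γ) := by
  rw [← s56gwl_I_map c₀ hc₀, ← s56gwl_I_map c₀ hc₀]
  exact AddSubgroup.relIndex_map_map_of_injective _ _ (mul_right_injective₀ hc₀)

/-- `[I(exp(-T)) : I(exp(-T) v(p))] = [O_E : p O_E]`. -/
theorem s56gwl_I_relIndex {p e : ℕ} (hpe : v (p : L) = exp (-(e : ℤ))) (hp0 : (p : E) ≠ 0)
    (T : ℕ) :
    (s56gwl_I E v (exp (-((T + e : ℕ) : ℤ)))).relIndex (s56gwl_I E v (exp (-(T : ℤ))))
      = (s56gwl_I E v (v (p : L))).relIndex (s56gwl_I E v 1) := by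
  rcases Nat.eq_zero_or_pos e with he | he
  · subst he
    rw [hpe]
    simp
  · -- an element of `E` of maximal valuation `≤ exp (-T)`
    have hpE : algebraMap E L (p : E) = (p : L) := map_natCast _ p
    have hex : ∃ ub : ℤ, (∃ c : E, c ≠ 0 ∧ v (algebraMap E L c) = exp ub ∧ ub ≤ -(T : ℤ)) ∧
        ∀ z : ℤ, (∃ c : E, c ≠ 0 ∧ v (algebraMap E L c) = exp z ∧ z ≤ -(T : ℤ)) → z ≤ ub := by
      apply Int.exists_greatest_of_bdd
      · exact ⟨-(T : ℤ), fun z hz => hz.choose_spec.2.2⟩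
      · refine ⟨-((e * T : ℕ) : ℤ), (p : E) ^ T, pow_ne_zero _ hp0, ?_, ?_⟩
        · rw [map_pow, map_pow, hpE, hpe, ← exp_nsmul]
          congr 1
          push_cast
          ring
        · push_cast
          nlinarith
    obtain ⟨n₀, ⟨c₀, hc₀, hvc₀, hn₀⟩, hmax⟩ := hex
    -- `I(exp(-T)) = I(v c₀)`
    have h1 : s56gwl_I E v (exp (-(T : ℤ))) = s56gwl_I E v (v (algebraMap E L c₀) * 1) := by
      ext c
      rw [s56gwl_mem_I, s56gwl_mem_I, mul_one, hvc₀]
      constructor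
      · intro hc
        rcases eq_or_ne c 0 with rfl | hc0
        · simp
        · have hvc : v (algebraMap E L c) ≠ 0 :=
            (v.ne_zero_iff).mpr ((map_ne_zero (algebraMap E L)).mpr hc0)
          have h2 := lf_v_eq_exp_log v ((map_ne_zero (algebraMap E L)).mpr hc0)
          rw [h2, exp_le_exp] at hc ⊢
          exact hmax _ ⟨c, hc0, h2, hc⟩
      · intro hc
        exact hc.trans (exp_le_exp.mpr hn₀)
    have h2 : s56gwl_I E v (exp (-((T + e : ℕ) : ℤ)))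
        = s56gwl_I E v (v (algebraMap E L c₀) * v (p : L)) := by
      -- divide by `p`
      have hpL : (p : L) ≠ 0 := by
        rw [← hpE]
        exact (map_ne_zero (algebraMap E L)).mpr hp0
      have hvp : v (p : L) ≠ 0 := (v.ne_zero_iff).mpr hpL
      ext c
      have hdiv : ∀ γ : ℤᵐ⁰, c ∈ s56gwl_I E v (γ * v (p : L)) ↔ (p : E)⁻¹ * c ∈ s56gwl_I E v γ := by
        intro γ
        rw [s56gwl_mem_I, s56gwl_mem_I, map_mul, map_mul, map_inv₀, map_inv₀, hpE]
        constructor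
        · intro hc
          calc (v (p : L))⁻¹ * v (algebraMap E L c) ≤ (v (p : L))⁻¹ * (γ * v (p : L)) :=
                mul_le_mul' le_rfl hc
            _ = γ := by rw [mul_comm γ, ← mul_assoc, inv_mul_cancel₀ hvp, one_mul]
        · intro hc
          calc v (algebraMap E L c) = v (p : L) * ((v (p : L))⁻¹ * v (algebraMap E L c)) := by
                rw [← mul_assoc, mul_inv_cancel₀ hvp, one_mul]
            _ ≤ v (p : L) * γ := mul_le_mul' le_rfl hc
            _ = γ * v (p : L) := mul_comm _ _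
      have e1 : (exp (-((T + e : ℕ) : ℤ)) : ℤᵐ⁰) = exp (-(T : ℤ)) * v (p : L) := by
        rw [hpe, ← exp_add]
        congr 1
        push_cast
        ring
      rw [e1, hdiv, hdiv, h1, mul_one]
    rw [h1, h2]
    exact s56gwl_I_relIndex_scale c₀ hc₀ 1 (v (p : L))

end Ideal

end Fermat.Agent.S56
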