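/-
S56, node [GW-EC], local half [GW-LEC] (helper28).  Prefix `s56gwl_`.

The structure of `V / V^p` for `V = nl_Fil Lat s = 1 + M(T)`, `T = a + 1 + s`, `s ≥ e`:
`V / V^p ≅ M(T) / M(T + e) ≅ Fun(C, I_T / I_{T+e})` as `ℤ[C]`-modules (`s56gwl_thetaEquiv`).
-/
import Mathlib
import Fermat.Agent.S56.GW.LEC.UnitsMod

set_option autoImplicit false

namespace Fermat.Agent.S56

open Fermat.Agent.S55 WithZero Finset MonoidAlgebra

section Theta

variable {E L : Type} [Field E] [Field L] [Algebra E L] [FiniteDimensional E L]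
  {v : Valuation L ℤᵐ⁰} {M : Type} [AddCommGroup M] [Module (MonoidAlgebra ℤ (L ≃ₐ[E] L)) M]
  (μ : s56gwl_Model E L M) (Lat : nl_Lattice E L v)

/-- the submodule attached to `nl_Fil Lat s`. -/
def s56gwl_Vsub (s : ℕ) : Submodule (MonoidAlgebra ℤ (L ≃ₐ[E] L)) M :=
  μ.sub (nl_Fil Lat s) (fun σ _ hw => nl_act_mem_Fil Lat hw σ)

theorem s56gwl_mem_Vsub {s : ℕ} {m : M} : m ∈ s56gwl_Vsub μ Lat s ↔ μ.u m ∈ nl_Fil Lat s :=
  Iff.rfl

/-- the coefficient group `I_T / I_{T+e}`. -/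
abbrev s56gwl_A (v : Valuation L ℤᵐ⁰) (E : Type) [Field E] [Algebra E L] (T e : ℕ) : Type :=
  ↥(s56gwl_I E v (exp (-(T : ℤ)))) ⧸
    (s56gwl_I E v (exp (-((T + e : ℕ) : ℤ)))).addSubgroupOf (s56gwl_I E v (exp (-(T : ℤ))))

omit [FiniteDimensional E L] in
theorem s56gwl_A_killed {p e : ℕ} (hpe : v (p : L) = exp (-(e : ℤ))) (T : ℕ)
    (a : s56gwl_A v E T e) : p • a = 0 := by
  obtain ⟨c, rfl⟩ := QuotientAddGroup.mk_surjective a
  rw [← QuotientAddGroup.mk_nsmul, QuotientAddGroup.eq_zero_iff, AddSubgroup.mem_addSubgroupOf,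
    s56gwl_mem_I]
  have h1 : ((p • c : ↥(s56gwl_I E v (exp (-(T : ℤ))))) : E) = (p : E) * (c : E) := by
    rw [AddSubgroup.coe_nsmul, nsmul_eq_mul]
  rw [h1, map_mul, map_mul, map_natCast, hpe]
  calc exp (-(e : ℤ)) * v (algebraMap E L (c : E)) ≤ exp (-(e : ℤ)) * exp (-(T : ℤ)) :=
        mul_le_mul' le_rfl c.2
    _ = exp (-((T + e : ℕ) : ℤ)) := by
        rw [← exp_add]
        congr 1
        push_cast
        ring

/-- coordinates of `w - 1` for `w ∈ nl_Fil Lat s`. -/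
noncomputable def s56gwl_coord {s : ℕ} (w : Lˣ) (hw : w ∈ nl_Fil Lat s) (τ : L ≃ₐ[E] L) :
    ↥(s56gwl_I E v (exp (-((Lat.a + 1 + s : ℕ) : ℤ)))) :=
  ⟨Lat.B.repr ((w : L) - 1) τ, hw τ⟩

theorem s56gwl_mem_fil_add_iff {s e : ℕ} {w : Lˣ} :
    w ∈ nl_Fil Lat (s + e) ↔ ∀ τ, v (algebraMap E L (Lat.B.repr ((w : L) - 1) τ))
      ≤ exp (-((Lat.a + 1 + s + e : ℕ) : ℤ)) := by
  have heq : Lat.a + 1 + s + e = Lat.a + 1 + (s + e) := by omega
  rw [heq]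
  exact Iff.rfl

/-- multiplicativity of the coordinates modulo `I_{T+e}`. -/
theorem s56gwl_coord_mul {s e : ℕ} (hs : e ≤ s + 1) {w w' : Lˣ} (hw : w ∈ nl_Fil Lat s)
    (hw' : w' ∈ nl_Fil Lat s) (τ : L ≃ₐ[E] L) :
    v (algebraMap E L (Lat.B.repr (((w * w' : Lˣ) : L) - 1) τ - (Lat.B.repr ((w : L) - 1) τ
      + Lat.B.repr ((w' : L) - 1) τ))) ≤ exp (-((Lat.a + 1 + s + e : ℕ) : ℤ)) := by
  have e1 : ((w * w' : Lˣ) : L) - 1 = ((w : L) - 1) + ((w' : L) - 1)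
      + ((w : L) - 1) * ((w' : L) - 1) := by
    push_cast
    ring
  rw [e1, map_add, map_add, Finsupp.add_apply, Finsupp.add_apply, add_sub_cancel_left]
  have h1 : ((w : L) - 1) * ((w' : L) - 1) ∈ nl_M Lat (Lat.a + 1 + s + e) := by
    apply nl_ball_le_M
    rw [map_mul]
    exact (mul_le_mul' (nl_M_le_ball Lat hw) (nl_M_le_ball Lat hw')).trans
      (nl_exp_mul_le (by omega))
  exact h1 τ

variable (p : ℕ)

/-- the additive map `V → Fun(C, I_T / I_{T+e})`. -/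
noncomputable def s56gwl_theta0 {s e : ℕ} (hs : e ≤ s + 1) :
    ↥(s56gwl_Vsub μ Lat s) →+ ((L ≃ₐ[E] L) → s56gwl_A v E (Lat.a + 1 + s) e) where
  toFun m τ := QuotientAddGroup.mk (s56gwl_coord Lat (μ.u m.1) m.2 τ)
  map_zero' := by
    funext τ
    rw [Pi.zero_apply, QuotientAddGroup.eq_zero_iff, AddSubgroup.mem_addSubgroupOf, s56gwl_mem_I]
    change v (algebraMap E L (Lat.B.repr ((μ.u (0 : M) : L) - 1) τ)) ≤ _
    rw [μ.u_zero]
    simp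
  map_add' := by
    intro m m'
    funext τ
    rw [Pi.add_apply, ← QuotientAddGroup.mk_add, QuotientAddGroup.eq,
      AddSubgroup.mem_addSubgroupOf, s56gwl_mem_I]
    have h := s56gwl_coord_mul Lat hs m.2 m'.2 τ
    have e1 : ((-(s56gwl_coord Lat (μ.u (m + m' : ↥(s56gwl_Vsub μ Lat s)).1) (m + m').2 τ)
        + (s56gwl_coord Lat (μ.u m.1) m.2 τ + s56gwl_coord Lat (μ.u m'.1) m'.2 τ)
        : ↥(s56gwl_I E v (exp (-((Lat.a + 1 + s : ℕ) : ℤ))))) : E)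
        = -(Lat.B.repr (((μ.u m.1 * μ.u m'.1 : Lˣ) : L) - 1) τ
          - (Lat.B.repr ((μ.u m.1 : L) - 1) τ + Lat.B.repr ((μ.u m'.1 : L) - 1) τ)) := by
      have h2 : μ.u (m + m' : ↥(s56gwl_Vsub μ Lat s)).1 = μ.u m.1 * μ.u m'.1 := μ.u_add _ _
      simp only [s56gwl_coord, AddSubgroup.coe_add, AddSubgroup.coe_neg, h2]
      ring
    rw [e1, map_neg, Valuation.map_neg]
    exact h

theorem s56gwl_theta0_apply {s e : ℕ} (hs : e ≤ s + 1) (m : ↥(s56gwl_Vsub μ Lat s))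
    (τ : L ≃ₐ[E] L) :
    s56gwl_theta0 μ Lat hs m τ = QuotientAddGroup.mk (s56gwl_coord Lat (μ.u m.1) m.2 τ) := rfl

/-- the `ℤ[C]`-linear map `V → Coind (I_T / I_{T+e})`. -/
noncomputable def s56gwl_theta {s e : ℕ} (hs : e ≤ s + 1) :
    ↥(s56gwl_Vsub μ Lat s) →ₗ[MonoidAlgebra ℤ (L ≃ₐ[E] L)]
      s56gwl_Coind (L ≃ₐ[E] L) (s56gwl_A v E (Lat.a + 1 + s) e) :=
  s56gwl_linOf
    { toFun := fun m => s56gwl_coindMk (s56gwl_theta0 μ Lat hs m)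
      map_zero' := by rw [map_zero, s56gwl_coindMk_zero]
      map_add' := fun a b => by rw [map_add, s56gwl_coindMk_add] }
    (by
      intro σ m
      change s56gwl_coindMk (s56gwl_theta0 μ Lat hs (of ℤ _ σ • m))
        = of ℤ _ σ • s56gwl_coindMk (s56gwl_theta0 μ Lat hs m)
      rw [s56gwl_coind_smul_mk]
      congr 1
      funext τ
      rw [s56gwl_theta0_apply, s56gwl_theta0_apply]
      congr 1
      apply Subtype.ext
      change Lat.B.repr ((μ.u ((of ℤ _ σ • m : ↥(s56gwl_Vsub μ Lat s)) : M) : L) - 1) τ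
        = Lat.B.repr ((μ.u m.1 : L) - 1) (σ⁻¹ * τ)
      have h1 : ((of ℤ (L ≃ₐ[E] L) σ • m : ↥(s56gwl_Vsub μ Lat s)) : M)
          = of ℤ (L ≃ₐ[E] L) σ • (m : M) := rfl
      rw [h1, μ.u_smul, lf_act_coe]
      have h2 : σ (μ.u m.1 : L) - 1 = σ ((μ.u m.1 : L) - 1) := by rw [map_sub, map_one]
      rw [h2]
      have h3 := nl_repr_apply Lat σ ((μ.u m.1 : L) - 1) (σ⁻¹ * τ)
      rw [mul_inv_cancel_left] at h3
      exact h3)

theorem s56gwl_theta_fun {s e : ℕ} (hs : e ≤ s + 1) (m : ↥(s56gwl_Vsub μ Lat s)) :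
    s56gwl_coindFun (s56gwl_theta μ Lat hs m) = s56gwl_theta0 μ Lat hs m := by
  change s56gwl_coindFun (s56gwl_coindMk (s56gwl_theta0 μ Lat hs m)) = _
  rw [s56gwl_coindFun_mk]

theorem s56gwl_theta_eq_zero_iff {s e : ℕ} (hs : e ≤ s + 1) (m : ↥(s56gwl_Vsub μ Lat s)) :
    s56gwl_theta μ Lat hs m = 0 ↔ μ.u m.1 ∈ nl_Fil Lat (s + e) := by
  rw [s56gwl_mem_fil_add_iff]
  constructor
  · intro h τ
    have h1 := congrFun (congrArg s56gwl_coindFun h) τ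
    rw [s56gwl_theta_fun, s56gwl_coindFun_zero, Pi.zero_apply, s56gwl_theta0_apply,
      QuotientAddGroup.eq_zero_iff, AddSubgroup.mem_addSubgroupOf, s56gwl_mem_I] at h1
    exact h1
  · intro h
    apply s56gwl_coindFun_injective
    funext τ
    rw [s56gwl_theta_fun, s56gwl_coindFun_zero, Pi.zero_apply, s56gwl_theta0_apply,
      QuotientAddGroup.eq_zero_iff, AddSubgroup.mem_addSubgroupOf, s56gwl_mem_I]
    exact h τ

theorem s56gwl_theta_surjective {s e : ℕ} (hs : e ≤ s + 1) :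
    Function.Surjective (s56gwl_theta μ Lat (v := v) hs (e := e)) := by
  classical
  intro g
  have hc : ∀ τ : L ≃ₐ[E] L, ∃ c : ↥(s56gwl_I E v (exp (-((Lat.a + 1 + s : ℕ) : ℤ)))),
      (QuotientAddGroup.mk c : s56gwl_A v E (Lat.a + 1 + s) e) = s56gwl_coindFun g τ :=
    fun τ => QuotientAddGroup.mk_surjective _
  choose c hc using hc
  set y : L := ∑ τ : L ≃ₐ[E] L, (c τ : E) • Lat.B τ with hy
  have hrepr : ∀ τ, Lat.B.repr y τ = (c τ : E) := by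
    intro τ
    rw [hy, Lat.B.repr_sum_self]
  have hyM : y ∈ nl_M Lat (Lat.a + 1 + s) := by
    intro τ
    rw [hrepr]
    exact (c τ).2
  have hy1 : v y < 1 := nl_lt_one_of_mem Lat hyM
  have hw : nl_unit y hy1 ∈ nl_Fil Lat s := by
    rw [nl_mem_Fil, nl_unit_sub]
    exact hyM
  refine ⟨⟨μ.ofU (nl_unit y hy1), by rw [s56gwl_mem_Vsub, μ.u_ofU]; exact hw⟩, ?_⟩
  apply s56gwl_coindFun_injective
  funext τ
  rw [s56gwl_theta_fun, s56gwl_theta0_apply, ← hc τ]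
  congr 1
  apply Subtype.ext
  change Lat.B.repr ((μ.u (μ.ofU (nl_unit y hy1)) : L) - 1) τ = (c τ : E)
  rw [μ.u_ofU, nl_unit_sub, hrepr]

/-- `ker θ = p V`. -/
theorem s56gwl_theta_ker [IsGalois E L] (h : lf_IsLocal E L v) {e : ℕ}
    (hpe : v (p : L) = exp (-(e : ℤ))) (hp0 : (p : E) ≠ 0) {s : ℕ} (hs : e ≤ s) :
    LinearMap.ker (s56gwl_theta μ Lat (v := v) (e := e) (s := s) (by omega))
      = LinearMap.range (s56gwl_mulp (Λ := MonoidAlgebra ℤ (L ≃ₐ[E] L))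
          ↥(s56gwl_Vsub μ Lat s) p) := by
  ext m
  rw [LinearMap.mem_ker, s56gwl_theta_eq_zero_iff]
  constructor
  · intro hm
    obtain ⟨x, hx, hxp⟩ := s56gwl_fil_pow_surj Lat h hpe hp0 hs hm
    refine ⟨⟨μ.ofU x, by rw [s56gwl_mem_Vsub, μ.u_ofU]; exact hx⟩, ?_⟩
    apply Subtype.ext
    change p • μ.ofU x = (m : M)
    rw [← μ.ofU_pow, hxp, μ.ofU_u]
  · rintro ⟨x, rfl⟩
    change μ.u (p • (x : M)) ∈ _
    rw [μ.u_nsmul]
    exact s56gwl_fil_pow_mem Lat hpe (by omega) x.2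

/-- `V / pV ≅ Coind (I_T / I_{T+e})`. -/
noncomputable def s56gwl_thetaEquiv [IsGalois E L] (h : lf_IsLocal E L v) {e : ℕ}
    (hpe : v (p : L) = exp (-(e : ℤ))) (hp0 : (p : E) ≠ 0) {s : ℕ} (hs : e ≤ s) :
    (↥(s56gwl_Vsub μ Lat s) ⧸ LinearMap.range (s56gwl_mulp
        (Λ := MonoidAlgebra ℤ (L ≃ₐ[E] L)) ↥(s56gwl_Vsub μ Lat s) p))
      ≃ₗ[MonoidAlgebra ℤ (L ≃ₐ[E] L)]
      s56gwl_Coind (L ≃ₐ[E] L) (s56gwl_A v E (Lat.a + 1 + s) e) :=
  (Submodule.quotEquivOfEq _ _ (s56gwl_theta_ker μ Lat p h hpe hp0 hs).symm).trans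
    ((s56gwl_theta μ Lat (v := v) (e := e) (s := s) (by omega)).quotKerEquivOfSurjective
      (s56gwl_theta_surjective μ Lat _))

end Theta

end Fermat.Agent.S56
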